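import Mathlib
import Fermat.Agent.FF.Degree

/-!
# The value of a function at a place (algebraically closed constants)

`ev v f` is the constant congruent to `f` at `v`, multiplicative and additive on regular
functions.
-/

noncomputable section

set_option autoImplicit false

namespace Fermat.Agent.CurveTorsion

open AlgebraicCurve Polynomial
open Fermat.Agent.FF

variable {K F : Type*} [Field K] [Field F] [Algebra K F] [IsAlgClosed K] [IsFunctionField K F]

/-- A regular function is congruent to a constant. -/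
theorem exists_const_sub_mem (v : Place K F) {f : F} (hf : f ∈ ordGE v 0) :
    ∃ c : K, f - algebraMap K F c ∈ ordGE v 1 := by
  have hfm : f ∈ v.toValuationSubring := (mem_toValuationSubring_iff v).mpr hf
  have : Algebra.IsIntegral K v.ResidueField := Algebra.IsIntegral.of_finite K v.ResidueField
  obtain ⟨c, hc⟩ :=
    (IsAlgClosed.algebraMap_bijective_of_isIntegral (k := K) (K := v.ResidueField)).2
      (IsLocalRing.residue _ ⟨f, hfm⟩)
  refine ⟨c, ?_⟩
  have h : IsLocalRing.residue v.toValuationSubring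
      (⟨f, hfm⟩ - algebraMap K v.toValuationSubring c) = 0 := by
    rw [map_sub, ← hc, sub_eq_zero]
    rfl
  simpa using (residue_eq_zero_iff v _).mp h

omit [IsAlgClosed K] [IsFunctionField K F] in
theorem const_mem_ordGE_one_iff (v : Place K F) (c : K) :
    algebraMap K F c ∈ ordGE v 1 ↔ c = 0 := by
  refine ⟨fun h => by_contra fun hc => ?_, fun h => by simp [h]⟩
  have h0 : algebraMap K F c ≠ 0 := by simpa using hc
  rw [mem_ordGE_of_ne_zero v h0, ord_algebraMap] at h
  omega

/-- The value of `f` at `v`; junk `0` at a pole. -/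
def ev (v : Place K F) (f : F) : K :=
  open scoped Classical in
  if hf : f ∈ ordGE v 0 then (exists_const_sub_mem v hf).choose else 0

variable (v : Place K F)

theorem sub_ev_mem {f : F} (hf : f ∈ ordGE v 0) :
    f - algebraMap K F (ev v f) ∈ ordGE v 1 := by
  rw [ev, dif_pos hf]
  exact (exists_const_sub_mem v hf).choose_spec

theorem ev_eq_of_sub_mem {f : F} {c : K} (h : f - algebraMap K F c ∈ ordGE v 1) : ev v f = c := by
  have hf : f ∈ ordGE v 0 := by
    have := add_mem (ordGE_antitone v zero_le_one h) (algebraMap_mem_ordGE_zero v c)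
    simpa using this
  have h2 := sub_mem h (sub_ev_mem v hf)
  rw [sub_sub_sub_cancel_left, ← map_sub, const_mem_ordGE_one_iff] at h2
  exact sub_eq_zero.mp h2

@[simp] theorem ev_algebraMap (c : K) : ev v (algebraMap K F c) = c :=
  ev_eq_of_sub_mem v (by simp)

@[simp] theorem ev_one : ev v (1 : F) = 1 := by simpa using ev_algebraMap v (1 : K)

@[simp] theorem ev_zero : ev v (0 : F) = 0 := by simpa using ev_algebraMap v (0 : K)

theorem ev_add {f g : F} (hf : f ∈ ordGE v 0) (hg : g ∈ ordGE v 0) :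
    ev v (f + g) = ev v f + ev v g := by
  refine ev_eq_of_sub_mem v ?_
  rw [map_add, add_sub_add_comm]
  exact add_mem (sub_ev_mem v hf) (sub_ev_mem v hg)

theorem ev_sub {f g : F} (hf : f ∈ ordGE v 0) (hg : g ∈ ordGE v 0) :
    ev v (f - g) = ev v f - ev v g := by
  refine ev_eq_of_sub_mem v ?_
  rw [map_sub, sub_sub_sub_comm]
  exact sub_mem (sub_ev_mem v hf) (sub_ev_mem v hg)

theorem ev_mul {f g : F} (hf : f ∈ ordGE v 0) (hg : g ∈ ordGE v 0) :
    ev v (f * g) = ev v f * ev v g := by
  refine ev_eq_of_sub_mem v ?_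
  rw [map_mul, show f * g - algebraMap K F (ev v f) * algebraMap K F (ev v g) =
    (f - algebraMap K F (ev v f)) * g + algebraMap K F (ev v f) * (g - algebraMap K F (ev v g))
    by ring]
  refine add_mem ?_ ?_
  · simpa using mul_mem_ordGE v (sub_ev_mem v hf) hg
  · simpa using mul_mem_ordGE v (algebraMap_mem_ordGE_zero v _) (sub_ev_mem v hg)

theorem ev_smul (c : K) {f : F} (hf : f ∈ ordGE v 0) : ev v (c • f) = c * ev v f := by
  rw [Algebra.smul_def, ev_mul v (algebraMap_mem_ordGE_zero v c) hf, ev_algebraMap]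

theorem ev_pow {f : F} (hf : f ∈ ordGE v 0) (n : ℕ) : ev v (f ^ n) = ev v f ^ n := by
  induction n with
  | zero => simp
  | succ n ih =>
    rw [pow_succ, pow_succ, ev_mul v (by simpa using pow_mem_ordGE v hf n) hf, ih]

theorem ev_sum {ι : Type*} (s : Finset ι) {f : ι → F} (hf : ∀ i ∈ s, f i ∈ ordGE v 0) :
    ev v (∑ i ∈ s, f i) = ∑ i ∈ s, ev v (f i) := by
  induction s using Finset.cons_induction with
  | empty => simp
  | cons a s ha ih =>
    rw [Finset.sum_cons, Finset.sum_cons, ev_add v (hf a (Finset.mem_cons_self a s))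
      (Submodule.sum_mem _ fun i hi => hf i (Finset.mem_cons_of_mem hi)),
      ih fun i hi => hf i (Finset.mem_cons_of_mem hi)]

theorem ev_eq_zero_iff {f : F} (hf : f ∈ ordGE v 0) : ev v f = 0 ↔ f ∈ ordGE v 1 :=
  ⟨fun h => by simpa [h] using sub_ev_mem v hf, fun h => ev_eq_of_sub_mem v (by simpa using h)⟩

theorem ev_ne_zero_iff_ord {f : F} (hf : f ∈ ordGE v 0) (hf0 : f ≠ 0) :
    ev v f ≠ 0 ↔ v.ord f = 0 := by
  rw [Ne, ev_eq_zero_iff v hf, mem_ordGE_of_ne_zero v hf0]
  have := (mem_ordGE_of_ne_zero v hf0).mp hf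
  omega

theorem ord_eq_zero_of_ev_ne_zero {f : F} (hf : f ∈ ordGE v 0) (h : ev v f ≠ 0) :
    v.ord f = 0 ∧ f ≠ 0 := by
  have hf0 : f ≠ 0 := by rintro rfl; exact h (ev_zero v)
  exact ⟨(ev_ne_zero_iff_ord v hf hf0).mp h, hf0⟩

omit [IsAlgClosed K] [IsFunctionField K F] in
theorem inv_mem_ordGE_of_ord_eq_zero {f : F} (h : v.ord f = 0) : f⁻¹ ∈ ordGE v 0 :=
  mem_ordGE_of_le_ord v (by rw [v.ord_inv, h]; rfl)

theorem ev_inv {f : F} (hf : f ∈ ordGE v 0) (h : ev v f ≠ 0) : ev v f⁻¹ = (ev v f)⁻¹ := by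
  obtain ⟨ho, hf0⟩ := ord_eq_zero_of_ev_ne_zero v hf h
  have := ev_mul v hf (inv_mem_ordGE_of_ord_eq_zero v ho)
  rw [mul_inv_cancel₀ hf0, ev_one] at this
  exact eq_inv_of_mul_eq_one_right this.symm

theorem div_mem_ordGE {f g : F} (hf : f ∈ ordGE v 0) (hg : g ∈ ordGE v 0) (h : ev v g ≠ 0) :
    f / g ∈ ordGE v 0 := by
  rw [div_eq_mul_inv]
  simpa using mul_mem_ordGE v hf
    (inv_mem_ordGE_of_ord_eq_zero v (ord_eq_zero_of_ev_ne_zero v hg h).1)

theorem ev_div {f g : F} (hf : f ∈ ordGE v 0) (hg : g ∈ ordGE v 0) (h : ev v g ≠ 0) :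
    ev v (f / g) = ev v f / ev v g := by
  rw [div_eq_mul_inv, ev_mul v hf
    (inv_mem_ordGE_of_ord_eq_zero v (ord_eq_zero_of_ev_ne_zero v hg h).1), ev_inv v hg h,
    div_eq_mul_inv]

omit [IsAlgClosed K] [IsFunctionField K F] in
theorem aevalAeval_mem {x y : F} (hx : x ∈ ordGE v 0) (hy : y ∈ ordGE v 0) (P : K[X][X]) :
    aevalAeval x y P ∈ ordGE v 0 := by
  induction P using Polynomial.induction_on' with
  | add p q hp hq => rw [map_add]; exact add_mem hp hq
  | monomial n a =>
    rw [← C_mul_X_pow_eq_monomial, map_mul, map_pow]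
    have e1 : aevalAeval x y (C a) = aeval x a := by simp [aevalAeval]
    have e2 : aevalAeval x y (X : K[X][X]) = y := by simp [aevalAeval]
    rw [e1, e2]
    simpa using mul_mem_ordGE v (aeval_mem_ordGE_zero v hx a) (pow_mem_ordGE v hy n)

theorem ev_aeval {x : F} (hx : x ∈ ordGE v 0) (p : K[X]) : ev v (aeval x p) = p.eval (ev v x) := by
  induction p using Polynomial.induction_on' with
  | add p q hp hq =>
    rw [map_add, eval_add, ev_add v (aeval_mem_ordGE_zero v hx p) (aeval_mem_ordGE_zero v hx q),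
      hp, hq]
  | monomial n a =>
    rw [aeval_monomial, eval_monomial, ev_mul v (algebraMap_mem_ordGE_zero v a)
      (by simpa using pow_mem_ordGE v hx n), ev_algebraMap, ev_pow v hx]

theorem ev_aevalAeval {x y : F} (hx : x ∈ ordGE v 0) (hy : y ∈ ordGE v 0) (P : K[X][X]) :
    ev v (aevalAeval x y P) = P.evalEval (ev v x) (ev v y) := by
  induction P using Polynomial.induction_on' with
  | add p q hp hq =>
    rw [map_add, evalEval_add, ev_add v (aevalAeval_mem v hx hy p) (aevalAeval_mem v hx hy q),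
      hp, hq]
  | monomial n a =>
    rw [← C_mul_X_pow_eq_monomial, map_mul, map_pow]
    have e1 : aevalAeval x y (C a) = aeval x a := by simp [aevalAeval]
    have e2 : aevalAeval x y (X : K[X][X]) = y := by simp [aevalAeval]
    rw [e1, e2, ev_mul v (aeval_mem_ordGE_zero v hx a) (by simpa using pow_mem_ordGE v hy n),
      ev_pow v hy, ev_aeval v hx, evalEval_mul, evalEval_pow, evalEval_C, evalEval_X]

end Fermat.Agent.CurveTorsion
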