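import Mathlib
import Fermat.Prelude.Def_AlgebraicCurve_Repartitions
import Fermat.Agent.CurveTorsion.Value

/-!
# Polar classes in `H¹(0)` and the genus

`genus_riemann` is the weak form of Riemann–Roch; `exists_bound_span` says that polar classes at
a large enough set of places span `H¹(0)`.
-/

noncomputable section

set_option autoImplicit false

namespace Fermat.Agent.CurveTorsion

open AlgebraicCurve Polynomial
open Fermat.Agent.FF
open scoped Classical

variable {K F : Type*} [Field K] [Field F] [Algebra K F]

theorem mem_repartitionsOf {D : Divisor K F} {α : ↥(repartitions K F)} :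
    α ∈ repartitionsOf D ↔ ∀ v, (α : Place K F → F) v ∈ ordGE v (-D v) := by
  rw [mem_repartitionsOf_iff]
  exact forall_congr' fun v => (mem_ordGE v).symm

/-- The repartition supported at one place. -/
def single (v : Place K F) (f : F) : ↥(repartitions K F) :=
  ⟨Pi.single v f, mem_repartitions_of_finite_ord ((Set.finite_singleton v).subset fun w hw => by
    by_contra hne
    simp only [Set.mem_singleton_iff] at hne
    simp [Pi.single_eq_of_ne hne] at hw)⟩

/-- The class of a polar part at `v`. -/
def cls (v : Place K F) : F →ₗ[K] H1 (0 : Divisor K F) :=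
  (repartitionsOf (0 : Divisor K F) ⊔ principalRepartitions K F).mkQ ∘ₗ
    { toFun := single v
      map_add' := fun f g => Subtype.ext <| funext fun w => by
        rcases eq_or_ne w v with rfl | hne
        · simp [single]
        · simp [single, Pi.single_eq_of_ne hne]
      map_smul' := fun c f => Subtype.ext <| funext fun w => by
        rcases eq_or_ne w v with rfl | hne
        · simp [single]
        · simp [single, Pi.single_eq_of_ne hne] }

theorem cls_apply (v : Place K F) (f : F) : cls v f = Submodule.Quotient.mk (single v f) := rfl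

theorem cls_eq_zero {v : Place K F} {f : F} (hf : f ∈ ordGE v 0) : cls v f = 0 := by
  rw [cls_apply, Submodule.Quotient.mk_eq_zero]
  refine Submodule.mem_sup_left (mem_repartitionsOf.mpr fun w => ?_)
  rcases eq_or_ne w v with rfl | hne
  · simpa [single] using hf
  · simp [single, Pi.single_eq_of_ne hne]

theorem cls_congr {v : Place K F} {f g : F} (h : f - g ∈ ordGE v 0) : cls v f = cls v g := by
  rw [← sub_eq_zero, ← map_sub, cls_eq_zero h]

/-- The class of a repartition is the sum of the classes of its polar parts. -/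
theorem mk_eq_sum_cls (S : Finset (Place K F)) (α : ↥(repartitions K F))
    (h : ∀ v ∉ S, (α : Place K F → F) v ∈ ordGE v 0) :
    (Submodule.Quotient.mk α : H1 (0 : Divisor K F)) = ∑ v ∈ S, cls v ((α : Place K F → F) v) := by
  simp only [cls_apply]
  rw [← sub_eq_zero, ← Submodule.mkQ_apply]
  simp only [← Submodule.mkQ_apply, ← map_sum, ← map_sub]
  rw [Submodule.mkQ_apply, Submodule.Quotient.mk_eq_zero]
  refine Submodule.mem_sup_left (mem_repartitionsOf.mpr fun w => ?_)
  have hval : ((α - ∑ v ∈ S, single v ((α : Place K F → F) v) : ↥(repartitions K F)) :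
      Place K F → F) w = if w ∈ S then 0 else (α : Place K F → F) w := by
    simp only [AddSubgroupClass.coe_sub, Pi.sub_apply, AddSubmonoidClass.coe_finsetSum,
      Finset.sum_apply, single, Finset.sum_pi_single]
    split_ifs <;> simp
  rw [hval]
  split_ifs with hw
  · exact zero_mem _
  · simpa using h w hw

variable [IsFunctionField K F]

/-- The constant repartition. -/
def constRep (f : F) : ↥(repartitions K F) := algebraMap F ↥(repartitions K F) f

omit [IsFunctionField K F] in
theorem coe_constRep (f : F) (v : Place K F) :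
    (constRep (K := K) f : Place K F → F) v = f := rfl

omit [IsFunctionField K F] in
/-- Principal repartitions die. -/
theorem sum_cls_principal (S : Finset (Place K F)) (h : F) (hS : ∀ v ∉ S, h ∈ ordGE v 0) :
    ∑ v ∈ S, cls v h = 0 := by
  have e := mk_eq_sum_cls S (constRep (K := K) h) hS
  simp only [coe_constRep] at e
  rw [← e, Submodule.Quotient.mk_eq_zero]
  exact Submodule.mem_sup_right (mem_principalRepartitions_iff.mpr ⟨h, rfl⟩)

omit [IsFunctionField K F] in
/-- A family of polar parts with zero class is realised by a function. -/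
theorem exists_of_sum_cls_eq_zero (S : Finset (Place K F)) (p : Place K F → F)
    (h : ∑ v ∈ S, cls v (p v) = 0) :
    ∃ g : F, (∀ v ∈ S, g - p v ∈ ordGE v 0) ∧ ∀ v ∉ S, g ∈ ordGE v 0 := by
  simp only [cls, LinearMap.comp_apply, LinearMap.coe_mk, AddHom.coe_mk] at h
  rw [← map_sum, Submodule.mkQ_apply, Submodule.Quotient.mk_eq_zero, Submodule.mem_sup] at h
  obtain ⟨a, ha, b, hb, hab⟩ := h
  obtain ⟨g, hg⟩ := mem_principalRepartitions_iff.mp hb
  have key : ∀ v, (if v ∈ S then p v else 0) - g ∈ ordGE v 0 := by
    intro v
    have := congrArg (fun x : ↥(repartitions K F) => (x : Place K F → F) v) hab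
    simp only [Subalgebra.coe_add, Pi.add_apply, hg,
      AddSubmonoidClass.coe_finsetSum, Finset.sum_apply, single, Finset.sum_pi_single] at this
    rw [← this, add_sub_cancel_right]
    simpa using mem_repartitionsOf.mp ha v
  refine ⟨g, fun v hv => ?_, fun v hv => ?_⟩
  · have := neg_mem (key v)
    simpa [hv] using this
  · have := neg_mem (key v)
    simpa [hv] using this

theorem finite_poles (α : ↥(repartitions K F)) :
    {v : Place K F | (α : Place K F → F) v ∉ ordGE v 0}.Finite := by
  suffices H : ∀ β : Place K F → F, β ∈ Algebra.adjoin F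
      {α : Place K F → F | {v : Place K F | ¬v.adicValuation (α v) ≤ 1}.Finite} →
      {v : Place K F | β v ∉ ordGE v 0}.Finite from H _ α.2
  intro β hα'
  induction hα' using Algebra.adjoin_induction with
  | mem x hx =>
    refine hx.subset fun v hv => ?_
    simp only [Set.mem_ofPred_eq, v.adicValuation_le_one_iff] at hv ⊢
    exact fun h => hv ((mem_ordGE v).mpr h)
  | algebraMap f =>
    refine (finite_setOf_ord_neg (K := K) f).subset fun v hv => ?_
    simp only [Set.mem_ofPred_eq, Pi.algebraMap_apply, Algebra.algebraMap_self, RingHom.id_apply,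
      mem_ordGE, not_or, not_le] at hv ⊢
    exact hv.2
  | add x y _ _ hx hy =>
    exact (hx.union hy).subset fun v hv => by
      by_contra hc
      simp only [Set.mem_union, Set.mem_ofPred_eq, not_or, not_not] at hc
      exact hv (add_mem hc.1 hc.2)
  | mul x y _ _ hx hy =>
    exact (hx.union hy).subset fun v hv => by
      by_contra hc
      simp only [Set.mem_union, Set.mem_ofPred_eq, not_or, not_not] at hc
      exact hv (by simpa using mul_mem_ordGE v hc.1 hc.2)

/-- `deg D + 1 - ℓ(D)`. -/
def speciality (D : Divisor K F) : ℤ := Divisor.degree D + 1 - (ell D : ℤ)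

theorem speciality_mono {D E : Divisor K F} (h : D ≤ E) : speciality D ≤ speciality E := by
  have := ell_sub_degree_antitone h
  unfold speciality
  omega

/-- The reduced divisor of a finite set. -/
def ofSet (R : Finset (Place K F)) : Divisor K F := ∑ v ∈ R, Finsupp.single v 1

omit [IsFunctionField K F] in
theorem ofSet_apply (R : Finset (Place K F)) (v : Place K F) :
    ofSet R v = if v ∈ R then 1 else 0 := by
  simp [ofSet, Finsupp.single_apply]

variable [IsAlgClosed K]

theorem degree_ofSet (R : Finset (Place K F)) : Divisor.degree (ofSet R) = R.card := by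
  simp [ofSet, map_sum, deg_eq_one]

theorem repartitionsOf_le_sup {D : Divisor K F}
    (hD : ∀ E : Divisor K F, speciality E ≤ speciality D)
    {E : Divisor K F} (hDE : D ≤ E) :
    repartitionsOf E ≤ repartitionsOf D ⊔ principalRepartitions K F := by
  refine divisor_le_induction (P := fun E => D ≤ E →
    repartitionsOf E ≤ repartitionsOf D ⊔ principalRepartitions K F)
    (fun _ => le_sup_left) (fun E v hE ih _ => ?_) hDE hDE
  intro α hα
  have hle : E ≤ E + Finsupp.single v 1 :=
    le_add_of_nonneg_right (Finsupp.single_nonneg.mpr zero_le_one)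
  have hsE : speciality (E + Finsupp.single v 1) = speciality E :=
    le_antisymm ((hD _).trans (speciality_mono hE)) (speciality_mono hle)
  have hell : ell E < ell (E + Finsupp.single v 1) := by
    simp only [speciality, map_add, Divisor.degree_single, deg_eq_one] at hsE
    omega
  obtain ⟨f, hf, hfn⟩ := SetLike.not_le_iff_exists.mp fun h : riemannRochSpace
      (E + Finsupp.single v 1) ≤ riemannRochSpace E =>
    absurd (Submodule.finrank_mono h) (not_le.mpr hell)
  rw [mem_riemannRochSpace] at hf hfn
  have hfv : f ∉ ordGE v (-E v) := fun h => hfn fun w => by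
    rcases eq_or_ne w v with rfl | hw
    · exact h
    · simpa [Finsupp.single_eq_of_ne hw] using hf w
  obtain ⟨u, hu0, hu⟩ := exists_ne_zero_ord_eq v (E v + 1)
  have hfv' : f ∈ ordGE v (-(E v + 1)) := by simpa using hf v
  have hαv' : (α : Place K F → F) v ∈ ordGE v (-(E v + 1)) := by
    simpa using mem_repartitionsOf.mp hα v
  have hfu : f * u ∈ ordGE v 0 := by
    simpa [hu] using mul_mem_ordGE v hfv' (mem_ordGE_of_le_ord v (f := u) (n := E v + 1) hu.ge)
  have hαu : (α : Place K F → F) v * u ∈ ordGE v 0 := by
    simpa [hu] using mul_mem_ordGE v hαv' (mem_ordGE_of_le_ord v (f := u) (n := E v + 1) hu.ge)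
  have hev : ev v (f * u) ≠ 0 := fun h => hfv (by
    rw [ev_eq_zero_iff v hfu] at h
    have := mul_mem_ordGE v h (mem_ordGE_of_le_ord v (f := u⁻¹) (n := -(E v + 1))
      (by rw [v.ord_inv, hu]))
    simpa [hu0, add_comm] using this)
  set c : K := ev v ((α : Place K F → F) v * u) / ev v (f * u) with hc
  have hnew : α - constRep (K := K) (c • f) ∈ repartitionsOf E := by
    refine mem_repartitionsOf.mpr fun w => ?_
    rw [AddSubgroupClass.coe_sub, Pi.sub_apply, coe_constRep]
    rcases eq_or_ne w v with rfl | hw
    · have h1 : ((α : Place K F → F) w - c • f) * u ∈ ordGE w 1 := by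
        rw [sub_mul, Algebra.smul_mul_assoc]
        rw [← ev_eq_zero_iff w (sub_mem hαu (Submodule.smul_mem _ _ hfu)),
          ev_sub w hαu (Submodule.smul_mem _ _ hfu), ev_smul w c hfu, hc, div_mul_cancel₀ _ hev,
          sub_self]
      have := mul_mem_ordGE w h1 (mem_ordGE_of_le_ord w (f := u⁻¹) (n := -(E w + 1))
        (by rw [w.ord_inv, hu]))
      simpa [hu0, add_comm] using this
    · refine sub_mem ?_ (Submodule.smul_mem _ _ ?_)
      · simpa [Finsupp.single_eq_of_ne hw] using mem_repartitionsOf.mp hα w
      · simpa [Finsupp.single_eq_of_ne hw] using hf w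
  have hpr : constRep (K := K) (c • f) ∈ principalRepartitions K F :=
    mem_principalRepartitions_iff.mpr ⟨c • f, rfl⟩
  have := add_mem (ih hE hnew) (Submodule.mem_sup_right hpr :
    constRep (K := K) (c • f) ∈ repartitionsOf D ⊔ principalRepartitions K F)
  simpa using this

theorem sup_eq_top_of_max {D : Divisor K F} (hD : ∀ E : Divisor K F, speciality E ≤ speciality D) :
    repartitionsOf D ⊔ principalRepartitions K F = ⊤ := by
  refine eq_top_iff.mpr fun α _ => ?_
  set S := (finite_poles α).toFinset
  set E : Divisor K F := ∑ v ∈ S, Finsupp.single v (-(v.ord ((α : Place K F → F) v)))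
  have hE : ∀ v, E v = if v ∈ S then -(v.ord ((α : Place K F → F) v)) else 0 := fun v => by
    simp only [E, Finsupp.coe_finsetSum, Finset.sum_apply, Finsupp.single_apply,
      Finset.sum_ite_eq']
  refine repartitionsOf_le_sup hD (E := D ⊔ E) le_sup_left ?_
  refine mem_repartitionsOf.mpr fun v => ?_
  by_cases hv : v ∈ S
  · refine mem_ordGE_of_le_ord v ?_
    rw [neg_le, Finsupp.sup_apply, hE, if_pos hv]
    exact le_sup_right
  · have h0 : (α : Place K F → F) v ∈ ordGE v 0 := by simpa [S] using hv
    refine ordGE_antitone v ?_ h0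
    rw [neg_le, neg_zero, Finsupp.sup_apply, hE, if_neg hv]
    exact le_sup_right

omit [IsAlgClosed K] in
theorem exists_max_speciality :
    ∃ D : Divisor K F, ∀ E : Divisor K F, speciality E ≤ speciality D := by
  obtain ⟨γ, hγ⟩ := exists_riemann_inequality K F
  obtain ⟨m, ⟨D, hD⟩, hm⟩ := Int.exists_greatest_of_bdd
    (P := fun z => ∃ D : Divisor K F, speciality D = z)
    ⟨γ, fun z ⟨D, hD⟩ => by have := hγ D; simp only [speciality] at hD; omega⟩ ⟨_, 0, rfl⟩
  exact ⟨D, fun E => hD ▸ hm _ ⟨E, rfl⟩⟩

/-- Large reduced divisors are non-special. -/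
theorem exists_bound_max :
    ∃ c : ℕ, ∀ R : Finset (Place K F), c ≤ R.card →
      ∀ E : Divisor K F, speciality E ≤ speciality (ofSet R) := by
  obtain ⟨γ, hγ⟩ := exists_riemann_inequality K F
  obtain ⟨D, hD⟩ := exists_max_speciality (K := K) (F := F)
  refine ⟨(Divisor.degree D + γ).toNat, fun R hR E => (hD E).trans ?_⟩
  have h1 := hγ (ofSet R - D)
  rw [map_sub, degree_ofSet] at h1
  have hpos : 0 < ell (ofSet R - D) := by omega
  obtain ⟨f, hf, hf0⟩ : ∃ f ∈ riemannRochSpace (ofSet R - D), f ≠ 0 := by
    refine Submodule.exists_mem_ne_zero_of_ne_bot fun h => ?_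
    rw [ell, h, finrank_bot] at hpos
    exact lt_irrefl 0 hpos
  have hle : D - divOf K f ≤ ofSet R := fun v => by
    have := mem_riemannRochSpace.mp hf v
    rw [mem_ordGE_of_ne_zero v hf0] at this
    simp only [Finsupp.sub_apply] at this ⊢
    rw [divOf_apply]
    omega
  have := speciality_mono hle
  simp only [speciality, ell_sub_divOf hf0, map_sub, degree_divOf] at this ⊢
  omega

/-- A chosen uniformiser. -/
def unif (v : Place K F) : F := (exists_uniformizer v).choose

omit [IsFunctionField K F] [IsAlgClosed K] in
theorem unif_ne_zero (v : Place K F) : unif v ≠ 0 := (exists_uniformizer v).choose_spec.1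

omit [IsFunctionField K F] [IsAlgClosed K] in
theorem ord_unif (v : Place K F) : v.ord (unif v) = 1 := (exists_uniformizer v).choose_spec.2

theorem cls_simple (v : Place K F) {f : F} (hf : f ∈ ordGE v (-1)) {t : F} (ht : t ≠ 0)
    (ht1 : v.ord t = 1) : cls v f = ev v (f * t) • cls v t⁻¹ := by
  rw [← map_smul]
  refine cls_congr ?_
  have hft : f * t ∈ ordGE v 0 := by
    simpa using mul_mem_ordGE v hf (mem_ordGE_of_le_ord v (f := t) (n := 1) ht1.ge)
  have h1 := mul_mem_ordGE v (sub_ev_mem v hft)
    (mem_ordGE_of_le_ord v (f := t⁻¹) (n := -1) (by rw [v.ord_inv, ht1]))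
  simpa [sub_mul, ht, Algebra.smul_def] using h1

/-- The residue classes at a large enough finite set span `H¹(0)`. -/
theorem exists_bound_span :
    ∃ c : ℕ, ∀ R : Finset (Place K F), c ≤ R.card →
      Submodule.span K ((fun v : Place K F => cls v (unif v)⁻¹) '' (R : Set (Place K F))) = ⊤ := by
  obtain ⟨c, hc⟩ := exists_bound_max (K := K) (F := F)
  refine ⟨c, fun R hR => eq_top_iff.mpr fun x _ => ?_⟩
  obtain ⟨α, rfl⟩ := Submodule.Quotient.mk_surjective _ x
  have hα : α ∈ repartitionsOf (ofSet R) ⊔ principalRepartitions K F := by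
    rw [sup_eq_top_of_max (hc R hR)]; trivial
  obtain ⟨a, ha, b, hb, rfl⟩ := Submodule.mem_sup.mp hα
  have e : (Submodule.Quotient.mk (a + b) : H1 (0 : Divisor K F)) = Submodule.Quotient.mk a := by
    rw [Submodule.Quotient.eq]
    simpa using Submodule.mem_sup_right hb
  rw [e,
    mk_eq_sum_cls R a (fun v hv => by simpa [ofSet_apply, hv] using mem_repartitionsOf.mp ha v)]
  refine Submodule.sum_mem _ fun v hv => ?_
  rw [cls_simple v (by simpa [ofSet_apply, hv] using mem_repartitionsOf.mp ha v) (unif_ne_zero v)
    (ord_unif v)]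
  exact Submodule.smul_mem _ _ (Submodule.subset_span ⟨v, hv, rfl⟩)

theorem infinite_places : Infinite (Place K F) := by
  obtain ⟨x, hx, -⟩ := IsFunctionField.exists_transcendental_finite (K := K) (F := F)
  have htr : ∀ c : K, Transcendental K (x - algebraMap K F c) := fun c h => hx (by
    simpa using h.add (isAlgebraic_algebraMap c))
  choose p hp using fun c : K => exists_place_ord_pos (htr c)
  refine Infinite.of_injective p fun c d hcd => ?_
  by_contra hne
  have h2 : x - algebraMap K F c ∈ ordGE (p c) 1 := mem_ordGE_of_le_ord _ (by linarith [hp c])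
  have h3 : x - algebraMap K F d ∈ ordGE (p c) 1 := by
    rw [hcd]; exact mem_ordGE_of_le_ord _ (by linarith [hp d])
  have h4 := sub_mem h2 h3
  rw [sub_sub_sub_cancel_left, ← map_sub, const_mem_ordGE_one_iff, sub_eq_zero] at h4
  exact hne h4.symm

theorem finiteDimensional_H1 : Module.Finite K (H1 (0 : Divisor K F)) := by
  obtain ⟨c, hc⟩ := exists_bound_span (K := K) (F := F)
  have := infinite_places (K := K) (F := F)
  obtain ⟨R, hR⟩ := Infinite.exists_subset_card_eq (Place K F) c
  exact Module.Finite.of_fg_top ⟨(R.image fun v : Place K F => cls v (unif v)⁻¹), by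
    rw [Finset.coe_image, hc R hR.ge]⟩

theorem mem_range_of_no_pole {f : F} (h : ∀ v : Place K F, f ∈ ordGE v 0) :
    ∃ c : K, f = algebraMap K F c := by
  by_cases hf : Transcendental K f
  · obtain ⟨v, hv⟩ := exists_place_ord_neg hf
    have h' := (mem_ordGE v).mp (h v)
    rcases h' with h0 | h0
    · exact absurd (h0 ▸ isAlgebraic_zero) hf
    · omega
  · have hint : IsIntegral K f := (not_not.mp hf).isIntegral
    obtain ⟨c, hc⟩ := minpoly.mem_range_of_degree_eq_one K f
      (IsAlgClosed.degree_eq_one_of_irreducible K (minpoly.irreducible hint))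
    exact ⟨c, hc.symm⟩

theorem ell_zero : ell (0 : Divisor K F) = 1 := by
  have hone : (1 : F) ∈ riemannRochSpace (0 : Divisor K F) :=
    mem_riemannRochSpace.mpr fun v => by simpa using one_mem_ordGE_zero v
  refine finrank_eq_one ⟨1, hone⟩ (by simp) fun w => ?_
  obtain ⟨c, hc⟩ := mem_range_of_no_pole (K := K) (f := (w : F))
    fun v => by simpa using mem_riemannRochSpace.mp w.2 v
  exact ⟨c, Subtype.ext (by rw [hc]; simp [Algebra.smul_def])⟩

/-- **Riemann–Roch, weak form**: `deg D + 1 - g ≤ ℓ(D)`. -/
theorem genus_riemann (D : Divisor K F) :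
    Divisor.degree D + 1 - (genusFF K F : ℤ) ≤ (ell D : ℤ) := by
  obtain ⟨c₁, hc₁⟩ := exists_bound_max (K := K) (F := F)
  obtain ⟨c₂, hc₂⟩ := exists_bound_span (K := K) (F := F)
  have := infinite_places (K := K) (F := F)
  have := finiteDimensional_H1 (K := K) (F := F)
  obtain ⟨R, hR⟩ := Infinite.exists_subset_card_eq (Place K F) (c₁ + c₂)
  have h1 := hc₁ R (by omega) D
  suffices speciality (ofSet R) = genusFF K F by simp only [speciality] at h1 this ⊢; omega
  let Ψ : (↥R → K) →ₗ[K] H1 (0 : Divisor K F) :=
    Fintype.linearCombination K (fun v : ↥R => cls (v : Place K F) (unif (v : Place K F))⁻¹)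
  have hsurj : Function.Surjective Ψ := by
    rw [← LinearMap.range_eq_top, Fintype.range_linearCombination]
    rw [show Set.range (fun v : ↥R => cls (v : Place K F) (unif (v : Place K F))⁻¹) =
      (fun v : Place K F => cls v (unif v)⁻¹) '' (R : Set (Place K F)) by
      ext; simp]
    exact hc₂ R (by omega)
  set L := riemannRochSpace (ofSet R) with hL
  have hpole : ∀ (f : L) (v : Place K F), (f : F) ∈ ordGE v (if v ∈ R then -1 else 0) := by
    intro f v
    have := mem_riemannRochSpace.mp f.2 v
    rw [ofSet_apply] at this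
    split_ifs at this ⊢ <;> simpa using this
  have hmulu : ∀ (f : L) (v : ↥R), (f : F) * unif (v : Place K F) ∈ ordGE (v : Place K F) 0 := by
    intro f v
    have h := hpole f v
    rw [if_pos v.2] at h
    simpa using mul_mem_ordGE _ h (mem_ordGE_of_le_ord (v : Place K F) (n := 1) (ord_unif _).ge)
  let res : L →ₗ[K] (↥R → K) :=
    { toFun := fun f v => ev (v : Place K F) ((f : F) * unif (v : Place K F))
      map_add' := fun f g => funext fun v => by
        simp only [Submodule.coe_add, add_mul, Pi.add_apply]
        exact ev_add _ (hmulu f v) (hmulu g v)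
      map_smul' := fun a f => funext fun v => by
        simp only [Submodule.coe_smul, RingHom.id_apply, Pi.smul_apply, smul_eq_mul,
          Algebra.smul_mul_assoc]
        exact ev_smul _ a (hmulu f v) }
  have hker : Module.finrank K (LinearMap.ker res) = 1 := by
    refine (LinearEquiv.finrank_eq (?_ : LinearMap.ker res ≃ₗ[K]
      riemannRochSpace (0 : Divisor K F))).trans ell_zero
    have h0 : ∀ f : L, f ∈ LinearMap.ker res ↔ (f : F) ∈ riemannRochSpace (0 : Divisor K F) := by
      intro f
      rw [LinearMap.mem_ker, mem_riemannRochSpace]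
      constructor
      · intro h v
        by_cases hv : v ∈ R
        · have := (ev_eq_zero_iff v (hmulu f ⟨v, hv⟩)).mp (congrFun h ⟨v, hv⟩)
          have h2 := mul_mem_ordGE v this (mem_ordGE_of_le_ord v (f := (unif v)⁻¹) (n := -1)
            (by rw [v.ord_inv, ord_unif]))
          simpa [unif_ne_zero] using h2
        · simpa [hv] using hpole f v
      · intro h
        funext v
        refine (ev_eq_zero_iff _ (hmulu f v)).mpr ?_
        have h' : (f : F) ∈ ordGE (v : Place K F) 0 := by simpa using h (v : Place K F)
        simpa using mul_mem_ordGE (v : Place K F) h'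
          (mem_ordGE_of_le_ord (v : Place K F) (n := 1) (ord_unif _).ge)
    have hle : riemannRochSpace (0 : Divisor K F) ≤ L :=
      riemannRochSpace_mono fun v => by rw [ofSet_apply]; split_ifs <;> simp
    exact
      { toFun := fun f => ⟨_, (h0 f.1).mp f.2⟩
        invFun := fun f => ⟨⟨f, hle f.2⟩, (h0 ⟨f, hle f.2⟩).mpr f.2⟩
        map_add' := fun _ _ => rfl
        map_smul' := fun _ _ => rfl
        left_inv := fun _ => rfl
        right_inv := fun _ => rfl }
  have hrange : LinearMap.range res = LinearMap.ker Ψ := by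
    refine le_antisymm ?_ fun b hb => ?_
    · rintro _ ⟨f, rfl⟩
      rw [LinearMap.mem_ker, Fintype.linearCombination_apply]
      have e : ∀ v : ↥R, res f v • cls (v : Place K F) (unif (v : Place K F))⁻¹ =
          cls (v : Place K F) (f : F) := fun v =>
        (cls_simple (v : Place K F) (f := (f : F))
          (by have := hpole f v; rwa [if_pos v.2] at this) (unif_ne_zero _) (ord_unif _)).symm
      rw [Finset.sum_congr rfl fun v _ => e v]
      rw [Finset.sum_coe_sort R fun v => cls v (f : F)]
      exact sum_cls_principal R _ fun v hv => by simpa [hv] using hpole f v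
    · rw [LinearMap.mem_ker, Fintype.linearCombination_apply] at hb
      let p : Place K F → F := fun v => if hv : v ∈ R then b ⟨v, hv⟩ • (unif v)⁻¹ else 0
      have hsum : ∑ v ∈ R, cls v (p v) = 0 := by
        rw [← hb, ← Finset.sum_coe_sort R]
        exact Finset.sum_congr rfl fun v _ => by simp [p, v.2]
      obtain ⟨g, hg1, hg2⟩ := exists_of_sum_cls_eq_zero R p hsum
      have hgL : g ∈ L := by
        rw [hL, mem_riemannRochSpace]
        intro v
        rw [ofSet_apply]
        split_ifs with hv
        · have h2 : p v ∈ ordGE v (-1) := by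
            simp only [p, dif_pos hv]
            exact Submodule.smul_mem _ _ (mem_ordGE_of_le_ord v (by rw [v.ord_inv, ord_unif]))
          simpa using add_mem (ordGE_antitone v (by norm_num) (hg1 v hv)) h2
        · simpa using hg2 v hv
      refine ⟨⟨g, hgL⟩, funext fun v => ?_⟩
      refine ev_eq_of_sub_mem _ ?_
      have h := hg1 v v.2
      simp only [p, dif_pos v.2] at h
      have h2 := mul_mem_ordGE (v : Place K F) h
        (mem_ordGE_of_le_ord (v : Place K F) (n := 1) (ord_unif _).ge)
      simpa [sub_mul, unif_ne_zero, Algebra.smul_def] using h2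
  have h2 := LinearMap.finrank_range_add_finrank_ker res
  have h3 := LinearMap.finrank_range_add_finrank_ker Ψ
  rw [LinearMap.range_eq_top.mpr hsurj, finrank_top, ← hrange, Module.finrank_fintype_fun_eq_card,
    Fintype.card_coe] at h3
  rw [hker] at h2
  have e : ell (ofSet R) = Module.finrank K L := rfl
  simp only [speciality, degree_ofSet, genusFF, e]
  omega

/-- If the residue classes at the points of `P` are independent then `L(∑ P) = K`. -/
theorem const_of_linearIndependent {ι : Type*} [Fintype ι] {P : ι → Place K F}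
    (hP : Function.Injective P) {t : ι → F} (ht : ∀ i, t i ≠ 0) (ht1 : ∀ i, (P i).ord (t i) = 1)
    (hli : LinearIndependent K fun i => cls (P i) (t i)⁻¹) {f : F}
    (hf : ∀ i, f ∈ ordGE (P i) (-1)) (hf' : ∀ v, (∀ i, P i ≠ v) → f ∈ ordGE v 0) :
    ∃ c : K, f = algebraMap K F c := by
  refine mem_range_of_no_pole fun v => ?_
  by_cases hv : ∀ i, P i ≠ v
  · exact hf' v hv
  · push Not at hv
    obtain ⟨i, rfl⟩ := hv
    have hsum := sum_cls_principal (Finset.univ.image P) f fun w hw => hf' w fun j hj =>
      hw (Finset.mem_image.mpr ⟨j, Finset.mem_univ _, hj⟩)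
    rw [Finset.sum_image fun a _ b _ h => hP h,
      Finset.sum_congr rfl fun j _ => cls_simple (P j) (hf j) (ht j) (ht1 j)] at hsum
    have h0 := Fintype.linearIndependent_iff.mp hli _ hsum i
    have hfm : f * t i ∈ ordGE (P i) 0 := by
      simpa using mul_mem_ordGE _ (hf i) (mem_ordGE_of_le_ord (P i) (n := 1) (ht1 i).ge)
    have := mul_mem_ordGE _ ((ev_eq_zero_iff _ hfm).mp h0)
      (mem_ordGE_of_le_ord (P i) (f := (t i)⁻¹) (n := -1) (by rw [(P i).ord_inv, ht1 i]))
    simpa [ht i] using this

end Fermat.Agent.CurveTorsion
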