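import Mathlib
import Fermat.Agent.CurveTorsion.H1

/-!
# Linear pencils with prescribed simple zeros

`ord_member`: a member of the pencil with `#R` known simple zeros has no others.
-/

noncomputable section

set_option autoImplicit false

namespace Fermat.Agent.CurveTorsion

open AlgebraicCurve
open Fermat.Agent.FF
open scoped Classical

variable {K F : Type*} [Field K] [Field F] [Algebra K F] [IsAlgClosed K] [IsFunctionField K F]

variable (K F) in
/-- A cardinality beyond which finite sets of places are non-special and span `H¹(0)`. -/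
def bound : ℕ := (exists_bound_max (K := K) (F := F)).choose +
  (exists_bound_span (K := K) (F := F)).choose

theorem speciality_le_of_bound {R : Finset (Place K F)} (h : bound K F ≤ R.card)
    (E : Divisor K F) : speciality E ≤ speciality (ofSet R) :=
  (exists_bound_max (K := K) (F := F)).choose_spec R (le_trans (Nat.le_add_right _ _) h) E

theorem span_eq_top_of_bound {R : Finset (Place K F)} (h : bound K F ≤ R.card) :
    Submodule.span K ((fun v : Place K F => cls v (unif v)⁻¹) '' (R : Set (Place K F))) = ⊤ :=
  (exists_bound_span (K := K) (F := F)).choose_spec R (le_trans (Nat.le_add_left _ _) h)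

/-- An effective divisor of degree zero vanishes. -/
theorem eq_zero_of_nonneg_of_degree {D : Divisor K F} (h : 0 ≤ D) (hd : Divisor.degree D = 0) :
    D = 0 := by
  by_contra hne
  obtain ⟨v, hv⟩ := Finsupp.support_nonempty_iff.mpr hne
  rw [degree_eq_sum] at hd
  have h1 := Finset.single_le_sum (f := fun v => D v * (v.deg : ℤ))
    (fun w _ => mul_nonneg (h w) (Int.natCast_nonneg _)) hv
  rw [hd] at h1
  simp only [deg_eq_one, Nat.cast_one, mul_one] at h1
  exact Finsupp.mem_support_iff.mp hv (le_antisymm h1 (h v))

/-- A function with simple poles exactly on `R`. -/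
structure Pencil (R : Finset (Place K F)) where
  /-- The function. -/
  h : F
  mem : h ∈ riemannRochSpace (ofSet R)
  ord_eq : ∀ v ∈ R, v.ord h = -1

theorem nonempty_pencil {R : Finset (Place K F)} (hR : bound K F < R.card) :
    Nonempty (Pencil R) := by
  let L := riemannRochSpace (ofSet R)
  let p : ↥R → Submodule K L := fun v =>
    (riemannRochSpace (ofSet (R.erase (v : Place K F)))).comap L.subtype
  have hp : ∀ v, p v ≠ ⊤ := by
    rintro ⟨v, hv⟩ htop
    have hle : L ≤ riemannRochSpace (ofSet (R.erase v)) := fun x hx => by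
      have : (⟨x, hx⟩ : L) ∈ p ⟨v, hv⟩ := htop ▸ Submodule.mem_top
      exact this
    have h1 : ell (ofSet R) ≤ ell (ofSet (R.erase v)) := Submodule.finrank_mono hle
    have h2 := speciality_le_of_bound (R := R.erase v)
      (by rw [Finset.card_erase_of_mem hv]; omega) (ofSet R)
    simp only [speciality, degree_ofSet, Finset.card_erase_of_mem hv] at h2
    have := Finset.card_pos.mpr ⟨v, hv⟩
    omega
  obtain ⟨⟨h, hmem⟩, hh⟩ := Submodule.exists_forall_notMem_of_forall_ne_top p hp
  refine ⟨⟨h, hmem, fun v hv => ?_⟩⟩
  have hv1 : h ∈ ordGE v (-1) := by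
    simpa [ofSet_apply, hv] using mem_riemannRochSpace.mp hmem v
  have hv0 : h ∉ ordGE v 0 := fun h0 => hh ⟨v, hv⟩ <| by
    refine mem_riemannRochSpace.mpr fun w => ?_
    rcases eq_or_ne w v with rfl | hne
    · simpa [ofSet_apply] using h0
    · simpa [ofSet_apply, hne] using mem_riemannRochSpace.mp hmem w
  rw [mem_ordGE] at hv1 hv0
  push Not at hv0
  rcases hv1 with h1 | h1
  · exact absurd h1 hv0.1
  · omega

namespace Pencil

variable {R : Finset (Place K F)} (P : Pencil R) (hne : R.Nonempty)

/-- The common pole divisor of the members. -/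
def poles : Divisor K F := ofSet R + divOf K P.h

omit [IsAlgClosed K] [IsFunctionField K F] in
include hne in
theorem h_ne_zero : P.h ≠ 0 := fun h0 => by
  obtain ⟨v, hv⟩ := hne
  have := P.ord_eq v hv
  simp [h0] at this

omit [IsAlgClosed K] in
theorem poles_apply_of_mem {v : Place K F} (hv : v ∈ R) : P.poles v = 0 := by
  simp [poles, ofSet_apply, hv, P.ord_eq v hv]

theorem degree_poles : Divisor.degree P.poles = R.card := by
  simp [poles, degree_ofSet, degree_divOf]

/-- The parameter space. -/
abbrev dim (_P : Pencil R) : ℕ := ell (ofSet R)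

/-- A basis of `L(∑ R)`. -/
def psi : Module.Basis (Fin P.dim) K (riemannRochSpace (ofSet R)) :=
  Module.finBasis K (riemannRochSpace (ofSet R))

/-- The perturbation attached to a parameter. -/
def pert (e : Fin P.dim → K) : F := (P.psi.equivFun.symm e : F) / P.h

/-- The member of parameter `e`. -/
def member (e : Fin P.dim → K) : F := P.h⁻¹ + P.pert e

omit [IsAlgClosed K] in
theorem pert_add (d e : Fin P.dim → K) : P.pert (d + e) = P.pert d + P.pert e := by
  simp only [pert, map_add, Submodule.coe_add, add_div]

omit [IsAlgClosed K] in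
theorem pert_smul (c : K) (e : Fin P.dim → K) : P.pert (c • e) = c • P.pert e := by
  simp only [pert, map_smul, Submodule.coe_smul, smul_div_assoc]

omit [IsAlgClosed K] in
theorem pert_eq_sum (e : Fin P.dim → K) :
    P.pert e = ∑ k, e k • P.pert (Pi.single k 1) := by
  conv_lhs => rw [pi_eq_sum_univ' e]
  let f : (Fin P.dim → K) →ₗ[K] F :=
    { toFun := P.pert, map_add' := P.pert_add, map_smul' := P.pert_smul }
  rw [show P.pert = ⇑f from rfl, map_sum]
  exact Finset.sum_congr rfl fun k _ => map_smul f _ _

omit [IsAlgClosed K] in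
theorem member_add_smul (d e : Fin P.dim → K) (c : K) :
    P.member (d + c • e) = P.member d + c • P.pert e := by
  rw [member, member, pert_add, pert_smul, add_assoc]

omit [IsAlgClosed K] in
theorem pert_mem_poles (e : Fin P.dim → K) : P.pert e ∈ riemannRochSpace P.poles := by
  refine mem_riemannRochSpace.mpr fun v => ?_
  rw [pert, div_eq_mul_inv]
  refine ordGE_antitone v ?_ (mul_mem_ordGE v
    (mem_riemannRochSpace.mp (P.psi.equivFun.symm e).2 v) (mem_ordGE_of_le_ord v le_rfl))
  simp only [poles, Finsupp.add_apply, divOf_apply, v.ord_inv]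
  omega

omit [IsAlgClosed K] in
theorem inv_mem_poles : P.h⁻¹ ∈ riemannRochSpace P.poles := by
  refine mem_riemannRochSpace.mpr fun v => mem_ordGE_of_le_ord v ?_
  rw [v.ord_inv, poles, Finsupp.add_apply, divOf_apply, ofSet_apply]
  split_ifs <;> omega

omit [IsAlgClosed K] in
theorem member_mem_poles (e : Fin P.dim → K) : P.member e ∈ riemannRochSpace P.poles :=
  add_mem P.inv_mem_poles (P.pert_mem_poles e)

omit [IsAlgClosed K] in
theorem regular_of_poles {f : F} (hf : f ∈ riemannRochSpace P.poles) {v : Place K F}
    (hv : P.poles v = 0) : f ∈ ordGE v 0 := by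
  simpa [hv] using mem_riemannRochSpace.mp hf v

/-- The parameter of the zero member. -/
def degenerate : Fin P.dim → K :=
  P.psi.equivFun ⟨-1, neg_mem (mem_riemannRochSpace.mpr fun v => by
    refine ordGE_antitone v ?_ (one_mem_ordGE_zero v)
    rw [ofSet_apply]; split_ifs <;> omega)⟩

omit [IsAlgClosed K] in
include hne in
theorem member_ne_zero {e : Fin P.dim → K} (he : e ≠ P.degenerate) : P.member e ≠ 0 := by
  intro h0
  apply he
  rw [degenerate, ← LinearEquiv.symm_apply_eq]
  apply Subtype.ext
  rw [member, pert, inv_eq_one_div, ← add_div, div_eq_zero_iff] at h0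
  rcases h0 with h0 | h0
  · exact eq_neg_of_add_eq_zero_right h0
  · exact absurd h0 (P.h_ne_zero hne)

omit [IsAlgClosed K] in
theorem degenerate_ne_zero : P.degenerate ≠ 0 := by
  simp [degenerate]

/-- Once all `#R` simple zeros are found the divisor of a member is known. -/
theorem ord_member {ι : Type*} [Fintype ι] (hcard : Fintype.card ι = R.card) {x : ι → Place K F}
    (hx : Function.Injective x) (hpx : ∀ i, P.poles (x i) = 0) {e : Fin P.dim → K}
    (hf : P.member e ≠ 0) (hz : ∀ i, P.member e ∈ ordGE (x i) 1) :
    divOf K (P.member e) = (∑ i, Finsupp.single (x i) (1 : ℤ)) - P.poles := by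
  rw [eq_sub_iff_add_eq, ← sub_eq_zero]
  refine eq_zero_of_nonneg_of_degree (fun v => ?_) ?_
  · have hv := mem_riemannRochSpace.mp (P.member_mem_poles e) v
    rw [mem_ordGE_of_ne_zero v hf] at hv
    simp only [Finsupp.sub_apply, Finsupp.add_apply, divOf_apply, Finsupp.coe_zero, Pi.zero_apply,
      Finsupp.finsetSum_apply]
    by_cases hvx : ∃ i, x i = v
    · obtain ⟨i, rfl⟩ := hvx
      rw [Finset.sum_eq_single i (fun j _ hj => Finsupp.single_eq_of_ne (fun h => hj (hx h).symm))
        (fun h => absurd (Finset.mem_univ i) h), Finsupp.single_eq_same, hpx]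
      have := (mem_ordGE_of_ne_zero _ hf).mp (hz i)
      omega
    · rw [Finset.sum_eq_zero fun i _ => Finsupp.single_eq_of_ne fun h => hvx ⟨i, h.symm⟩]
      omega
  · rw [map_sub, map_add, degree_divOf, degree_poles, map_sum]
    simp [deg_eq_one, hcard]

end Pencil

end Fermat.Agent.CurveTorsion
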