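import Mathlib
import Fermat.Agent.CurveTorsion.H1

/-!
# Algebraic charts: a model `G(t, y) = 0`, smooth at a given place

`exists_chart` produces such a model at every place of a function field over an algebraically
closed field.
-/

noncomputable section

set_option autoImplicit false

namespace Fermat.Agent.CurveTorsion

open AlgebraicCurve Polynomial
open Fermat.Agent.FF
open scoped Classical

variable {K F : Type*} [Field K] [Field F] [Algebra K F] [IsAlgClosed K] [IsFunctionField K F]

/-- Multiplication by `x` as a `K`-linear map. -/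
def mulBy (x : F) : F →ₗ[K] F := LinearMap.mulLeft K x

omit [IsAlgClosed K] [IsFunctionField K F] in
theorem mulBy_apply (x f : F) : mulBy (K := K) x f = x * f := rfl

omit [IsAlgClosed K] in
/-- The functions regular off the poles of `t` form a finitely generated `K[t]`-module. -/
theorem exists_span_regular {t : F} (ht : Transcendental K t) :
    ∃ (n : ℕ) (b : Fin n → F), (∀ i, ∀ v : Place K F, t ∈ ordGE v 0 → b i ∈ ordGE v 0) ∧
      ∀ f : F, (∀ v : Place K F, t ∈ ordGE v 0 → f ∈ ordGE v 0) →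
        ∃ p : Fin n → K[X], f = ∑ i, aeval t (p i) * b i := by
  have ht0 : t ≠ 0 := fun h => ht (h ▸ isAlgebraic_zero)
  set B := poleDiv K t with hB
  have hBnn : 0 ≤ B := poleDiv_nonneg t
  have hmono : ∀ l m : ℕ, l ≤ m → l • B ≤ m • B := fun l m h => nsmul_le_nsmul_left hBnn h
  -- stabilisation
  obtain ⟨γ, hγ⟩ := exists_riemann_inequality K F
  obtain ⟨z, ⟨l0, hl0⟩, hz⟩ := Int.exists_greatest_of_bdd
    (P := fun z => ∃ l : ℕ, speciality (l • B) = z)
    ⟨γ, fun z ⟨l, hl⟩ => by have := hγ (l • B); simp only [speciality] at hl; omega⟩ ⟨_, 0, rfl⟩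
  have hstab : ∀ l, l0 ≤ l → speciality (l • B) = z := fun l hl =>
    le_antisymm (hz _ ⟨l, rfl⟩) (hl0 ▸ speciality_mono (hmono _ _ hl))
  let L : ℕ → Submodule K F := fun l => riemannRochSpace (l • B)
  have hLmem : ∀ (l : ℕ) (f : F), f ∈ L l ↔ ∀ v, f ∈ ordGE v (-((l : ℤ) * B v)) := fun l f => by
    simp [L, mem_riemannRochSpace, Finsupp.smul_apply]
  have hL : ∀ l m : ℕ, l ≤ m → L l ≤ L m := fun l m h => riemannRochSpace_mono (hmono l m h)
  have htB : ∀ v : Place K F, t ∈ ordGE v (-B v) := fun v =>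
    mem_ordGE_of_le_ord v (by rw [hB, poleDiv_apply]; omega)
  have htL : ∀ l : ℕ, (L l).map (mulBy t) ≤ L (l + 1) := fun l => by
    rintro _ ⟨f, hf, rfl⟩
    rw [SetLike.mem_coe, hLmem] at hf
    rw [hLmem]
    intro v
    have := mul_mem_ordGE v (htB v) (hf v)
    rw [show -B v + -((l : ℤ) * B v) = -(((l + 1 : ℕ) : ℤ) * B v) by push_cast; ring] at this
    exact this
  have hstep : ∀ l, l0 ≤ l → L (l + 2) ≤ L (l + 1) ⊔ (L (l + 1)).map (mulBy t) := by
    intro l hl
    have hinj : Function.Injective (mulBy (K := K) t) := mul_right_injective₀ ht0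
    have hinf : L (l + 1) ⊓ (L (l + 1)).map (mulBy t) ≤ (L l).map (mulBy t) := by
      rintro _ ⟨h1, f, hf, rfl⟩
      refine ⟨f, ?_, rfl⟩
      rw [SetLike.mem_coe, hLmem] at h1 hf ⊢
      intro v
      have hBv : B v = max (-v.ord t) 0 := rfl
      by_cases hpole : v.ord t < 0
      · have h2 := mul_mem_ordGE v
          (mem_ordGE_of_le_ord v (f := t⁻¹) (n := B v) (by rw [v.ord_inv, hBv]; omega)) (h1 v)
        rw [mulBy_apply, inv_mul_cancel_left₀ ht0] at h2
        refine ordGE_antitone v ?_ h2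
        push_cast
        linarith
      · have hB0 : B v = 0 := by rw [hBv]; omega
        simpa [hB0] using hf v
    have e1 : speciality ((l + 1) • B) = z := hstab _ (by omega)
    have e2 : speciality ((l + 2) • B) = z := hstab _ (by omega)
    have e3 : speciality (l • B) = z := hstab _ hl
    simp only [speciality, map_nsmul, nsmul_eq_mul, Nat.cast_add, Nat.cast_one, Nat.cast_ofNat,
      add_mul, one_mul] at e1 e2 e3
    have d1 := Submodule.finrank_sup_add_finrank_inf_eq (L (l + 1)) ((L (l + 1)).map (mulBy t))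
    have d2 : Module.finrank K ↥((L (l + 1)).map (mulBy t)) = Module.finrank K ↥(L (l + 1)) :=
      ((L (l + 1)).equivMapOfInjective _ hinj).finrank_eq.symm
    have d3 : Module.finrank K ↥((L l).map (mulBy t)) = Module.finrank K ↥(L l) :=
      ((L l).equivMapOfInjective _ hinj).finrank_eq.symm
    have d4 := Submodule.finrank_mono hinf
    have hle : L (l + 1) ⊔ (L (l + 1)).map (mulBy t) ≤ L (l + 2) :=
      sup_le (hL _ _ (by omega)) (htL (l + 1))
    refine (Submodule.eq_of_le_of_finrank_le hle ?_).ge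
    simp only [L] at d1 d2 d3 d4 ⊢
    simp only [ell] at e1 e2 e3
    omega
  set N := Module.finrank K (L (l0 + 1)) with hN
  let bs := Module.finBasis K (L (l0 + 1))
  let b : Fin N → F := fun i => (bs i : F)
  refine ⟨N, b, fun i v hv => ?_, fun f hf => ?_⟩
  · have hB0 : B v = 0 := by
      have := (mem_ordGE_of_ne_zero v ht0).mp hv
      rw [hB, poleDiv_apply]; omega
    simpa [hB0] using (hLmem (l0 + 1) _).mp (bs i).2 v
  · let Φ : (Fin N → K[X]) →ₗ[K] F := ∑ i,
      LinearMap.mulRight K (b i) ∘ₗ (aeval t).toLinearMap ∘ₗ LinearMap.proj i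
    have hΦ : ∀ p, Φ p = ∑ i, aeval t (p i) * b i := fun p => by simp [Φ]
    have hbase : L (l0 + 1) ≤ LinearMap.range Φ := fun x hx =>
      ⟨fun i => C (bs.repr ⟨x, hx⟩ i), by
        have h2 := congrArg (Subtype.val) (bs.sum_repr ⟨x, hx⟩)
        rw [hΦ]
        simp only [Submodule.coe_sum, Submodule.coe_smul] at h2
        simpa [b, Algebra.smul_def] using h2⟩
    have hmul : ∀ x ∈ LinearMap.range Φ, t * x ∈ LinearMap.range Φ := by
      rintro _ ⟨p, rfl⟩
      exact ⟨fun i => X * p i, by simp [hΦ, Finset.mul_sum, mul_assoc]⟩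
    have hall : ∀ m, L (l0 + 1 + m) ≤ LinearMap.range Φ := fun m => by
      induction m with
      | zero => simpa using hbase
      | succ m ih =>
        have h2 := hstep (l0 + m) (by omega)
        rw [show l0 + m + 2 = l0 + 1 + (m + 1) by omega,
          show l0 + m + 1 = l0 + 1 + m by omega] at h2
        refine h2.trans (sup_le ih ?_)
        rintro _ ⟨x, hx, rfl⟩
        exact hmul x (ih hx)
    set m : ℕ := ∑ v ∈ (finite_setOf_ord_neg (K := K) f).toFinset, (-v.ord f).toNat with hm
    have hfm : f ∈ L (l0 + 1 + m) := by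
      rw [hLmem]
      intro v
      by_cases hp : t ∈ ordGE v 0
      · refine ordGE_antitone v ?_ (hf v hp)
        have h1 : 0 ≤ B v := hBnn v
        simp only [neg_nonpos]; positivity
      · have hB1 : 1 ≤ B v := by
          simp only [mem_ordGE, not_or, not_le] at hp
          rw [hB, poleDiv_apply]; omega
        refine mem_ordGE_of_le_ord v ?_
        have h2 : -v.ord f ≤ (m : ℤ) := by
          by_cases hneg : v.ord f < 0
          · have := Finset.single_le_sum (f := fun v : Place K F => (-v.ord f).toNat)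
              (fun _ _ => Nat.zero_le _) (show v ∈ (finite_setOf_ord_neg (K := K) f).toFinset by
                simpa using hneg)
            omega
          · omega
        have h3 : ((l0 + 1 + m : ℕ) : ℤ) ≤ ((l0 + 1 + m : ℕ) : ℤ) * B v :=
          le_mul_of_one_le_right (by positivity) hB1
        push_cast at h3 ⊢
        omega
    obtain ⟨p, hp⟩ := hall m hfm
    exact ⟨p, by rw [← hΦ, hp]⟩

variable (K F) in
/-- An algebraic chart at a place `P`: a uniformiser `t` and a second coordinate `y`, tied by an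
equation with a simple root at `(0, 1)`. -/
structure Chart where
  /-- The centre. -/
  P : Place K F
  /-- The local parameter. -/
  t : F
  /-- The second coordinate. -/
  y : F
  /-- The equation. -/
  G : K[X][X]
  ord_t : P.ord t = 1
  y_mem : ∀ v : Place K F, t ∈ ordGE v 0 → y ∈ ordGE v 0
  ev_y : ev P y = 1
  root : aevalAeval t y G = 0
  deriv_ne : (derivative G).evalEval 0 1 ≠ 0
  exists_frac : ∀ f : F, ∃ A B : K[X][X],
    aevalAeval t y B ≠ 0 ∧ f * aevalAeval t y B = aevalAeval t y A

/-- Through every place there is a chart. -/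
theorem exists_chart (P : Place K F) : ∃ C : Chart K F, C.P = P := by
  set t := unif P with ht_def
  have hordt : P.ord t = 1 := ord_unif P
  have ht : Transcendental K t := transcendental_of_ord_ne_zero P (by omega)
  have ht0 : t ≠ 0 := unif_ne_zero P
  have htP : t ∈ ordGE P 1 := mem_ordGE_of_le_ord P hordt.ge
  have htP0 : t ∈ ordGE P 0 := ordGE_antitone P zero_le_one htP
  set Z := (finite_setOf_ord_pos (K := K) t).toFinset with hZdef
  have hZ : ∀ v, v ∈ Z ↔ 0 < v.ord t := fun v => by simp [Z]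
  have hPZ : P ∈ Z := (hZ P).mpr (by omega)
  -- the second coordinate
  obtain ⟨y0, hy0⟩ := exists_approx Z (fun v => if v = P then (1 : F) else 0) (fun _ => 1)
  have hy0P : y0 - 1 ∈ ordGE P 1 := by simpa using hy0 P hPZ
  have hy0Z : ∀ v ∈ Z, y0 ∈ ordGE v 0 := fun v hv => by
    have := add_mem (ordGE_antitone v zero_le_one (hy0 v hv))
      (show (if v = P then (1 : F) else 0) ∈ ordGE v 0 by
        split_ifs <;> simp [one_mem_ordGE_zero])
    simpa using this
  obtain ⟨p, hp0, hp⟩ := exists_aeval_mul_mem ht y0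
  obtain ⟨q, hpq, hq⟩ := exists_eq_pow_rootMultiplicity_mul_and_not_dvd p hp0 0
  rw [map_zero, sub_zero] at hpq hq
  have hq0 : q.eval 0 ≠ 0 := fun h => hq (by
    have := dvd_iff_isRoot.mpr h
    simpa using this)
  set m := p.rootMultiplicity 0
  set y : F := algebraMap K F (q.eval 0)⁻¹ * (aeval t q * y0) with hy_def
  have hqy : ∀ v : Place K F, t ∈ ordGE v 0 → aeval t q * y0 ∈ ordGE v 0 := by
    intro v hv
    by_cases hvZ : v ∈ Z
    · simpa using mul_mem_ordGE v (aeval_mem_ordGE_zero v hv q) (hy0Z v hvZ)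
    · have h0 : v.ord t = 0 := by
        have := (mem_ordGE_of_ne_zero v ht0).mp hv
        have h2 : ¬ 0 < v.ord t := fun h => hvZ ((hZ v).mpr h)
        omega
      have h3 := mul_mem_ordGE v (hp v h0.ge)
        (mem_ordGE_of_le_ord v (f := (t ^ m)⁻¹) (n := 0) (by rw [v.ord_inv, ord_pow, h0]; simp))
      have e : aeval t p * y0 * (t ^ m)⁻¹ = aeval t q * y0 := by
        rw [hpq, map_mul, map_pow, aeval_X]
        field_simp
      rw [e] at h3
      simpa using h3
  have hymem : ∀ v : Place K F, t ∈ ordGE v 0 → y ∈ ordGE v 0 := fun v hv => by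
    simpa using mul_mem_ordGE v (algebraMap_mem_ordGE_zero v _) (hqy v hv)
  have hevt : ev P t = 0 := (ev_eq_zero_iff P htP0).mpr htP
  have hevy : ev P y = 1 := by
    rw [hy_def, ev_mul P (algebraMap_mem_ordGE_zero P _) (hqy P htP0), ev_algebraMap,
      ev_mul P (aeval_mem_ordGE_zero P htP0 q) (hy0Z P hPZ), ev_aeval P htP0, hevt,
      ev_eq_of_sub_mem P (c := 1) (by simpa using hy0P), mul_one, inv_mul_cancel₀ hq0]
  have hyP1 : y - 1 ∈ ordGE P 1 := by
    have := sub_ev_mem P (hymem P htP0)
    rwa [hevy, map_one] at this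
  have hyZ : ∀ v ∈ Z, v ≠ P → y ∈ ordGE v 1 := fun v hv hne => by
    have h0 : t ∈ ordGE v 0 := mem_ordGE_of_le_ord v ((hZ v).mp hv).le
    have h1 : y0 ∈ ordGE v 1 := by simpa [hne] using hy0 v hv
    simpa [hy_def] using mul_mem_ordGE v (algebraMap_mem_ordGE_zero v (q.eval 0)⁻¹)
      (mul_mem_ordGE v (aeval_mem_ordGE_zero v h0 q) h1)
  set N : ℕ := (∑ v ∈ Z, (v.ord t).toNat) + 1 with hN
  -- division by `t`
  have hdiv : ∀ g : F, (∀ v : Place K F, t ∈ ordGE v 0 → g ∈ ordGE v 0) → g ∈ ordGE P 1 →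
      ∀ v : Place K F, t ∈ ordGE v 0 → y ^ N * g / t ∈ ordGE v 0 := by
    intro g hg hgP v hv
    have hyv : y ^ N ∈ ordGE v 0 := by simpa using pow_mem_ordGE v (hymem v hv) N
    rw [div_eq_mul_inv]
    by_cases hvZ : v ∈ Z
    · by_cases hvP : v = P
      · subst hvP
        simpa using mul_mem_ordGE v (mul_mem_ordGE v hyv hgP)
          (mem_ordGE_of_le_ord v (f := t⁻¹) (n := -1) (by rw [v.ord_inv, hordt]))
      · have hpw := pow_mem_ordGE v (hyZ v hvZ hvP) N
        have h4 := mul_mem_ordGE v (mul_mem_ordGE v hpw (hg v hv))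
          (mem_ordGE_of_le_ord v (f := t⁻¹) le_rfl)
        refine ordGE_antitone v ?_ h4
        have h5 := Finset.single_le_sum (f := fun v : Place K F => (v.ord t).toNat)
          (fun _ _ => Nat.zero_le _) hvZ
        rw [v.ord_inv]
        omega
    · have h0 : v.ord t = 0 := by
        have := (mem_ordGE_of_ne_zero v ht0).mp hv
        have h2 : ¬ 0 < v.ord t := fun h => hvZ ((hZ v).mpr h)
        omega
      simpa using mul_mem_ordGE v (mul_mem_ordGE v hyv (hg v hv))
        (mem_ordGE_of_le_ord v (f := t⁻¹) (n := 0) (by rw [v.ord_inv, h0]; simp))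
  obtain ⟨n, b, hb, hgen⟩ := exists_span_regular ht
  let c : Fin n → K := fun i => ev P (b i)
  have hrep : ∀ i, ∃ pp : Fin n → K[X],
      y ^ N * (b i - algebraMap K F (c i)) / t = ∑ j, aeval t (pp j) * b j := fun i =>
    hgen _ (hdiv _ (fun v hv => sub_mem (hb i v hv) (algebraMap_mem_ordGE_zero v _))
      (sub_ev_mem P (hb i P htP0)))
  choose pp hpp using hrep
  let Φ : K[X][X] →+* F := (aevalAeval t y).toRingHom
  have hΦC : ∀ a : K[X], Φ (C a) = aeval t a := fun a => by simp [Φ]
  have hΦY : Φ X = y := by simp [Φ]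
  let M0 : Matrix (Fin n) (Fin n) K[X][X] := fun i j =>
    (if i = j then X ^ N else 0) - C (X * pp i j)
  let rhs0 : Fin n → K[X][X] := fun i => C (C (c i)) * X ^ N
  have hMb : (Φ.mapMatrix M0).mulVec b = Φ ∘ rhs0 := by
    funext i
    simp only [Matrix.mulVec, dotProduct, RingHom.mapMatrix_apply, Matrix.map_apply, M0, map_sub,
      sub_mul, Finset.sum_sub_distrib, apply_ite Φ, map_pow, map_zero, ite_mul, zero_mul,
      Finset.sum_ite_eq, Finset.mem_univ, if_true, hΦY, hΦC, map_mul, aeval_X,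
      Function.comp_apply, rhs0, aeval_C, mul_assoc]
    rw [← Finset.mul_sum, ← hpp i, mul_div_cancel₀ _ ht0]
    ring
  set S := M0.det with hS
  have hSb : ∀ i, Φ S * b i = Φ (M0.adjugate.mulVec rhs0 i) := fun i => by
    rw [RingHom.map_mulVec, ← hMb]
    have e2 : (M0.adjugate.map Φ) = (Φ.mapMatrix M0).adjugate := by
      rw [← RingHom.mapMatrix_apply, RingHom.map_adjugate]
    rw [e2, Matrix.mulVec_mulVec, Matrix.adjugate_mul, hS, RingHom.map_det, Matrix.smul_mulVec,
      Matrix.one_mulVec, Pi.smul_apply, smul_eq_mul]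
  have hS01 : S.evalEval 0 1 = 1 := by
    rw [hS, ← coe_evalEvalRingHom, RingHom.map_det]
    have : (evalEvalRingHom (0 : K) 1).mapMatrix M0 = 1 := by
      ext i j
      by_cases hij : i = j
      · simp [M0, hij, Matrix.one_apply]
      · simp [M0, hij]
    rw [this, Matrix.det_one]
  have hevS : ev P (aevalAeval t y S) = 1 := by
    rw [ev_aevalAeval P htP0 (hymem P htP0), hevt, hevy, hS01]
  have hS0 : Φ S ≠ 0 := fun h => by
    rw [show aevalAeval t y S = 0 from h, ev_zero] at hevS
    exact zero_ne_one hevS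
  -- the equation
  have hw : ∀ v : Place K F, t ∈ ordGE v 0 → y - 1 ∈ ordGE v 0 := fun v hv =>
    sub_mem (hymem v hv) (one_mem_ordGE_zero v)
  obtain ⟨p0, hp0eq⟩ := hgen _ (hdiv (y - 1) hw hyP1)
  let R0 : K[X][X] := ∑ j, C (p0 j) * M0.adjugate.mulVec rhs0 j
  have hR0 : Φ R0 = Φ S * (y ^ N * (y - 1) / t) := by
    simp only [R0, map_sum, map_mul, hΦC, ← hSb, hp0eq, Finset.mul_sum]
    exact Finset.sum_congr rfl fun j _ => by ring
  refine ⟨⟨P, t, y, S * X ^ N * (X - 1) - C X * R0, hordt, hymem, hevy, ?_, ?_, fun f => ?_⟩, rfl⟩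
  · show Φ (S * X ^ N * (X - 1) - C X * R0) = 0
    simp only [map_sub, map_mul, map_pow, map_one, hR0, hΦY, hΦC, aeval_X]
    field_simp
    ring
  · simp only [derivative_sub, derivative_mul, derivative_X, derivative_C, derivative_one,
      sub_zero, zero_mul, zero_add, evalEval_sub, evalEval_add, evalEval_mul, evalEval_pow,
      evalEval_X, evalEval_one, evalEval_C, eval_X, sub_self, mul_zero, one_pow, mul_one, hS01]
    exact one_ne_zero
  · obtain ⟨r, hr0, hr⟩ := exists_aeval_mul_mem ht f
    obtain ⟨u, hu⟩ := hgen (aeval t r * f)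
      fun v hv => hr v ((mem_ordGE_of_ne_zero v ht0).mp hv)
    refine ⟨∑ i, C (u i) * M0.adjugate.mulVec rhs0 i, C r * S, ?_, ?_⟩
    · show Φ (C r * S) ≠ 0
      rw [map_mul, hΦC]
      exact mul_ne_zero (transcendental_aeval_ne_zero ht hr0) hS0
    · show f * Φ (C r * S) = Φ _
      simp only [map_sum, map_mul, hΦC, ← hSb]
      rw [show f * (aeval t r * Φ S) = (aeval t r * f) * Φ S by ring, hu, Finset.sum_mul]
      exact Finset.sum_congr rfl fun j _ => by ring

end Fermat.Agent.CurveTorsion
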