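import Mathlib
import Fermat.Agent.CurveTorsion.Chart

/-!
# Analytic charts on the places of a function field over `ℂ`

The branch `y = φ(t)` of a chart gives places `pt z`; the order at `pt z` is the order of the
germ at `z` (`order_germ_eq`), and places near the centre are of this form (`exists_nhd_subset`).
-/

noncomputable section

set_option autoImplicit false

namespace Fermat.Agent.CurveTorsion

open AlgebraicCurve Polynomial Filter Metric
open Fermat.Agent.FF
open scoped Topology ContDiff Classical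

theorem analyticAt_evalEval (H : ℂ[X][X]) (q : ℂ × ℂ) :
    AnalyticAt ℂ (fun p : ℂ × ℂ => H.evalEval p.1 p.2) q := by
  induction H using Polynomial.induction_on' with
  | add a b ha hb => simp only [evalEval_add]; exact ha.fun_add hb
  | monomial n a =>
    simp only [← C_mul_X_pow_eq_monomial, evalEval_mul, evalEval_pow, evalEval_C, evalEval_X,
      ← coe_aeval_eq_eval]
    exact ((analyticAt_fst).aeval_polynomial a).fun_mul (analyticAt_snd.fun_pow n)

theorem hasDerivAt_evalEval_snd (H : ℂ[X][X]) (z w : ℂ) :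
    HasDerivAt (fun w => H.evalEval z w) ((derivative H).evalEval z w) w := by
  simp only [← map_evalRingHom_eval, ← derivative_map]
  exact (H.map (evalRingHom z)).hasDerivAt w

section decomp

variable {K : Type*} [Field K]

theorem exists_decomp (H : K[X][X]) {c d : K} (h : H.evalEval c d = 0) :
    ∃ A B : K[X][X], H = (X - C (C d)) * A + C (X - C c) * B := by
  obtain ⟨A, hA⟩ := X_sub_C_dvd_sub_C_eval (p := H) (a := C d)
  obtain ⟨b, hb⟩ := dvd_iff_isRoot.mpr (show (H.eval (C d)).IsRoot c from h)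
  refine ⟨A, C b, ?_⟩
  rw [← map_mul, ← hb, ← hA]
  ring

theorem exists_step {G : K[X][X]} {c d : K} (hG : G.evalEval c d = 0) :
    ∃ U : K[X][X], U.evalEval c d = (derivative G).evalEval c d ∧ ∀ H : K[X][X],
      H.evalEval c d = 0 → ∃ H₁ A : K[X][X], H * U = C (X - C c) * H₁ + A * G := by
  obtain ⟨U, V, hUV⟩ := exists_decomp G hG
  refine ⟨U, ?_, fun H hH => ?_⟩
  · conv_rhs => rw [hUV]
    simp [evalEval_add, evalEval_mul, evalEval_C]
  · obtain ⟨A, B, hAB⟩ := exists_decomp H hH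
    exact ⟨B * U - A * V, A, by rw [hAB, hUV]; ring⟩

end decomp

variable {F : Type*} [Field F] [Algebra ℂ F] [IsFunctionField ℂ F]

namespace Chart

variable (C₀ : Chart ℂ F)

theorem t_mem : C₀.t ∈ ordGE C₀.P 0 := mem_ordGE_of_le_ord _ (by rw [C₀.ord_t]; omega)

theorem ev_t : ev C₀.P C₀.t = 0 :=
  (ev_eq_zero_iff _ C₀.t_mem).mpr (mem_ordGE_of_le_ord _ C₀.ord_t.ge)

theorem y_memP : C₀.y ∈ ordGE C₀.P 0 := C₀.y_mem _ C₀.t_mem

theorem ev_eval_P (H : ℂ[X][X]) : ev C₀.P (aevalAeval C₀.t C₀.y H) = H.evalEval 0 1 := by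
  rw [ev_aevalAeval _ C₀.t_mem C₀.y_memP, C₀.ev_t, C₀.ev_y]

theorem G_zero_one : C₀.G.evalEval 0 1 = 0 := by rw [← C₀.ev_eval_P, C₀.root, ev_zero]

theorem exists_root : ∃ (r : ℝ) (φ : ℂ → ℂ), 0 < r ∧ φ 0 = 1 ∧
    AnalyticOnNhd ℂ φ (ball 0 r) ∧
    (∀ z ∈ ball (0 : ℂ) r, C₀.G.evalEval z (φ z) = 0 ∧
      (derivative C₀.G).evalEval z (φ z) ≠ 0) ∧
    ∀ᶠ q in 𝓝 ((0 : ℂ), (1 : ℂ)), C₀.G.evalEval q.1 q.2 = 0 → φ q.1 = q.2 := by
  set f : ℂ × ℂ → ℂ := fun p => C₀.G.evalEval p.1 p.2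
  have cdf : ContDiffAt ℂ ω f (0, 1) := (analyticAt_evalEval _ _).contDiffAt
  set d := (derivative C₀.G).evalEval (0 : ℂ) 1
  have if₂ : (fderiv ℂ f (0, 1) ∘L .inr ℂ ℂ ℂ).IsInvertible := by
    have e1 : HasFDerivAt (fun w => f ((0 : ℂ), w)) (fderiv ℂ f (0, 1) ∘L .inr ℂ ℂ ℂ) 1 :=
      ((cdf.differentiableAt (by simp)).hasFDerivAt).comp (1 : ℂ)
        (hasFDerivAt_prodMk_right (0 : ℂ) (1 : ℂ))
    rw [e1.unique (hasDerivAt_evalEval_snd C₀.G 0 1).hasFDerivAt]
    exact ⟨ContinuousLinearEquiv.unitsEquivAut ℂ (Units.mk0 d C₀.deriv_ne), by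
      ext; simp [d]⟩
  have pn : (ω : ℕ∞ω) ≠ 0 := by simp
  set φ := cdf.implicitFunction pn if₂
  have hφ0 : φ 0 = 1 := cdf.implicitFunction_apply_self pn if₂
  have hφa : AnalyticAt ℂ φ 0 := (cdf.contDiffAt_implicitFunction pn if₂).analyticAt
  have hf0 : f (0, 1) = 0 := C₀.G_zero_one
  have h1 := cdf.eventually_apply_implicitFunction pn if₂
  have h2 : ∀ᶠ z in 𝓝 (0 : ℂ), (derivative C₀.G).evalEval z (φ z) ≠ 0 := by
    refine (ContinuousAt.comp (g := fun p : ℂ × ℂ => (derivative C₀.G).evalEval p.1 p.2)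
      (analyticAt_evalEval _ _).continuousAt
      (continuousAt_id.prodMk hφa.continuousAt)).eventually_ne ?_
    simpa [hφ0] using C₀.deriv_ne
  obtain ⟨r, hr, hball⟩ :=
    Metric.eventually_nhds_iff_ball.mp ((hφa.eventually_analyticAt.and h1).and h2)
  refine ⟨r, φ, hr, hφ0, fun z hz => (hball z hz).1.1, fun z hz => ⟨?_, (hball z hz).2⟩, ?_⟩
  · exact (hball z hz).1.2.trans hf0
  · filter_upwards [cdf.eventually_apply_eq_iff_implicitFunction pn if₂] with q hq hq0
    exact hq.mp (hq0.trans hf0.symm)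

/-- The radius of the chart. -/
def radius : ℝ := C₀.exists_root.choose

/-- The analytic root `y = φ(t)`. -/
def phi : ℂ → ℂ := C₀.exists_root.choose_spec.choose

/-- The domain of the chart. -/
def disc : Set ℂ := ball 0 C₀.radius

theorem phi_spec : 0 < C₀.radius ∧ C₀.phi 0 = 1 ∧ AnalyticOnNhd ℂ C₀.phi C₀.disc ∧
    (∀ z ∈ C₀.disc, C₀.G.evalEval z (C₀.phi z) = 0 ∧
      (derivative C₀.G).evalEval z (C₀.phi z) ≠ 0) ∧
    ∀ᶠ q in 𝓝 ((0 : ℂ), (1 : ℂ)), C₀.G.evalEval q.1 q.2 = 0 → C₀.phi q.1 = q.2 :=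
  C₀.exists_root.choose_spec.choose_spec

theorem zero_mem_disc : (0 : ℂ) ∈ C₀.disc := mem_ball_self C₀.phi_spec.1

theorem isOpen_disc : IsOpen C₀.disc := isOpen_ball

theorem disc_mem_nhds {z : ℂ} (hz : z ∈ C₀.disc) : C₀.disc ∈ 𝓝 z := C₀.isOpen_disc.mem_nhds hz

/-- Evaluation along the branch. -/
def val (H : ℂ[X][X]) (z : ℂ) : ℂ := H.evalEval z (C₀.phi z)

theorem analyticAt_val (H : ℂ[X][X]) {z : ℂ} (hz : z ∈ C₀.disc) : AnalyticAt ℂ (C₀.val H) z :=
  (analyticAt_evalEval H (z, C₀.phi z)).comp (f := fun z => (z, C₀.phi z))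
    (analyticAt_id.prod (C₀.phi_spec.2.2.1 z hz))

/-- One division step at a point of the chart. -/
theorem exists_step_at {c : ℂ} (hc : c ∈ C₀.disc) :
    ∃ U : ℂ[X][X], C₀.val U c ≠ 0 ∧ ∀ H : ℂ[X][X], C₀.val H c = 0 → ∃ H₁ : ℂ[X][X],
      aevalAeval C₀.t C₀.y H * aevalAeval C₀.t C₀.y U =
        (C₀.t - algebraMap ℂ F c) * aevalAeval C₀.t C₀.y H₁ ∧
      ∀ z ∈ C₀.disc, C₀.val H z * C₀.val U z = (z - c) * C₀.val H₁ z := by
  obtain ⟨U, hU, hstep⟩ := exists_step (C₀.phi_spec.2.2.2.1 c hc).1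
  refine ⟨U, by rw [val, hU]; exact (C₀.phi_spec.2.2.2.1 c hc).2, fun H hH => ?_⟩
  obtain ⟨H₁, A, h⟩ := hstep H hH
  refine ⟨H₁, ?_, fun z hz => ?_⟩
  · rw [← map_mul, h, map_add, map_mul, map_mul, C₀.root, mul_zero, add_zero]
    simp
  · have := congrArg (fun P => Polynomial.evalEval z (C₀.phi z) P) h
    simpa [val, evalEval_mul, evalEval_add, evalEval_C, (C₀.phi_spec.2.2.2.1 z hz).1] using this

theorem val_zero_apply (H : ℂ[X][X]) : C₀.val H 0 = ev C₀.P (aevalAeval C₀.t C₀.y H) := by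
  rw [ev_eval_P, val, C₀.phi_spec.2.1]

theorem analyticOrderAt_val_eq_top {H : ℂ[X][X]} (h : aevalAeval C₀.t C₀.y H = 0) :
    analyticOrderAt (C₀.val H) 0 = ⊤ := by
  obtain ⟨U, hU, hstep⟩ := C₀.exists_step_at C₀.zero_mem_disc
  have ha := fun H => C₀.analyticAt_val H C₀.zero_mem_disc
  have ht0 : C₀.t ≠ 0 := fun h0 => by have := C₀.ord_t; simp [h0] at this
  suffices key : ∀ n : ℕ, ∀ H, aevalAeval C₀.t C₀.y H = 0 →
      (n : ℕ∞) ≤ analyticOrderAt (C₀.val H) 0 from
    ENat.eq_top_iff_forall_ge.mpr fun n => key n H h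
  intro n
  induction n with
  | zero => intro H _; simp
  | succ n ih =>
    intro H hH
    obtain ⟨H₁, h1, h2⟩ := hstep H (by rw [val_zero_apply, hH, ev_zero])
    have hH₁ : aevalAeval C₀.t C₀.y H₁ = 0 := by
      rw [hH, zero_mul, map_zero, sub_zero] at h1
      exact (mul_eq_zero.mp h1.symm).resolve_left ht0
    have heq : C₀.val H * C₀.val U =ᶠ[𝓝 0] (· - (0 : ℂ)) * C₀.val H₁ := by
      filter_upwards [C₀.disc_mem_nhds C₀.zero_mem_disc] with z hz using h2 z hz
    have ho := analyticOrderAt_congr heq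
    rw [analyticOrderAt_mul (ha H) (ha U), analyticOrderAt_mul (by fun_prop) (ha H₁),
      analyticOrderAt_id_sub_const_self, analyticOrderAt_eq_zero.mpr (Or.inr hU), add_zero] at ho
    rw [ho, Nat.cast_add, Nat.cast_one, add_comm (1 : ℕ∞)]
    exact add_le_add (ih H₁ hH₁) le_rfl

theorem eval_eq_zero_of_order_top {H : ℂ[X][X]} (h : analyticOrderAt (C₀.val H) 0 = ⊤) :
    aevalAeval C₀.t C₀.y H = 0 := by
  obtain ⟨U, hU, hstep⟩ := C₀.exists_step_at C₀.zero_mem_disc
  have ha := fun H => C₀.analyticAt_val H C₀.zero_mem_disc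
  rw [C₀.val_zero_apply] at hU
  have hUo := ord_eq_zero_of_ev_ne_zero _ (aevalAeval_mem _ C₀.t_mem C₀.y_memP U) hU
  suffices key : ∀ n : ℕ, ∀ H, analyticOrderAt (C₀.val H) 0 = ⊤ →
      aevalAeval C₀.t C₀.y H ∈ ordGE C₀.P n by
    by_contra hne
    have := (mem_ordGE_of_ne_zero _ hne).mp
      (key ((C₀.P.ord (aevalAeval C₀.t C₀.y H)).toNat + 1) H h)
    omega
  intro n
  induction n with
  | zero => intro H _; exact aevalAeval_mem _ C₀.t_mem C₀.y_memP H
  | succ n ih =>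
    intro H hH
    obtain ⟨H₁, h1, h2⟩ := hstep H ((analyticOrderAt_eq_top.mp hH).self_of_nhds)
    have hH₁ : analyticOrderAt (C₀.val H₁) 0 = ⊤ := by
      have heq : C₀.val H * C₀.val U =ᶠ[𝓝 0] (· - (0 : ℂ)) * C₀.val H₁ := by
        filter_upwards [C₀.disc_mem_nhds C₀.zero_mem_disc] with z hz using h2 z hz
      have ho := analyticOrderAt_congr heq
      rw [analyticOrderAt_mul (ha H) (ha _), analyticOrderAt_mul (by fun_prop) (ha H₁), hH,
        top_add, analyticOrderAt_id_sub_const_self] at ho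
      by_contra hne
      lift analyticOrderAt (C₀.val H₁) 0 to ℕ using hne with m hm
      exact ENat.natCast_ne_top (1 + m) (by push_cast; exact ho.symm)
    rw [map_zero, sub_zero] at h1
    have h3 := mul_mem_ordGE _ (mul_mem_ordGE _
      (mem_ordGE_of_le_ord C₀.P (f := C₀.t) (n := 1) C₀.ord_t.ge) (ih H₁ hH₁))
      (mem_ordGE_of_le_ord C₀.P (f := (aevalAeval C₀.t C₀.y U)⁻¹) (n := 0)
        (by rw [Place.ord_inv, hUo.1]; simp))
    rw [← h1, mul_inv_cancel_right₀ hUo.2] at h3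
    simpa [add_comm] using h3

theorem val_eqOn_zero {H : ℂ[X][X]} (h : aevalAeval C₀.t C₀.y H = 0) :
    Set.EqOn (C₀.val H) 0 C₀.disc :=
  AnalyticOnNhd.eqOn_zero_of_preconnected_of_eventuallyEq_zero
    (fun _ hz => C₀.analyticAt_val H hz) (convex_ball _ _).isPreconnected C₀.zero_mem_disc
    (analyticOrderAt_eq_top.mp (C₀.analyticOrderAt_val_eq_top h))

theorem val_order_ne_top {H : ℂ[X][X]} (h : aevalAeval C₀.t C₀.y H ≠ 0) {z : ℂ}
    (hz : z ∈ C₀.disc) : analyticOrderAt (C₀.val H) z ≠ ⊤ := fun htop => h <| by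
  have h1 : Set.EqOn (C₀.val H) 0 C₀.disc :=
    AnalyticOnNhd.eqOn_zero_of_preconnected_of_eventuallyEq_zero
      (fun _ hz => C₀.analyticAt_val H hz) (convex_ball _ _).isPreconnected hz
      (analyticOrderAt_eq_top.mp htop)
  refine C₀.eval_eq_zero_of_order_top (analyticOrderAt_eq_top.mpr ?_)
  filter_upwards [C₀.disc_mem_nhds C₀.zero_mem_disc] with w hw using h1 hw

theorem val_eventually_ne {H : ℂ[X][X]} (h : aevalAeval C₀.t C₀.y H ≠ 0) {z : ℂ}
    (hz : z ∈ C₀.disc) : ∀ᶠ w in 𝓝[≠] z, C₀.val H w ≠ 0 := by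
  rcases (C₀.analyticAt_val H hz).eventually_eq_zero_or_eventually_ne_zero with h1 | h1
  · exact absurd (analyticOrderAt_eq_top.mpr h1) (C₀.val_order_ne_top h hz)
  · exact h1

/-- The germ of a function along the chart. -/
def germ (f : F) (z : ℂ) : ℂ :=
  C₀.val (C₀.exists_frac f).choose z / C₀.val (C₀.exists_frac f).choose_spec.choose z

theorem germ_eq {f : F} {A B : ℂ[X][X]} (hB : aevalAeval C₀.t C₀.y B ≠ 0)
    (h : f * aevalAeval C₀.t C₀.y B = aevalAeval C₀.t C₀.y A) {z : ℂ} (hz : z ∈ C₀.disc) :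
    C₀.germ f =ᶠ[𝓝[≠] z] fun w => C₀.val A w / C₀.val B w := by
  set A' := (C₀.exists_frac f).choose with hA'
  set B' := (C₀.exists_frac f).choose_spec.choose with hB'def
  obtain ⟨hB', h'⟩ := (C₀.exists_frac f).choose_spec.choose_spec
  have hzero : aevalAeval C₀.t C₀.y (A' * B - A * B') = 0 := by
    rw [map_sub, map_mul, map_mul, ← h, ← h']; ring
  have h0 := C₀.val_eqOn_zero hzero
  filter_upwards [C₀.val_eventually_ne hB' hz, C₀.val_eventually_ne hB hz,
    nhdsWithin_le_nhds (C₀.disc_mem_nhds hz)] with w hw' hw hwd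
  have e := h0 hwd
  simp only [val, Pi.zero_apply, evalEval_sub, evalEval_mul, sub_eq_zero] at e
  rw [germ, div_eq_div_iff hw' hw]
  exact e

variable {C₀} {z : ℂ} (hz : z ∈ C₀.disc)

include hz

theorem germ_eval (H : ℂ[X][X]) : C₀.germ (aevalAeval C₀.t C₀.y H) =ᶠ[𝓝[≠] z] C₀.val H := by
  have := C₀.germ_eq (B := 1) (by simp) (by rw [map_one, mul_one]) hz (A := H)
  filter_upwards [this] with w hw
  simpa [val] using hw

theorem germ_const (c : ℂ) : C₀.germ (algebraMap ℂ F c) =ᶠ[𝓝[≠] z] fun _ => c := by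
  filter_upwards [germ_eval hz (C (C c))] with w hw
  simpa [val, evalEval_C] using hw

theorem germ_mul (f g : F) : C₀.germ (f * g) =ᶠ[𝓝[≠] z] C₀.germ f * C₀.germ g := by
  obtain ⟨A, B, hB, hf⟩ := C₀.exists_frac f
  obtain ⟨A', B', hB', hg⟩ := C₀.exists_frac g
  filter_upwards [C₀.germ_eq hB hf hz, C₀.germ_eq hB' hg hz,
    C₀.germ_eq (A := A * A') (B := B * B') (f := f * g) (by rw [map_mul]; exact mul_ne_zero hB hB')
      (by rw [map_mul, map_mul, ← hf, ← hg]; ring) hz] with w h1 h2 h3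
  rw [Pi.mul_apply, h1, h2, h3, div_mul_div_comm]
  simp only [val, evalEval_mul]

theorem germ_add (f g : F) : C₀.germ (f + g) =ᶠ[𝓝[≠] z] C₀.germ f + C₀.germ g := by
  obtain ⟨A, B, hB, hf⟩ := C₀.exists_frac f
  obtain ⟨A', B', hB', hg⟩ := C₀.exists_frac g
  filter_upwards [C₀.germ_eq hB hf hz, C₀.germ_eq hB' hg hz,
    C₀.germ_eq (A := A * B' + B * A') (B := B * B') (f := f + g)
      (by rw [map_mul]; exact mul_ne_zero hB hB')
      (by rw [map_mul, map_add, map_mul, map_mul, ← hf, ← hg]; ring) hz,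
    C₀.val_eventually_ne hB hz, C₀.val_eventually_ne hB' hz] with w h1 h2 h3 h4 h5
  rw [Pi.add_apply, h1, h2, h3, div_add_div _ _ h4 h5]
  simp only [val, evalEval_mul, evalEval_add]

theorem meromorphicAt_germ (f : F) : MeromorphicAt (C₀.germ f) z :=
  (C₀.analyticAt_val _ hz).meromorphicAt.div (C₀.analyticAt_val _ hz).meromorphicAt

/-- The order of a germ. -/
theorem order_germ_mul (f g : F) : meromorphicOrderAt (C₀.germ (f * g)) z =
    meromorphicOrderAt (C₀.germ f) z + meromorphicOrderAt (C₀.germ g) z := by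
  rw [meromorphicOrderAt_congr (germ_mul hz f g),
    meromorphicOrderAt_mul (meromorphicAt_germ hz f) (meromorphicAt_germ hz g)]

theorem order_germ_const {c : ℂ} (hc : c ≠ 0) :
    meromorphicOrderAt (C₀.germ (algebraMap ℂ F c)) z = 0 := by
  rw [meromorphicOrderAt_congr (germ_const hz c), meromorphicOrderAt_const, if_neg hc]

theorem order_germ_ne_top {f : F} (hf : f ≠ 0) : meromorphicOrderAt (C₀.germ f) z ≠ ⊤ := by
  intro h
  have := order_germ_mul hz f f⁻¹
  rw [mul_inv_cancel₀ hf, h, top_add, ← map_one (algebraMap ℂ F),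
    order_germ_const hz one_ne_zero] at this
  exact WithTop.zero_ne_top this

theorem order_germ_t_sub :
    meromorphicOrderAt (C₀.germ (C₀.t - algebraMap ℂ F z)) z = 1 := by
  have : C₀.t - algebraMap ℂ F z = aevalAeval C₀.t C₀.y (C (X - C z) : ℂ[X][X]) := by simp
  rw [this, meromorphicOrderAt_congr (germ_eval hz _), show
    C₀.val (C (X - C z)) = (· - z) from funext fun w => by simp [val, evalEval_C]]
  exact meromorphicOrderAt_id_sub_const

omit hz

variable (C₀)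

theorem order_germ_inv (hz : z ∈ C₀.disc) {f : F} (hf : f ≠ 0) :
    meromorphicOrderAt (C₀.germ f⁻¹) z = -meromorphicOrderAt (C₀.germ f) z := by
  have h := order_germ_mul hz f f⁻¹
  rw [mul_inv_cancel₀ hf, ← map_one (algebraMap ℂ F), order_germ_const hz one_ne_zero] at h
  lift meromorphicOrderAt (C₀.germ f) z to ℤ using order_germ_ne_top hz hf with a ha
  lift meromorphicOrderAt (C₀.germ f⁻¹) z to ℤ using order_germ_ne_top hz (inv_ne_zero hf)
    with b hb
  norm_cast at h ⊢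
  omega

/-- The valuation ring of the point of parameter `z`. -/
def valRing (z : ℂ) (hz : z ∈ C₀.disc) : ValuationSubring F where
  carrier := {f | 0 ≤ meromorphicOrderAt (C₀.germ f) z}
  mul_mem' {f g} hf hg := by
    rw [Set.mem_ofPred_eq] at hf hg ⊢
    rw [order_germ_mul hz]
    exact add_nonneg hf hg
  one_mem' := by
    rw [Set.mem_ofPred_eq]
    rw [← map_one (algebraMap ℂ F), order_germ_const hz one_ne_zero]
  add_mem' {f g} hf hg := by
    rw [Set.mem_ofPred_eq] at hf hg ⊢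
    rw [meromorphicOrderAt_congr (germ_add hz f g)]
    exact (le_min hf hg).trans
      (meromorphicOrderAt_add (meromorphicAt_germ hz f) (meromorphicAt_germ hz g))
  zero_mem' := by
    rw [Set.mem_ofPred_eq]
    rw [← map_zero (algebraMap ℂ F), meromorphicOrderAt_congr (germ_const hz 0),
      meromorphicOrderAt_const, if_pos rfl]
    exact le_top
  neg_mem' {f} hf := by
    rw [Set.mem_ofPred_eq] at hf ⊢
    rw [← neg_one_mul, show (-1 : F) = algebraMap ℂ F (-1) by simp, order_germ_mul hz,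
      order_germ_const hz (by simp), zero_add]
    exact hf
  mem_or_inv_mem' f := by
    rw [Set.mem_ofPred_eq, Set.mem_ofPred_eq]
    rcases eq_or_ne f 0 with rfl | hf
    · left
      rw [← map_zero (algebraMap ℂ F), meromorphicOrderAt_congr (germ_const hz 0),
        meromorphicOrderAt_const, if_pos rfl]
      exact le_top
    · rw [C₀.order_germ_inv hz hf]
      lift meromorphicOrderAt (C₀.germ f) z to ℤ using order_germ_ne_top hz hf with a ha
      norm_cast
      omega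

theorem mem_valRing (hz : z ∈ C₀.disc) {f : F} :
    f ∈ C₀.valRing z hz ↔ 0 ≤ meromorphicOrderAt (C₀.germ f) z := by
  rw [← ValuationSubring.mem_carrier]
  exact Set.mem_ofPred_eq.to_iff

theorem algebraMap_mem_valRing (hz : z ∈ C₀.disc) (c : ℂ) :
    algebraMap ℂ F c ∈ C₀.valRing z hz := by
  rw [mem_valRing]
  rw [meromorphicOrderAt_congr (germ_const hz c), meromorphicOrderAt_const]
  split_ifs <;> simp

/-- The place of parameter `z`. -/
def pt (z : ℂ) : Place ℂ F :=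
  if hz : z ∈ C₀.disc then
    { toValuationSubring := C₀.valRing z hz
      algebraMap_mem' := C₀.algebraMap_mem_valRing hz
      ne_top' := fun h => by
        have hne : C₀.t - algebraMap ℂ F z ≠ 0 := fun h0 => by
          have := order_germ_t_sub (C₀ := C₀) hz
          rw [h0, ← map_zero (algebraMap ℂ F), meromorphicOrderAt_congr (germ_const hz 0),
            meromorphicOrderAt_const, if_pos rfl] at this
          exact WithTop.top_ne_one this
        have hmem : (C₀.t - algebraMap ℂ F z)⁻¹ ∈ C₀.valRing z hz := h ▸ ValuationSubring.mem_top _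
        have : 0 ≤ meromorphicOrderAt (C₀.germ (C₀.t - algebraMap ℂ F z)⁻¹) z :=
          (C₀.mem_valRing hz).mp hmem
        rw [C₀.order_germ_inv hz hne, order_germ_t_sub hz] at this
        exact absurd this (by decide)
      isPrincipalIdealRing' := isPrincipalIdealRing_valuationSubring_of_ne_top _
        (C₀.algebraMap_mem_valRing hz) }
  else C₀.P

variable {C₀} (hz : z ∈ C₀.disc)

include hz

theorem mem_pt_iff {f : F} :
    f ∈ ordGE (C₀.pt z) 0 ↔ 0 ≤ meromorphicOrderAt (C₀.germ f) z := by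
  rw [← mem_toValuationSubring_iff, pt, dif_pos hz]
  exact C₀.mem_valRing hz

theorem ord_eq_zero_of_order_eq_zero {f : F}
    (h : meromorphicOrderAt (C₀.germ f) z = 0) : (C₀.pt z).ord f = 0 := by
  rcases eq_or_ne f 0 with rfl | hf
  · exact Place.ord_zero _
  · have h1 := (mem_ordGE_of_ne_zero _ hf).mp ((mem_pt_iff hz).mpr h.ge)
    have h2 := (mem_ordGE_of_ne_zero _ (inv_ne_zero hf)).mp
      ((mem_pt_iff hz).mpr (by rw [C₀.order_germ_inv hz hf, h]; simp))
    rw [Place.ord_inv] at h2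
    omega

theorem ord_pt_t_sub : (C₀.pt z).ord (C₀.t - algebraMap ℂ F z) = 1 ∧
    C₀.t - algebraMap ℂ F z ≠ 0 := by
  set w := C₀.t - algebraMap ℂ F z with hw
  have ho : meromorphicOrderAt (C₀.germ w) z = 1 := order_germ_t_sub hz
  have hne : w ≠ 0 := fun h0 => by
    rw [h0, ← map_zero (algebraMap ℂ F), meromorphicOrderAt_congr (germ_const hz 0),
      meromorphicOrderAt_const, if_pos rfl] at ho
    exact WithTop.top_ne_one ho
  refine ⟨?_, hne⟩
  have h1 := (mem_ordGE_of_ne_zero _ hne).mp ((mem_pt_iff hz).mpr (ho ▸ zero_le_one))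
  have h2 : (C₀.pt z).ord w ≠ 0 := fun h0 => by
    have := (mem_pt_iff hz).mp (inv_mem_ordGE_of_ord_eq_zero _ h0)
    rw [C₀.order_germ_inv hz hne, ho] at this
    exact absurd this (by decide)
  obtain ⟨π, hπ0, hπ⟩ := exists_uniformizer (C₀.pt z)
  have hπo := (mem_pt_iff hz).mp
    (mem_ordGE_of_le_ord _ (show (0 : ℤ) ≤ _ by omega : (0 : ℤ) ≤ (C₀.pt z).ord π))
  have hπne : meromorphicOrderAt (C₀.germ π) z ≠ 0 := fun h0 => by
    rw [ord_eq_zero_of_order_eq_zero hz h0] at hπ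
    exact zero_ne_one hπ
  have h3 : π / w ∈ ordGE (C₀.pt z) 0 := by
    refine (mem_pt_iff hz).mpr ?_
    rw [div_eq_mul_inv, order_germ_mul hz, C₀.order_germ_inv hz hne, ho]
    lift meromorphicOrderAt (C₀.germ π) z to ℤ using order_germ_ne_top hz hπ0 with a ha
    norm_cast at hπo hπne
    change (0 : WithTop ℤ) ≤ (a : WithTop ℤ) + ((-1 : ℤ) : WithTop ℤ)
    norm_cast
    omega
  have h4 := (mem_ordGE_of_ne_zero _ (div_ne_zero hπ0 hne)).mp h3
  rw [ord_div _ hπ0 hne] at h4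
  omega

/-- The order at `pt z` is the order of the germ. -/
theorem order_germ_eq {f : F} (hf : f ≠ 0) :
    meromorphicOrderAt (C₀.germ f) z = ((C₀.pt z).ord f : WithTop ℤ) := by
  obtain ⟨hw, hne⟩ := ord_pt_t_sub hz
  set w := C₀.t - algebraMap ℂ F z
  have hpow : ∀ n : ℤ, meromorphicOrderAt (C₀.germ (w ^ n)) z = (n : WithTop ℤ) := by
    intro n
    induction n using Int.induction_on with
    | zero =>
      rw [zpow_zero, ← map_one (algebraMap ℂ F), order_germ_const hz one_ne_zero]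
      rfl
    | succ n ih =>
      rw [zpow_add_one₀ hne, order_germ_mul hz, ih, order_germ_t_sub hz]
      norm_cast
    | pred n ih =>
      rw [zpow_sub_one₀ hne, order_germ_mul hz, ih, C₀.order_germ_inv hz hne, order_germ_t_sub hz]
      change ((-(n : ℤ) : ℤ) : WithTop ℤ) + ((-1 : ℤ) : WithTop ℤ) = _
      norm_cast
  obtain ⟨n, hn⟩ := WithTop.ne_top_iff_exists.mp (order_germ_ne_top hz hf)
  rw [← hn, WithTop.coe_inj]
  have hu : meromorphicOrderAt (C₀.germ (f * w ^ (-n))) z = 0 := by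
    rw [order_germ_mul hz, hpow, ← hn]
    norm_cast
    simp
  have := ord_eq_zero_of_order_eq_zero hz hu
  rw [Place.ord_mul _ hf (zpow_ne_zero _ hne), Place.ord_zpow, hw] at this
  omega

theorem mem_ordGE_pt_iff {f : F} {n : ℤ} :
    f ∈ ordGE (C₀.pt z) n ↔ (n : WithTop ℤ) ≤ meromorphicOrderAt (C₀.germ f) z := by
  rcases eq_or_ne f 0 with rfl | hf
  · rw [← map_zero (algebraMap ℂ F), meromorphicOrderAt_congr (germ_const hz 0),
      meromorphicOrderAt_const, if_pos rfl]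
    simp
  · rw [mem_ordGE_of_ne_zero _ hf, order_germ_eq hz hf, WithTop.coe_le_coe]

theorem mem_and_ev_of_tendsto {f : F} {a : ℂ}
    (h : Tendsto (C₀.germ f) (𝓝[≠] z) (𝓝 a)) :
    f ∈ ordGE (C₀.pt z) 0 ∧ ev (C₀.pt z) f = a := by
  have hf : f ∈ ordGE (C₀.pt z) 0 :=
    (mem_pt_iff hz).mpr ((tendsto_nhds_iff_meromorphicOrderAt_nonneg
      (meromorphicAt_germ hz f)).mp ⟨a, h⟩)
  refine ⟨hf, ev_eq_of_sub_mem _ ?_⟩
  rw [sub_eq_add_neg, ← map_neg, mem_ordGE_pt_iff hz]
  have h2 : Tendsto (C₀.germ (f + algebraMap ℂ F (-a))) (𝓝[≠] z) (𝓝 0) := by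
    refine Tendsto.congr' ((germ_add hz f _).trans ?_).symm (by simpa using h.sub_const a)
    filter_upwards [germ_const hz (-a)] with w hw
    rw [Pi.add_apply, hw, sub_eq_add_neg]
  have h3 := (tendsto_zero_iff_meromorphicOrderAt_pos (meromorphicAt_germ hz _)).mp h2
  revert h3
  cases meromorphicOrderAt (C₀.germ (f + algebraMap ℂ F (-a))) z with
  | top => simp
  | coe m =>
    intro h3
    norm_cast at h3 ⊢

theorem eval_mem_and_ev (H : ℂ[X][X]) :
    aevalAeval C₀.t C₀.y H ∈ ordGE (C₀.pt z) 0 ∧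
      ev (C₀.pt z) (aevalAeval C₀.t C₀.y H) = C₀.val H z :=
  mem_and_ev_of_tendsto hz (Tendsto.congr' (germ_eval hz H).symm
    ((C₀.analyticAt_val H hz).continuousAt.tendsto.mono_left nhdsWithin_le_nhds))

theorem t_mem_pt : C₀.t ∈ ordGE (C₀.pt z) 0 ∧ ev (C₀.pt z) C₀.t = z := by
  simpa [val, evalEval_C] using eval_mem_and_ev hz (C X)

theorem y_mem_pt : C₀.y ∈ ordGE (C₀.pt z) 0 ∧ ev (C₀.pt z) C₀.y = C₀.phi z := by
  simpa [val] using eval_mem_and_ev hz X

/-- A function regular at `pt z` is analytic in the parameter near `z`. -/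
theorem analytic_ev {f : F} (hf : f ∈ ordGE (C₀.pt z) 0) :
    AnalyticAt ℂ (fun w => ev (C₀.pt w) f) z ∧ ∀ᶠ w in 𝓝 z, f ∈ ordGE (C₀.pt w) 0 := by
  obtain ⟨g, hg, hfg⟩ :=
    (meromorphicAt_germ hz f).meromorphicOrderAt_nonneg_iff.mp ((mem_pt_iff hz).mp hf)
  have hev : ∀ᶠ w in 𝓝 z, f ∈ ordGE (C₀.pt w) 0 ∧ ev (C₀.pt w) f = g w := by
    have h2 := eventually_nhdsWithin_iff.mp hfg
    filter_upwards [h2.eventually_nhds, hg.eventually_analyticAt, C₀.disc_mem_nhds hz]
      with w hw hgw hwd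
    refine mem_and_ev_of_tendsto hwd (Tendsto.congr' ?_
      (hgw.continuousAt.tendsto.mono_left nhdsWithin_le_nhds))
    rcases eq_or_ne w z with rfl | hne
    · exact hfg.symm
    · filter_upwards [nhdsWithin_le_nhds hw, nhdsWithin_le_nhds
        (isOpen_compl_singleton.mem_nhds hne)] with u hu hne'
      exact (hu hne').symm
  refine ⟨hg.congr ?_, hev.mono fun w h => h.1⟩
  filter_upwards [hev] with w hw using hw.2.symm

theorem hasDerivAt_ev {f : F} {c : ℂ} (hf : f - algebraMap ℂ F c ∈ ordGE (C₀.pt z) 1) :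
    HasDerivAt (fun w => ev (C₀.pt w) f)
      (ev (C₀.pt z) ((f - algebraMap ℂ F c) / (C₀.t - algebraMap ℂ F z))) z := by
  obtain ⟨hw1, hne⟩ := ord_pt_t_sub hz
  set q := (f - algebraMap ℂ F c) / (C₀.t - algebraMap ℂ F z) with hq
  have hqm : q ∈ ordGE (C₀.pt z) 0 := by
    rw [hq, div_eq_mul_inv]
    simpa using mul_mem_ordGE _ hf (mem_ordGE_of_le_ord (C₀.pt z)
      (f := (C₀.t - algebraMap ℂ F z)⁻¹) (n := -1) (by rw [Place.ord_inv, hw1]))
  obtain ⟨hqa, hqe⟩ := analytic_ev hz hqm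
  have heq : (fun w => ev (C₀.pt w) f) =ᶠ[𝓝 z] fun w => c + (w - z) * ev (C₀.pt w) q := by
    filter_upwards [hqe, C₀.disc_mem_nhds hz] with w hw hwd
    have e : f = algebraMap ℂ F c + (C₀.t - algebraMap ℂ F z) * q := by
      rw [hq]; field_simp; ring
    obtain ⟨htm, hte⟩ := t_mem_pt hwd
    have hts := sub_mem htm (algebraMap_mem_ordGE_zero (C₀.pt w) z)
    conv_lhs => rw [e]
    rw [ev_add _ (algebraMap_mem_ordGE_zero _ c) (by simpa using mul_mem_ordGE _ hts hw),
      ev_mul _ hts hw, ev_sub _ htm (algebraMap_mem_ordGE_zero _ _), hte, ev_algebraMap,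
      ev_algebraMap]
  refine HasDerivAt.congr_of_eventuallyEq ?_ heq
  have h1 := ((hasDerivAt_id z).sub_const z).fun_mul hqa.differentiableAt.hasDerivAt
  simpa using h1.const_add c

/-- A place centred at a point of the branch is the corresponding place. -/
theorem eq_pt {v : Place ℂ F} (ht : C₀.t ∈ ordGE v 0) (hevt : ev v C₀.t = z)
    (hevy : ev v C₀.y = C₀.phi z) : v = C₀.pt z := by
  have hy := C₀.y_mem v ht
  have hevH : ∀ H : ℂ[X][X], ev v (aevalAeval C₀.t C₀.y H) = C₀.val H z := fun H => by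
    rw [ev_aevalAeval v ht hy, hevt, hevy, val]
  obtain ⟨U, hU, hstep⟩ := C₀.exists_step_at hz
  have hUm := aevalAeval_mem v ht hy U
  have hU0 := (ord_eq_zero_of_ev_ne_zero v hUm (by rwa [hevH])).2
  have ha := fun H => C₀.analyticAt_val H hz
  suffices key : ∀ (n : ℕ) (A B : ℂ[X][X]), analyticOrderAt (C₀.val B) z = n →
      (n : ℕ∞) ≤ analyticOrderAt (C₀.val A) z →
      aevalAeval C₀.t C₀.y A / aevalAeval C₀.t C₀.y B ∈ ordGE v 0 by
    refine (place_eq_of_le fun f hf => ?_).symm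
    rw [mem_toValuationSubring_iff] at hf ⊢
    obtain ⟨A, B, hB, hAB⟩ := C₀.exists_frac f
    obtain ⟨n, hn⟩ := ENat.ne_top_iff_exists.mp (C₀.val_order_ne_top hB hz)
    have hfe : f = aevalAeval C₀.t C₀.y A / aevalAeval C₀.t C₀.y B := by
      rw [← hAB, mul_div_cancel_right₀ _ hB]
    rw [hfe]
    refine key n A B hn.symm ?_
    have h1 := order_germ_mul hz f (aevalAeval C₀.t C₀.y B)
    rw [hAB, meromorphicOrderAt_congr (germ_eval hz A), meromorphicOrderAt_congr (germ_eval hz B),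
      (ha A).meromorphicOrderAt_eq, (ha B).meromorphicOrderAt_eq, ← hn] at h1
    have h0 := (mem_pt_iff hz).mp hf
    revert h1
    cases analyticOrderAt (C₀.val A) z with
    | top => simp
    | coe m =>
      intro h1
      revert h0 h1
      cases meromorphicOrderAt (C₀.germ f) z with
      | top => simp
      | coe k =>
        simp only [ENat.map_natCast, Nat.cast_le]
        norm_cast
        omega
  intro n
  induction n with
  | zero =>
    intro A B hB _
    refine div_mem_ordGE v (aevalAeval_mem v ht hy A) (aevalAeval_mem v ht hy B) ?_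
    rw [hevH]
    simpa [(ha B).analyticOrderAt_eq_zero] using hB
  | succ n ih =>
    intro A B hB hA
    have hzero : ∀ H : ℂ[X][X], ((n + 1 : ℕ) : ℕ∞) ≤ analyticOrderAt (C₀.val H) z →
        C₀.val H z = 0 := fun H h =>
      apply_eq_zero_of_analyticOrderAt_ne_zero fun h0 => by rw [h0] at h; simp at h
    obtain ⟨A₁, hA₁, hA₁'⟩ := hstep A (hzero A hA)
    obtain ⟨B₁, hB₁, hB₁'⟩ := hstep B (hzero B hB.ge)
    have hord : ∀ H H₁ : ℂ[X][X], (∀ w ∈ C₀.disc, C₀.val H w * C₀.val U w =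
        (w - z) * C₀.val H₁ w) →
        analyticOrderAt (C₀.val H) z = 1 + analyticOrderAt (C₀.val H₁) z := by
      intro H H₁ h
      have heq : C₀.val H * C₀.val U =ᶠ[𝓝 z] (· - z) * C₀.val H₁ := by
        filter_upwards [C₀.disc_mem_nhds hz] with w hw using h w hw
      have := analyticOrderAt_congr heq
      rwa [analyticOrderAt_mul (ha H) (ha U), analyticOrderAt_mul (by fun_prop) (ha H₁),
        analyticOrderAt_id_sub_const_self, analyticOrderAt_eq_zero.mpr (Or.inr hU),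
        add_zero] at this
    rw [hord A A₁ hA₁', Nat.cast_add, Nat.cast_one, add_comm (1 : ℕ∞)] at hA
    rw [hord B B₁ hB₁', Nat.cast_add, Nat.cast_one, add_comm (1 : ℕ∞)] at hB
    have hw : C₀.t - algebraMap ℂ F z ≠ 0 := (ord_pt_t_sub hz).2
    rw [← mul_div_mul_right _ _ hU0, hA₁, hB₁, mul_div_mul_left _ _ hw]
    exact ih A₁ B₁ (WithTop.add_right_cancel WithTop.one_ne_top hB)
      ((WithTop.add_le_add_iff_right WithTop.one_ne_top).mp hA)

omit hz

variable (C₀)

theorem pt_zero : C₀.pt 0 = C₀.P :=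
  (eq_pt C₀.zero_mem_disc C₀.t_mem C₀.ev_t (by rw [C₀.ev_y, C₀.phi_spec.2.1])).symm

theorem pt_injOn : Set.InjOn C₀.pt C₀.disc := fun z hz w hw h => by
  rw [← (t_mem_pt hz).2, ← (t_mem_pt hw).2, h]

/-- Places near the centre lie on the chart. -/
theorem exists_nhd_subset {S : Set ℂ} (hS : S ∈ 𝓝 (0 : ℂ)) :
    ∃ δ > 0, ∀ v : Place ℂ F, C₀.t ∈ ordGE v 0 → ‖ev v C₀.t‖ < δ → ‖ev v C₀.y - 1‖ < δ →
      v ∈ C₀.pt '' S := by
  have h1 : ∀ᶠ q in 𝓝 ((0 : ℂ), (1 : ℂ)), q.1 ∈ S ∧ q.1 ∈ C₀.disc ∧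
      (C₀.G.evalEval q.1 q.2 = 0 → C₀.phi q.1 = q.2) :=
    (eventually_and.mpr ⟨(continuousAt_fst (p := ((0 : ℂ), (1 : ℂ)))).preimage_mem_nhds hS,
      eventually_and.mpr ⟨(continuousAt_fst (p := ((0 : ℂ), (1 : ℂ)))).preimage_mem_nhds
        (C₀.disc_mem_nhds C₀.zero_mem_disc), C₀.phi_spec.2.2.2.2⟩⟩)
  obtain ⟨δ, hδ, hball⟩ := Metric.eventually_nhds_iff.mp h1
  refine ⟨δ, hδ, fun v ht h2 h3 => ?_⟩
  obtain ⟨hzS, hzd, hφ⟩ := hball (y := (ev v C₀.t, ev v C₀.y)) (by
    simpa [Prod.dist_eq, dist_eq_norm] using ⟨h2, h3⟩)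
  have hy := C₀.y_mem v ht
  have hG : C₀.G.evalEval (ev v C₀.t) (ev v C₀.y) = 0 := by
    rw [← ev_aevalAeval v ht hy, C₀.root, ev_zero]
  exact ⟨_, hzS, (eq_pt hzd ht rfl (hφ hG).symm).symm⟩

end Chart

end Fermat.Agent.CurveTorsion
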