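import Mathlib
import Fermat.Agent.CurveTorsion.Germ

/-!
# The residue classes along a chart are analytic; the local Abel–Jacobi map

`thetaVec` is analytic in the parameter and `log` is its primitive (`hasDerivAt_log`).
-/

noncomputable section

set_option autoImplicit false

namespace Fermat.Agent.CurveTorsion

open AlgebraicCurve Polynomial Filter Metric
open Fermat.Agent.FF
open scoped Topology Classical

variable {F : Type*} [Field F] [Algebra ℂ F] [IsFunctionField ℂ F]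

variable (F) in
/-- Coordinates on `H¹(0)`. -/
def coordEquiv : H1 (0 : Divisor ℂ F) ≃ₗ[ℂ] (Fin (genusFF ℂ F) → ℂ) :=
  haveI := finiteDimensional_H1 (K := ℂ) (F := F)
  (Module.finBasis ℂ (H1 (0 : Divisor ℂ F))).equivFun

namespace Chart

variable (C₀ : Chart ℂ F)

/-- The coefficient of `yˡ` in the numerator of the kernel. -/
def kerCoeff (z : ℂ) (i l : ℕ) : ℂ := (C₀.G.coeff i).eval z * C₀.phi z ^ (i - 1 - l)

/-- The numerator `(G(z, y) - G(z, φ z)) / (y - φ z)`. -/
def kerNum (z : ℂ) : F :=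
  ∑ i ∈ Finset.range (C₀.G.natDegree + 1), ∑ l ∈ Finset.range i, C₀.kerCoeff z i l • C₀.y ^ l

/-- The function with a simple pole at `pt z` and otherwise only poles over `t = ∞`. -/
def kerFun (z : ℂ) : F := C₀.kerNum z / (C₀.t - algebraMap ℂ F z)

theorem kerNum_mem {v : Place ℂ F} (ht : C₀.t ∈ ordGE v 0) (z : ℂ) :
    C₀.kerNum z ∈ ordGE v 0 :=
  Submodule.sum_mem _ fun i _ => Submodule.sum_mem _ fun l _ => Submodule.smul_mem _ _
    (by simpa using pow_mem_ordGE v (C₀.y_mem v ht) l)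

theorem kerNum_mul (z : ℂ) : ∃ W : F,
    (∀ v : Place ℂ F, C₀.t ∈ ordGE v 0 → W ∈ ordGE v 0) ∧
    C₀.kerNum z * (C₀.y - algebraMap ℂ F (C₀.phi z)) =
      (C₀.t - algebraMap ℂ F z) * W - algebraMap ℂ F (C₀.val C₀.G z) := by
  have hq : ∀ i, ∃ q : ℂ[X], C₀.G.coeff i - C ((C₀.G.coeff i).eval z) = (X - C z) * q :=
    fun i => X_sub_C_dvd_sub_C_eval
  choose q hq using hq
  refine ⟨-∑ i ∈ Finset.range (C₀.G.natDegree + 1), aeval C₀.t (q i) * C₀.y ^ i, fun v ht =>
    neg_mem (Submodule.sum_mem _ fun i _ => by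
      simpa using mul_mem_ordGE v (aeval_mem_ordGE_zero v ht (q i))
        (pow_mem_ordGE v (C₀.y_mem v ht) i)), ?_⟩
  have hroot :
      ∑ i ∈ Finset.range (C₀.G.natDegree + 1), aeval C₀.t (C₀.G.coeff i) * C₀.y ^ i = 0 := by
    have := C₀.root
    rw [C₀.G.as_sum_range_C_mul_X_pow, map_sum] at this
    simpa [aevalAeval_C] using this
  have hval : C₀.val C₀.G z = ∑ i ∈ Finset.range (C₀.G.natDegree + 1),
      (C₀.G.coeff i).eval z * C₀.phi z ^ i := by
    conv_lhs => rw [val, C₀.G.as_sum_range_C_mul_X_pow]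
    simp [evalEval_finsetSum, evalEval_mul, evalEval_pow, evalEval_C]
  have hterm : ∀ i, (∑ l ∈ Finset.range i, C₀.kerCoeff z i l • C₀.y ^ l) *
      (C₀.y - algebraMap ℂ F (C₀.phi z)) = algebraMap ℂ F ((C₀.G.coeff i).eval z) *
        (C₀.y ^ i - algebraMap ℂ F (C₀.phi z) ^ i) := by
    intro i
    rw [← (Commute.all C₀.y (algebraMap ℂ F (C₀.phi z))).geom_sum₂_mul i, ← mul_assoc,
      Finset.mul_sum]
    congr 1
    refine Finset.sum_congr rfl fun l _ => ?_
    rw [kerCoeff, Algebra.smul_def, map_mul, map_pow]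
    ring
  rw [kerNum, Finset.sum_mul, Finset.sum_congr rfl fun i _ => hterm i, hval, map_sum]
  simp only [mul_sub, Finset.sum_sub_distrib, map_mul, map_pow]
  congr 1
  rw [mul_neg, Finset.mul_sum, eq_neg_iff_add_eq_zero, ← Finset.sum_add_distrib]
  refine (Finset.sum_congr rfl fun i _ => ?_).trans hroot
  have h := congrArg (aeval C₀.t) (hq i)
  simp only [map_sub, map_mul, aeval_X, aeval_C] at h
  rw [← mul_assoc, ← h]
  ring

variable {C₀} {z : ℂ} (hz : z ∈ C₀.disc)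

include hz

theorem kerFun_mem {v : Place ℂ F} (ht : C₀.t ∈ ordGE v 0) (hv : v ≠ C₀.pt z) :
    C₀.kerFun z ∈ ordGE v 0 := by
  obtain ⟨W, hW, hUW⟩ := C₀.kerNum_mul z
  rw [show C₀.val C₀.G z = 0 from (C₀.phi_spec.2.2.2.1 z hz).1, map_zero, sub_zero] at hUW
  have hts := sub_mem ht (algebraMap_mem_ordGE_zero v z)
  by_cases he : ev v (C₀.t - algebraMap ℂ F z) = 0
  · have hys := sub_mem (C₀.y_mem v ht) (algebraMap_mem_ordGE_zero v (C₀.phi z))
    have hne : ev v (C₀.y - algebraMap ℂ F (C₀.phi z)) ≠ 0 := by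
      rw [ev_sub v (C₀.y_mem v ht) (algebraMap_mem_ordGE_zero v _), ev_algebraMap, sub_ne_zero]
      intro hy
      rw [ev_sub v ht (algebraMap_mem_ordGE_zero v _), ev_algebraMap, sub_eq_zero] at he
      exact hv (eq_pt hz ht he hy)
    have h0 := (ord_eq_zero_of_ev_ne_zero v hys hne).2
    have e : C₀.kerFun z = W / (C₀.y - algebraMap ℂ F (C₀.phi z)) := by
      rw [kerFun, div_eq_div_iff (ord_pt_t_sub hz).2 h0, hUW, mul_comm]
    rw [e]
    exact div_mem_ordGE v (hW v ht) hys hne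
  · exact div_mem_ordGE v (C₀.kerNum_mem ht z) hts he

theorem kerFun_pole : C₀.kerFun z ∈ ordGE (C₀.pt z) (-1) ∧
    ev (C₀.pt z) (C₀.kerFun z * (C₀.t - algebraMap ℂ F z)) =
      (derivative C₀.G).evalEval z (C₀.phi z) := by
  obtain ⟨hord, hne⟩ := ord_pt_t_sub hz
  obtain ⟨ht, -⟩ := t_mem_pt hz
  obtain ⟨hy, hey⟩ := y_mem_pt hz
  refine ⟨?_, ?_⟩
  · rw [kerFun, div_eq_mul_inv]
    simpa using mul_mem_ordGE _ (C₀.kerNum_mem ht z) (mem_ordGE_of_le_ord (C₀.pt z)
      (f := (C₀.t - algebraMap ℂ F z)⁻¹) (n := -1) (by rw [Place.ord_inv, hord]))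
  · have hpow : ∀ l : ℕ, C₀.y ^ l ∈ ordGE (C₀.pt z) 0 := fun l => by
      simpa using pow_mem_ordGE _ hy l
    rw [kerFun, div_mul_cancel₀ _ hne, kerNum, ev_sum (v := C₀.pt z) _ fun i _ =>
      Submodule.sum_mem _ fun l _ => Submodule.smul_mem _ _ (hpow l)]
    rw [C₀.G.as_sum_range_C_mul_X_pow, derivative_sum, evalEval_finsetSum,
      ← C₀.G.as_sum_range_C_mul_X_pow]
    refine Finset.sum_congr rfl fun i _ => ?_
    rw [ev_sum (v := C₀.pt z) _ fun l _ => Submodule.smul_mem _ _ (hpow l), derivative_C_mul_X_pow,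
      evalEval_mul, evalEval_pow, evalEval_X, evalEval_C, eval_mul, eval_natCast]
    have hterm : ∀ l ∈ Finset.range i, ev (C₀.pt z) (C₀.kerCoeff z i l • C₀.y ^ l) =
        (C₀.G.coeff i).eval z * C₀.phi z ^ (i - 1) := fun l hl => by
      rw [ev_smul _ _ (hpow l), ev_pow _ hy, hey, kerCoeff, mul_assoc, ← pow_add,
        Nat.sub_add_cancel (by have := Finset.mem_range.mp hl; omega)]
    rw [Finset.sum_congr rfl hterm, Finset.sum_const, Finset.card_range, nsmul_eq_mul]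
    ring

omit hz

variable (C₀)

/-- The class of the polar part `(t - z)⁻¹` at `pt z`. -/
def theta (z : ℂ) : H1 (0 : Divisor ℂ F) := cls (C₀.pt z) (C₀.t - algebraMap ℂ F z)⁻¹

/-- The poles of `t`. -/
def infPlaces : Finset (Place ℂ F) := (finite_setOf_ord_neg (K := ℂ) C₀.t).toFinset

theorem mem_infPlaces {v : Place ℂ F} : v ∈ C₀.infPlaces ↔ C₀.t ∉ ordGE v 0 := by
  have ht : C₀.t ≠ 0 := fun h => by have := C₀.ord_t; simp [h] at this
  simp [infPlaces, mem_ordGE_of_ne_zero v ht]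

omit [IsFunctionField ℂ F] in
theorem inv_sub_expansion (t : F) (ht : t ≠ 0) {z : ℂ} (htz : t - algebraMap ℂ F z ≠ 0) (M : ℕ) :
    (t - algebraMap ℂ F z)⁻¹ = (∑ k ∈ Finset.range M, (z ^ k) • (t ^ (k + 1))⁻¹) +
      (z ^ M) • ((t ^ M)⁻¹ * (t - algebraMap ℂ F z)⁻¹) := by
  induction M with
  | zero => simp
  | succ M ih =>
    conv_lhs => rw [ih]
    rw [Finset.sum_range_succ, add_assoc, add_right_inj]
    simp only [Algebra.smul_def, map_pow]
    field_simp
    ring

theorem exists_theta_formula : ∃ (M : ℕ) (vec : Place ℂ F → ℕ → ℕ → H1 (0 : Divisor ℂ F)),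
    ∀ z ∈ C₀.disc, C₀.theta z = -((derivative C₀.G).evalEval z (C₀.phi z))⁻¹ •
      ∑ v ∈ C₀.infPlaces, ∑ i ∈ Finset.range (C₀.G.natDegree + 1), ∑ l ∈ Finset.range i,
        ∑ k ∈ Finset.range M, (C₀.kerCoeff z i l * z ^ k) • vec v l k := by
  set M : ℕ := C₀.G.natDegree * ∑ v ∈ C₀.infPlaces, (-(v.ord C₀.y)).toNat with hM
  refine ⟨M, fun v l k => cls v (C₀.y ^ l * (C₀.t ^ (k + 1))⁻¹), fun z hz => ?_⟩
  obtain ⟨hord, hne⟩ := ord_pt_t_sub hz
  obtain ⟨htm, -⟩ := t_mem_pt hz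
  set Gy := (derivative C₀.G).evalEval z (C₀.phi z)
  have hGy : Gy ≠ 0 := (C₀.phi_spec.2.2.2.1 z hz).2
  have ht0 : C₀.t ≠ 0 := fun h => by have := C₀.ord_t; simp [h] at this
  have hpole : C₀.pt z ∉ C₀.infPlaces := fun h => (C₀.mem_infPlaces.mp h) htm
  have hsum := sum_cls_principal (insert (C₀.pt z) C₀.infPlaces) (C₀.kerFun z) fun v hv => by
    rw [Finset.mem_insert, not_or, C₀.mem_infPlaces, not_not] at hv
    exact kerFun_mem hz hv.2 hv.1
  rw [Finset.sum_insert hpole, cls_simple _ (kerFun_pole hz).1 hne hord, (kerFun_pole hz).2,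
    add_eq_zero_iff_eq_neg] at hsum
  have hkey : ∀ v ∈ C₀.infPlaces, cls v (C₀.kerFun z) =
      ∑ i ∈ Finset.range (C₀.G.natDegree + 1), ∑ l ∈ Finset.range i,
        ∑ k ∈ Finset.range M,
          (C₀.kerCoeff z i l * z ^ k) • cls v (C₀.y ^ l * (C₀.t ^ (k + 1))⁻¹) := by
    intro v hv
    have htv : v.ord C₀.t < 0 := by simpa [infPlaces] using hv
    have hts : v.ord (C₀.t - algebraMap ℂ F z) = v.ord C₀.t := by
      rw [sub_eq_add_neg]
      exact ord_add_eq_left v ht0 (Or.inr (by rw [ord_neg, ord_algebraMap]; exact htv))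
    rw [kerFun, kerNum, div_eq_mul_inv, Finset.sum_mul, map_sum]
    refine Finset.sum_congr rfl fun i hi => ?_
    rw [Finset.sum_mul, map_sum]
    refine Finset.sum_congr rfl fun l hl => ?_
    rw [Algebra.smul_mul_assoc, map_smul]
    simp only [mul_smul, ← Finset.smul_sum]
    congr 1
    rw [inv_sub_expansion C₀.t ht0 hne M, mul_add, map_add, Finset.mul_sum, map_sum,
      mul_smul_comm, map_smul, cls_eq_zero, smul_zero, add_zero]
    · simp only [mul_smul_comm, map_smul]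
    · refine ordGE_antitone v ?_ (mul_mem_ordGE v (pow_mem_ordGE v (mem_ordGE_of_le_ord v le_rfl) l)
        (mul_mem_ordGE v (mem_ordGE_of_le_ord v le_rfl) (mem_ordGE_of_le_ord v le_rfl)))
      rw [v.ord_inv, v.ord_inv, ord_pow, hts]
      have hle : (l : ℤ) * (-(v.ord C₀.y)) ≤ (M : ℤ) := by
        have h1 : l ≤ C₀.G.natDegree := by
          have := Finset.mem_range.mp hi; have := Finset.mem_range.mp hl; omega
        have h2 := Finset.single_le_sum (f := fun v : Place ℂ F => (-(v.ord C₀.y)).toNat)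
          (fun _ _ => Nat.zero_le _) hv
        have h3 : l * (-(v.ord C₀.y)).toNat ≤ M := Nat.mul_le_mul h1 h2
        exact le_trans (mul_le_mul_of_nonneg_left (Int.self_le_toNat _) (by positivity))
          (by exact_mod_cast h3)
      have h5 : (M : ℤ) ≤ (M : ℤ) * (-(v.ord C₀.t)) :=
        le_mul_of_one_le_right (by positivity) (by omega)
      linarith
  rw [Finset.sum_congr rfl hkey] at hsum
  rw [neg_smul, ← smul_neg, ← hsum, inv_smul_smul₀ hGy]
  rfl

/-- The class `theta` in coordinates. -/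
def thetaVec (z : ℂ) : Fin (genusFF ℂ F) → ℂ := coordEquiv F (C₀.theta z)

theorem analyticOnNhd_thetaVec : AnalyticOnNhd ℂ C₀.thetaVec C₀.disc := by
  obtain ⟨M, vec, h⟩ := C₀.exists_theta_formula
  intro z hz
  refine AnalyticAt.congr (f := fun w => -((derivative C₀.G).evalEval w (C₀.phi w))⁻¹ •
      ∑ v ∈ C₀.infPlaces, ∑ i ∈ Finset.range (C₀.G.natDegree + 1), ∑ l ∈ Finset.range i,
        ∑ k ∈ Finset.range M, (C₀.kerCoeff w i l * w ^ k) • coordEquiv F (vec v l k)) ?_ ?_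
  · refine (((C₀.analyticAt_val (derivative C₀.G) hz).inv (C₀.phi_spec.2.2.2.1 z hz).2).neg).smul ?_
    refine Finset.analyticAt_fun_sum _ fun v _ => Finset.analyticAt_fun_sum _ fun i _ =>
      Finset.analyticAt_fun_sum _ fun l _ => Finset.analyticAt_fun_sum _ fun k _ => ?_
    refine AnalyticAt.fun_smul ?_ analyticAt_const
    refine AnalyticAt.fun_mul ?_ (by fun_prop)
    simp only [kerCoeff, ← coe_aeval_eq_eval]
    exact (analyticAt_id.aeval_polynomial _).fun_mul ((C₀.phi_spec.2.2.1 z hz).fun_pow _)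
  · filter_upwards [C₀.disc_mem_nhds hz] with w hw
    simp only [thetaVec, h w hw, map_smul, map_sum]

theorem exists_log : ∃ L : ℂ → Fin (genusFF ℂ F) → ℂ, L 0 = 0 ∧
    ∀ z ∈ C₀.disc, HasDerivAt L (C₀.thetaVec z) z :=
  Complex.IsExactOn.with_val_at
    (DifferentiableOn.isExactOn_ball C₀.analyticOnNhd_thetaVec.differentiableOn) 0 0

/-- The local Abel–Jacobi map, normalised at the centre. -/
def log : ℂ → Fin (genusFF ℂ F) → ℂ := C₀.exists_log.choose

theorem log_zero : C₀.log 0 = 0 := C₀.exists_log.choose_spec.1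

/-- The derivative of the local Abel–Jacobi map is `thetaVec`. -/
theorem hasDerivAt_log {z : ℂ} (hz : z ∈ C₀.disc) : HasDerivAt C₀.log (C₀.thetaVec z) z :=
  C₀.exists_log.choose_spec.2 z hz

theorem analyticAt_log {z : ℂ} (hz : z ∈ C₀.disc) : AnalyticAt ℂ C₀.log z :=
  DifferentiableOn.analyticAt
    (fun _ hw => (C₀.hasDerivAt_log hw).differentiableAt.differentiableWithinAt)
    (C₀.disc_mem_nhds hz)

end Chart

end Fermat.Agent.CurveTorsion
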