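import Mathlib
import Fermat.Agent.CurveTorsion.Germ

/-!
# The space of places of a function field over `ℂ` is compact Hausdorff connected

The topology is the coarsest one making values continuous; compactness comes from systems of
values in the Riemann sphere, connectedness (`eq_univ_of_isClopen`) from the maximum modulus
principle.
-/

noncomputable section

set_option autoImplicit false

namespace Fermat.Agent.CurveTorsion

open AlgebraicCurve Polynomial Filter Metric TopologicalSpace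
open Fermat.Agent.FF
open scoped Topology Classical OnePoint

variable {F : Type*} [Field F] [Algebra ℂ F] [IsFunctionField ℂ F]

/-- The coarsest topology making the values of functions continuous where defined. -/
scoped instance placeTopology : TopologicalSpace (Place ℂ F) :=
  generateFrom {U | ∃ (f : F) (V : Set ℂ), IsOpen V ∧
    U = {v : Place ℂ F | f ∈ ordGE v 0 ∧ ev v f ∈ V}}

theorem isOpen_value (f : F) {V : Set ℂ} (hV : IsOpen V) :
    IsOpen {v : Place ℂ F | f ∈ ordGE v 0 ∧ ev v f ∈ V} :=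
  isOpen_generateFrom_of_mem ⟨f, V, hV, rfl⟩

theorem continuousAt_ev {f : F} {v : Place ℂ F} (hf : f ∈ ordGE v 0) :
    ContinuousAt (fun w : Place ℂ F => ev w f) v := by
  intro U hU
  obtain ⟨V, hVU, hV, hvV⟩ := _root_.mem_nhds_iff.mp hU
  exact Filter.mem_map.mpr (_root_.mem_nhds_iff.mpr
    ⟨_, fun w hw => hVU hw.2, isOpen_value f hV, hf, hvV⟩)

instance instT2SpacePlace : T2Space (Place ℂ F) := by
  refine ⟨fun v w hne => ?_⟩
  obtain ⟨f, hf⟩ := exists_approx {v, w} (fun u => if u = v then (1 : F) else 0) (fun _ => 1)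
  have h1 : f - algebraMap ℂ F 1 ∈ ordGE v 1 := by simpa using hf v (by simp)
  have h0 : f - algebraMap ℂ F 0 ∈ ordGE w 1 := by simpa [Ne.symm hne] using hf w (by simp)
  have hfv : f ∈ ordGE v 0 := by
    simpa using add_mem (ordGE_antitone v zero_le_one h1) (algebraMap_mem_ordGE_zero v (1 : ℂ))
  have hfw : f ∈ ordGE w 0 := ordGE_antitone w zero_le_one (by simpa using h0)
  refine ⟨_, _, isOpen_value f (isOpen_ball (x := (1 : ℂ)) (ε := 1 / 2)),
    isOpen_value f (isOpen_ball (x := (0 : ℂ)) (ε := 1 / 2)), ⟨hfv, ?_⟩, ⟨hfw, ?_⟩, ?_⟩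
  · simp [ev_eq_of_sub_mem v h1]
  · simp [ev_eq_of_sub_mem w h0]
  · refine Set.disjoint_left.mpr fun u hu hu' => ?_
    have a := mem_ball.mp hu.2
    have b := mem_ball.mp hu'.2
    have := dist_triangle_left (1 : ℂ) 0 (ev u f)
    norm_num at this b
    linarith

namespace Chart

variable {C₀ : Chart ℂ F}

theorem continuousAt_pt {z : ℂ} (hz : z ∈ C₀.disc) : ContinuousAt C₀.pt z := by
  rw [ContinuousAt, tendsto_nhds_generateFrom_iff]
  rintro _ ⟨f, V, hV, rfl⟩ ⟨hfm, hfV⟩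
  obtain ⟨ha, he⟩ := analytic_ev hz hfm
  filter_upwards [he, ha.continuousAt.preimage_mem_nhds (hV.mem_nhds hfV)] with w h1 h2
  exact ⟨h1, h2⟩

variable (C₀)

theorem image_mem_nhds {S : Set ℂ} (hS : S ∈ 𝓝 (0 : ℂ)) : C₀.pt '' S ∈ 𝓝 C₀.P := by
  obtain ⟨δ, hδ, hsub⟩ := C₀.exists_nhd_subset hS
  refine Filter.mem_of_superset (inter_mem
    ((isOpen_value C₀.t (isOpen_ball (x := (0 : ℂ)) (ε := δ))).mem_nhds
      ⟨C₀.t_mem, by simpa [C₀.ev_t] using hδ⟩)
    ((isOpen_value C₀.y (isOpen_ball (x := (1 : ℂ)) (ε := δ))).mem_nhds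
      ⟨C₀.y_memP, by simpa [C₀.ev_y] using hδ⟩)) ?_
  rintro v ⟨⟨h1, h2⟩, -, h3⟩
  exact hsub v h1 (by simpa using h2) (by simpa [dist_eq_norm] using h3)

end Chart

/-! ### Compactness -/

/-- The graph-closed condition for a binary operation on finite values. -/
theorem isClosed_op (op : ℂ × ℂ → ℂ) (hop : Continuous op) :
    IsClosed {p : OnePoint ℂ × OnePoint ℂ × OnePoint ℂ |
      ∀ a b : ℂ, p.1 = a → p.2.1 = b → p.2.2 = op (a, b)} := by
  rw [← isOpen_compl_iff]
  have ho : IsOpen {q : ℂ × ℂ × OnePoint ℂ | q.2.2 ≠ (op (q.1, q.2.1) : OnePoint ℂ)} :=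
    isOpen_ne_fun (continuous_snd.comp continuous_snd) (OnePoint.continuous_coe.comp
      (hop.comp (continuous_fst.prodMk (continuous_fst.comp continuous_snd))))
  have hmap : IsOpenMap (Prod.map ((↑) : ℂ → OnePoint ℂ)
      (Prod.map ((↑) : ℂ → OnePoint ℂ) (id : OnePoint ℂ → OnePoint ℂ))) :=
    OnePoint.isOpenEmbedding_coe.isOpenMap.prodMap
      (OnePoint.isOpenEmbedding_coe.isOpenMap.prodMap IsOpenMap.id)
  convert hmap _ ho using 1
  ext ⟨x, y, w⟩
  simp only [Set.mem_compl_iff, Set.mem_ofPred_eq, Set.mem_image, Prod.exists, Prod.map_apply,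
    id_eq, Prod.mk.injEq]
  constructor
  · intro h
    push Not at h
    obtain ⟨a, b, ha, hb, hne⟩ := h
    exact ⟨a, b, w, hne, ha.symm, hb.symm, rfl⟩
  · rintro ⟨a, b, w', hne, rfl, rfl, rfl⟩ h
    exact hne (h a b rfl rfl)

/-- Consistent systems of values. -/
def valueSystems (F : Type*) [Field F] [Algebra ℂ F] : Set (F → OnePoint ℂ) :=
  {χ | (∀ c : ℂ, χ (algebraMap ℂ F c) = c) ∧
    (∀ (f g : F) (a b : ℂ), χ f = a → χ g = b → χ (f + g) = ↑(a + b)) ∧
    (∀ (f g : F) (a b : ℂ), χ f = a → χ g = b → χ (f * g) = ↑(a * b)) ∧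
    ∀ f : F, χ f ∈ ((↑) : ℂ → OnePoint ℂ) '' closedBall 0 1 ∨
      χ f⁻¹ ∈ ((↑) : ℂ → OnePoint ℂ) '' closedBall 0 1}

omit [IsFunctionField ℂ F] in
theorem isCompact_valueSystems : IsCompact (valueSystems F) := by
  refine IsClosed.isCompact ?_
  have h1 : IsClosed {χ : F → OnePoint ℂ | ∀ c : ℂ, χ (algebraMap ℂ F c) = c} := by
    rw [← Set.iInter_ofPred]
    exact isClosed_iInter fun c => isClosed_eq (continuous_apply _) continuous_const
  have h2 : ∀ (opF : F → F → F) (op : ℂ × ℂ → ℂ), Continuous op →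
      IsClosed {χ : F → OnePoint ℂ | ∀ (f g : F) (a b : ℂ), χ f = a → χ g = b →
        χ (opF f g) = ↑(op (a, b))} := by
    intro opF op hop
    simp only [← Set.iInter_ofPred]
    refine isClosed_iInter fun f => isClosed_iInter fun g => ?_
    have := (isClosed_op op hop).preimage
      (f := fun χ : F → OnePoint ℂ => (χ f, χ g, χ (opF f g))) (by fun_prop)
    convert this using 1
    ext χ
    simp
  have h3 : IsClosed {χ : F → OnePoint ℂ | ∀ f : F,
      χ f ∈ ((↑) : ℂ → OnePoint ℂ) '' closedBall 0 1 ∨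
      χ f⁻¹ ∈ ((↑) : ℂ → OnePoint ℂ) '' closedBall 0 1} := by
    have hD : IsClosed (((↑) : ℂ → OnePoint ℂ) '' closedBall 0 1) :=
      ((isCompact_closedBall (0 : ℂ) 1).image OnePoint.continuous_coe).isClosed
    rw [← Set.iInter_ofPred]
    exact isClosed_iInter fun f =>
      (hD.preimage (f := fun χ : F → OnePoint ℂ => χ f) (continuous_apply f)).union
      (hD.preimage (f := fun χ : F → OnePoint ℂ => χ f⁻¹) (continuous_apply f⁻¹))
  exact h1.inter ((h2 (· + ·) (fun p => p.1 + p.2) (by fun_prop)).inter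
    ((h2 (· * ·) (fun p => p.1 * p.2) (by fun_prop)).inter h3))

/-- The finite part of a value system. -/
def finitePart (χ : valueSystems F) : ValuationSubring F where
  carrier := {f | ∃ a : ℂ, χ.1 f = a}
  mul_mem' {f g} hf hg := by
    rw [Set.mem_ofPred_eq] at hf hg ⊢
    obtain ⟨⟨a, ha⟩, b, hb⟩ := And.intro hf hg
    exact ⟨_, χ.2.2.2.1 f g a b ha hb⟩
  one_mem' := by
    rw [Set.mem_ofPred_eq]
    exact ⟨1, by simpa using χ.2.1 1⟩
  add_mem' {f g} hf hg := by
    rw [Set.mem_ofPred_eq] at hf hg ⊢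
    obtain ⟨⟨a, ha⟩, b, hb⟩ := And.intro hf hg
    exact ⟨_, χ.2.2.1 f g a b ha hb⟩
  zero_mem' := by
    rw [Set.mem_ofPred_eq]
    exact ⟨0, by simpa using χ.2.1 0⟩
  neg_mem' {f} hf := by
    rw [Set.mem_ofPred_eq] at hf ⊢
    obtain ⟨a, ha⟩ := hf
    exact ⟨_, by simpa using χ.2.2.2.1 (algebraMap ℂ F (-1)) f (-1) a (χ.2.1 (-1)) ha⟩
  mem_or_inv_mem' f := by
    rw [Set.mem_ofPred_eq, Set.mem_ofPred_eq]
    rcases χ.2.2.2.2 f with ⟨a, -, ha⟩ | ⟨a, -, ha⟩
    · exact Or.inl ⟨a, ha.symm⟩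
    · exact Or.inr ⟨a, ha.symm⟩

omit [IsFunctionField ℂ F] in
theorem mem_finitePart {χ : valueSystems F} {f : F} :
    f ∈ finitePart χ ↔ ∃ a : ℂ, χ.1 f = a := by
  rw [← ValuationSubring.mem_carrier]
  exact Set.mem_ofPred_eq.to_iff

theorem finitePart_ne_top (χ : valueSystems F) : finitePart χ ≠ ⊤ := by
  intro h
  obtain ⟨t, ht, -⟩ := IsFunctionField.exists_transcendental_finite (K := ℂ) (F := F)
  obtain ⟨a, ha⟩ := mem_finitePart.mp (h ▸ ValuationSubring.mem_top t : t ∈ finitePart χ)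
  set u := t - algebraMap ℂ F a
  have hu : u ≠ 0 := fun h0 => ht (by
    rw [sub_eq_zero.mp h0]; exact isAlgebraic_algebraMap a)
  obtain ⟨b, hb⟩ := mem_finitePart.mp (h ▸ ValuationSubring.mem_top u⁻¹ : u⁻¹ ∈ finitePart χ)
  have hu0 : χ.1 u = ((0 : ℂ) : OnePoint ℂ) := by
    simpa [u, sub_eq_add_neg] using χ.2.2.1 t (algebraMap ℂ F (-a)) a (-a) ha (χ.2.1 (-a))
  have h1 := χ.2.2.2.1 u u⁻¹ 0 b hu0 hb
  rw [mul_inv_cancel₀ hu, ← map_one (algebraMap ℂ F), χ.2.1 1, zero_mul] at h1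
  exact one_ne_zero (OnePoint.coe_injective h1)

/-- The place of a value system. -/
def placeOfValues (χ : valueSystems F) : Place ℂ F where
  toValuationSubring := finitePart χ
  algebraMap_mem' c := mem_finitePart.mpr ⟨c, χ.2.1 c⟩
  ne_top' := finitePart_ne_top χ
  isPrincipalIdealRing' := isPrincipalIdealRing_valuationSubring_of_ne_top _
    fun c => mem_finitePart.mpr ⟨c, χ.2.1 c⟩

theorem mem_placeOfValues {χ : valueSystems F} {f : F} :
    f ∈ ordGE (placeOfValues χ) 0 ↔ ∃ a : ℂ, χ.1 f = a := by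
  rw [← mem_toValuationSubring_iff]
  exact mem_finitePart

theorem value_eq_ev {χ : valueSystems F} {f : F} {a : ℂ} (ha : χ.1 f = a) :
    ev (placeOfValues χ) f = a := by
  refine ev_eq_of_sub_mem _ ?_
  have h0 : χ.1 (f - algebraMap ℂ F a) = ((0 : ℂ) : OnePoint ℂ) := by
    simpa [sub_eq_add_neg] using χ.2.2.1 f (algebraMap ℂ F (-a)) a (-a) ha (χ.2.1 (-a))
  set g := f - algebraMap ℂ F a
  rcases eq_or_ne g 0 with hg | hg
  · simp [hg]
  · have hg0 : g ∈ ordGE (placeOfValues χ) 0 := mem_placeOfValues.mpr ⟨0, h0⟩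
    have hne : (placeOfValues χ).ord g ≠ 0 := fun hz => by
      obtain ⟨b, hb⟩ := mem_placeOfValues.mp (inv_mem_ordGE_of_ord_eq_zero _ hz)
      have h1 := χ.2.2.2.1 g g⁻¹ 0 b h0 hb
      rw [mul_inv_cancel₀ hg, ← map_one (algebraMap ℂ F), χ.2.1 1, zero_mul] at h1
      exact one_ne_zero (OnePoint.coe_injective h1)
    have := (mem_ordGE_of_ne_zero _ hg).mp hg0
    exact mem_ordGE_of_le_ord _ (by omega)

theorem placeOfValues_surjective : Function.Surjective (placeOfValues (F := F)) := by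
  intro v
  let χ : F → OnePoint ℂ := fun f => if f ∈ ordGE v 0 then ((ev v f : ℂ) : OnePoint ℂ) else ∞
  have hmem : ∀ f (a : ℂ), χ f = a → f ∈ ordGE v 0 ∧ ev v f = a := fun f a h => by
    by_cases hf : f ∈ ordGE v 0
    · simp only [χ, if_pos hf] at h
      exact ⟨hf, OnePoint.coe_injective h⟩
    · simp [χ, hf] at h
  have hχ : χ ∈ valueSystems F := by
    refine ⟨fun c => by simp [χ, algebraMap_mem_ordGE_zero v c], fun f g a b hf hg => ?_,
      fun f g a b hf hg => ?_, fun f => ?_⟩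
    · obtain ⟨⟨h1, rfl⟩, h2, rfl⟩ := And.intro (hmem f a hf) (hmem g b hg)
      simp [χ, add_mem h1 h2, ev_add v h1 h2]
    · obtain ⟨⟨h1, rfl⟩, h2, rfl⟩ := And.intro (hmem f a hf) (hmem g b hg)
      have : f * g ∈ ordGE v 0 := by simpa using mul_mem_ordGE v h1 h2
      simp [χ, this, ev_mul v h1 h2]
    · rcases v.toValuationSubring.mem_or_inv_mem f with h | h <;>
        rw [mem_toValuationSubring_iff] at h
      · by_cases hb : ‖ev v f‖ ≤ 1
        · exact Or.inl ⟨ev v f, by simpa using hb, by simp [χ, h]⟩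
        · have hne : ev v f ≠ 0 := fun h0 => hb (by simp [h0])
          refine Or.inr ⟨(ev v f)⁻¹, ?_, ?_⟩
          · rw [mem_closedBall_zero_iff, norm_inv]
            exact inv_le_one_of_one_le₀ (not_le.mp hb).le
          · simp [χ, inv_mem_ordGE_of_ord_eq_zero v (ord_eq_zero_of_ev_ne_zero v h hne).1,
              ev_inv v h hne]
      · by_cases hb : ‖ev v f⁻¹‖ ≤ 1
        · exact Or.inr ⟨ev v f⁻¹, by simpa using hb, by simp [χ, h]⟩
        · have hne : ev v f⁻¹ ≠ 0 := fun h0 => hb (by simp [h0])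
          refine Or.inl ⟨(ev v f⁻¹)⁻¹, ?_, ?_⟩
          · rw [mem_closedBall_zero_iff, norm_inv]
            exact inv_le_one_of_one_le₀ (not_le.mp hb).le
          · have h2 := inv_mem_ordGE_of_ord_eq_zero v (ord_eq_zero_of_ev_ne_zero v h hne).1
            have h3 := ev_inv v h hne
            rw [inv_inv] at h2 h3
            simp [χ, h2, h3]
  refine ⟨⟨χ, hχ⟩, Place.ext (SetLike.ext fun f => ?_)⟩
  rw [mem_toValuationSubring_iff, mem_toValuationSubring_iff, mem_placeOfValues]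
  exact ⟨fun ⟨a, ha⟩ => (hmem f a ha).1, fun h => ⟨ev v f, by simp [χ, h]⟩⟩

theorem continuous_placeOfValues : Continuous (placeOfValues (F := F)) := by
  refine continuous_generateFrom_iff.mpr ?_
  rintro _ ⟨f, V, hV, rfl⟩
  have : placeOfValues ⁻¹' {v : Place ℂ F | f ∈ ordGE v 0 ∧ ev v f ∈ V} =
      (fun χ : valueSystems F => χ.1 f) ⁻¹' (((↑) : ℂ → OnePoint ℂ) '' V) := by
    ext χ
    simp only [Set.mem_preimage, Set.mem_ofPred_eq, mem_placeOfValues, Set.mem_image]
    constructor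
    · rintro ⟨⟨a, ha⟩, hV'⟩
      exact ⟨a, value_eq_ev ha ▸ hV', ha.symm⟩
    · rintro ⟨a, haV, ha⟩
      exact ⟨⟨a, ha.symm⟩, (value_eq_ev ha.symm).symm ▸ haV⟩
  rw [this]
  exact (OnePoint.isOpen_image_coe.mpr hV).preimage
    ((continuous_apply f).comp continuous_subtype_val)

instance instCompactSpacePlace : CompactSpace (Place ℂ F) := by
  have := isCompact_iff_compactSpace.mp (isCompact_valueSystems (F := F))
  exact placeOfValues_surjective.compactSpace continuous_placeOfValues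

/-! ### Connectedness -/

/-- The space of places is connected. -/
theorem eq_univ_of_isClopen {S : Set (Place ℂ F)} (hS : IsClopen S) (hne : S.Nonempty) :
    S = Set.univ := by
  by_contra hu
  obtain ⟨Q, hQ⟩ := hne
  obtain ⟨f, hfQ, hf⟩ := exists_ord_neg_unique (K := ℂ) Q
  have hreg : ∀ v ∈ Sᶜ, f ∈ ordGE v 0 := fun v hv =>
    mem_ordGE_of_le_ord v (hf v fun h => hv (h ▸ hQ))
  obtain ⟨v₀, hv₀, hmax⟩ := hS.compl.isClosed.isCompact.exists_isMaxOn
    (Set.nonempty_compl.mpr hu) (f := fun v => ‖ev v f‖)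
    fun v hv => (continuousAt_ev (hreg v hv)).norm.continuousWithinAt
  obtain ⟨C₀, rfl⟩ := exists_chart v₀
  set g : ℂ → ℂ := fun z => ev (C₀.pt z) f
  have h0 : f ∈ ordGE (C₀.pt 0) 0 := by rw [C₀.pt_zero]; exact hreg _ hv₀
  obtain ⟨hga, -⟩ := Chart.analytic_ev C₀.zero_mem_disc h0
  have hnear : ∀ᶠ z in 𝓝 (0 : ℂ), z ∈ C₀.disc ∧ C₀.pt z ∈ Sᶜ :=
    eventually_and.mpr ⟨C₀.disc_mem_nhds C₀.zero_mem_disc,
      (Chart.continuousAt_pt C₀.zero_mem_disc).preimage_mem_nhds
        (hS.compl.isOpen.mem_nhds (by rw [C₀.pt_zero]; exact hv₀))⟩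
  have hloc : IsLocalMax (norm ∘ g) 0 := by
    filter_upwards [hnear] with z hz
    simpa [g, C₀.pt_zero] using hmax hz.2
  have hconst := Complex.eventually_eq_of_isLocalMax_norm
    (hga.eventually_analyticAt.mono fun z hz => hz.differentiableAt) hloc
  set c := g 0
  have hne : f - algebraMap ℂ F c ≠ 0 := fun h => by
    rw [sub_eq_zero.mp h, ord_algebraMap] at hfQ
    exact lt_irrefl 0 hfQ
  obtain ⟨ε, hε, hball⟩ := Metric.eventually_nhds_iff_ball.mp (hconst.and hnear)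
  have hsub : C₀.pt '' ball 0 ε ⊆ {v : Place ℂ F | 0 < v.ord (f - algebraMap ℂ F c)} := by
    rintro _ ⟨z, hz, rfl⟩
    obtain ⟨h1, -, h3⟩ := hball z hz
    have hm := sub_ev_mem (C₀.pt z) (hreg _ h3)
    rw [show ev (C₀.pt z) f = c from h1, mem_ordGE_of_ne_zero _ hne] at hm
    exact Int.lt_of_add_one_le (by simpa using hm)
  refine Set.not_infinite.mpr ((finite_setOf_ord_pos _).subset hsub) ?_
  exact (infinite_of_mem_nhds (0 : ℂ) (ball_mem_nhds 0 hε)).image
    (C₀.pt_injOn.mono fun z hz => (hball z hz).2.1)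

end Fermat.Agent.CurveTorsion
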