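import Mathlib
import Fermat.Agent.CurveTorsion.Pencil
import Fermat.Agent.CurveTorsion.Theta
import Fermat.Agent.CurveTorsion.Topology

/-!
# Abel's theorem and its local converse

`isPrincipal_of_logSum_eq_zero`: tuples near a large set of places with vanishing sum of
local Abel–Jacobi maps give principal divisors.  The proof follows a pencil through the points.
-/

noncomputable section

set_option autoImplicit false

namespace Fermat.Agent.CurveTorsion

open AlgebraicCurve Filter
open Fermat.Agent.FF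
open scoped Topology Classical ContDiff

variable {F : Type*} [Field F] [Algebra ℂ F] [IsFunctionField ℂ F]

/-- The sum of local Abel–Jacobi maps. -/
def logSum {ι : Type} [Fintype ι] (C : ι → Chart ℂ F) (z : ι → ℂ) : Fin (genusFF ℂ F) → ℂ :=
  ∑ i, (C i).log (z i)

/-- The differential of `logSum`. -/
def logDiff {ι : Type} [Fintype ι] (C : ι → Chart ℂ F) (z : ι → ℂ) :
    (ι → ℂ) →L[ℂ] (Fin (genusFF ℂ F) → ℂ) :=
  ∑ i, (ContinuousLinearMap.proj (R := ℂ) i).smulRight ((C i).thetaVec (z i))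

theorem logDiff_apply {ι : Type} [Fintype ι] (C : ι → Chart ℂ F) (z w : ι → ℂ) :
    logDiff C z w = ∑ i, w i • (C i).thetaVec (z i) := by
  simp [logDiff]

theorem logSum_zero {ι : Type} [Fintype ι] (C : ι → Chart ℂ F) : logSum C 0 = 0 := by
  simp [logSum, Chart.log_zero]

theorem hasStrictFDerivAt_logSum {ι : Type} [Fintype ι] (C : ι → Chart ℂ F) {z : ι → ℂ}
    (hz : ∀ i, z i ∈ (C i).disc) : HasStrictFDerivAt (logSum C) (logDiff C z) z := by
  have ha : AnalyticAt ℂ (logSum C) z := by
    refine Finset.analyticAt_fun_sum _ fun i _ => ?_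
    exact ((C i).analyticAt_log (hz i)).comp (f := fun z : ι → ℂ => z i)
      ((ContinuousLinearMap.proj (R := ℂ) i : (ι → ℂ) →L[ℂ] ℂ).analyticAt z)
  have h : HasFDerivAt (logSum C) (logDiff C z) z := by
    refine HasFDerivAt.fun_sum fun i _ => ?_
    have h1 := ((C i).hasDerivAt_log (hz i)).hasFDerivAt.comp z
      (ContinuousLinearMap.proj (R := ℂ) i : (ι → ℂ) →L[ℂ] ℂ).hasFDerivAt
    exact h1.congr_fderiv (by ext; simp)
  exact h.fderiv ▸ ha.hasStrictFDerivAt

theorem surjective_logDiff_zero {ι : Type} [Fintype ι] (C : ι → Chart ℂ F)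
    (hinj : Function.Injective fun i => (C i).P) (hcard : bound ℂ F ≤ Fintype.card ι) :
    Function.Surjective (logDiff C 0) := by
  intro w
  have hspan := span_eq_top_of_bound (K := ℂ) (R := Finset.univ.image fun i => (C i).P)
    (by rw [Finset.card_image_of_injective _ hinj, Finset.card_univ]; exact hcard)
  have hle : Submodule.span ℂ (Set.range fun i => (C i).theta 0) = ⊤ := by
    rw [eq_top_iff, ← hspan, Submodule.span_le]
    rintro _ ⟨v, hv, rfl⟩
    obtain ⟨i, -, rfl⟩ := Finset.mem_image.mp hv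
    obtain ⟨ho, hne⟩ := Chart.ord_pt_t_sub (C i).zero_mem_disc
    rw [Chart.pt_zero] at ho
    show cls (C i).P (unif (C i).P)⁻¹ ∈ _
    rw [cls_simple (C i).P (mem_ordGE_of_le_ord _ (by rw [Place.ord_inv, ord_unif])) hne ho]
    refine Submodule.smul_mem _ _ (Submodule.subset_span ⟨i, ?_⟩)
    simp only [Chart.theta, Chart.pt_zero]
  obtain ⟨c, hc⟩ := (Submodule.mem_span_range_iff_exists_fun ℂ).mp
    (hle ▸ Submodule.mem_top : (coordEquiv F).symm w ∈ _)
  refine ⟨c, ?_⟩
  rw [logDiff_apply, ← (coordEquiv F).apply_symm_apply w, ← hc, map_sum]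
  exact Finset.sum_congr rfl fun i _ => by rw [map_smul]; rfl

/-- **Abel's theorem, local converse**: near a large set of points, divisors with equal
Abel–Jacobi sums are linearly equivalent. -/
theorem isPrincipal_of_logSum_eq_zero {ι : Type} [Fintype ι] (C : ι → Chart ℂ F)
    (hinj : Function.Injective fun i => (C i).P) (hcard : bound ℂ F < Fintype.card ι) :
    ∀ᶠ z in 𝓝 (0 : ι → ℂ), logSum C z = 0 →
      Divisor.IsPrincipal
        (∑ i, (Finsupp.single ((C i).pt (z i)) (1 : ℤ) - Finsupp.single (C i).P 1)) := by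
  set R := Finset.univ.image fun i => (C i).P with hR
  have hRcard : R.card = Fintype.card ι := by
    rw [hR, Finset.card_image_of_injective _ hinj, Finset.card_univ]
  have hmemR : ∀ i, (C i).P ∈ R := fun i => Finset.mem_image_of_mem _ (Finset.mem_univ i)
  obtain ⟨P⟩ := nonempty_pencil (R := R) (by omega)
  have hne : R.Nonempty := Finset.card_pos.mp (by omega)
  have hh : P.h ≠ 0 := P.h_ne_zero hne
  have hreg0 : ∀ {f : F}, f ∈ riemannRochSpace P.poles → ∀ i, f ∈ ordGE ((C i).pt 0) 0 :=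
    fun hf i => P.regular_of_poles hf (by rw [Chart.pt_zero, P.poles_apply_of_mem (hmemR i)])
  -- the equations of the moving zeros
  let H : ι → (Fin P.dim → ℂ) × ℂ → ℂ := fun i q => ev ((C i).pt q.2) P.h⁻¹ +
    ∑ k, q.1 k * ev ((C i).pt q.2) (P.pert (Pi.single k 1))
  have hHa : ∀ i, AnalyticAt ℂ (H i) ((0 : Fin P.dim → ℂ), (0 : ℂ)) := by
    intro i
    have hf : ∀ {f : F}, f ∈ riemannRochSpace P.poles → AnalyticAt ℂ
        (fun q : (Fin P.dim → ℂ) × ℂ => ev ((C i).pt q.2) f) ((0 : Fin P.dim → ℂ), (0 : ℂ)) :=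
      fun {f} hm => AnalyticAt.comp (g := fun w => ev ((C i).pt w) f)
        (f := fun q : (Fin P.dim → ℂ) × ℂ => q.2)
        (Chart.analytic_ev (C i).zero_mem_disc (hreg0 hm i)).1 analyticAt_snd
    refine (hf P.inv_mem_poles).fun_add (Finset.analyticAt_fun_sum _ fun k _ => ?_)
    exact (((ContinuousLinearMap.proj (R := ℂ) k : (Fin P.dim → ℂ) →L[ℂ] ℂ).comp
      (ContinuousLinearMap.fst ℂ (Fin P.dim → ℂ) ℂ)).analyticAt _).fun_mul
      (hf (P.pert_mem_poles _))
  have hH_eq : ∀ i, ∀ w, P.poles ((C i).pt w) = 0 →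
      ∀ e, H i (e, w) = ev ((C i).pt w) (P.member e) := by
    intro i w hw e
    have hm : ∀ {f : F}, f ∈ riemannRochSpace P.poles → f ∈ ordGE ((C i).pt w) 0 :=
      fun hf => P.regular_of_poles hf hw
    rw [Pencil.member, ev_add _ (hm P.inv_mem_poles) (hm (P.pert_mem_poles e)), P.pert_eq_sum e,
      ev_sum (v := (C i).pt w) _ fun k _ => Submodule.smul_mem _ _ (hm (P.pert_mem_poles _))]
    simp only [H, ev_smul _ _ (hm (P.pert_mem_poles _))]
  have hordinv : ∀ i, ((C i).pt 0).ord P.h⁻¹ = 1 := fun i => by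
    rw [Chart.pt_zero, Place.ord_inv, P.ord_eq _ (hmemR i), neg_neg]
  have hH0 : ∀ i, H i ((0 : Fin P.dim → ℂ), (0 : ℂ)) = 0 := fun i => by
    simp only [H, Pi.zero_apply, zero_mul, Finset.sum_const_zero, add_zero]
    exact (ev_eq_zero_iff _ (hreg0 P.inv_mem_poles i)).mpr (mem_ordGE_of_le_ord _ (hordinv i).ge)
  have hinv : ∀ i, (fderiv ℂ (H i) ((0 : Fin P.dim → ℂ), (0 : ℂ)) ∘L
      .inr ℂ (Fin P.dim → ℂ) ℂ).IsInvertible := by
    intro i
    obtain ⟨ho, hne'⟩ := Chart.ord_pt_t_sub (C i).zero_mem_disc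
    have hd := Chart.hasDerivAt_ev (C i).zero_mem_disc (f := P.h⁻¹) (c := 0)
      (by simpa using mem_ordGE_of_le_ord _ (hordinv i).ge)
    set d := ev ((C i).pt 0) ((P.h⁻¹ - algebraMap ℂ F 0) / ((C i).t - algebraMap ℂ F 0))
    have hd0 : d ≠ 0 := by
      have hq0 : (((C i).pt 0).ord
          ((P.h⁻¹ - algebraMap ℂ F 0) / ((C i).t - algebraMap ℂ F 0))) = 0 := by
        rw [map_zero, sub_zero, sub_zero] at *
        rw [ord_div _ (inv_ne_zero hh) hne', hordinv i, ho, sub_self]
      refine (ev_ne_zero_iff_ord _ (mem_ordGE_of_le_ord _ hq0.ge) ?_).mpr hq0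
      simp only [map_zero, sub_zero] at hne' ⊢
      exact div_ne_zero (inv_ne_zero hh) hne'
    have e1 : HasFDerivAt (fun w => H i ((0 : Fin P.dim → ℂ), w))
        (fderiv ℂ (H i) ((0 : Fin P.dim → ℂ), (0 : ℂ)) ∘L .inr ℂ (Fin P.dim → ℂ) ℂ) 0 :=
      (hHa i).differentiableAt.hasFDerivAt.comp (0 : ℂ)
        (hasFDerivAt_prodMk_right (0 : Fin P.dim → ℂ) (0 : ℂ))
    have e2 : HasFDerivAt (fun w => H i ((0 : Fin P.dim → ℂ), w))
        (ContinuousLinearMap.toSpanSingleton ℂ d) 0 := by
      simpa [H] using hd.hasFDerivAt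
    rw [e1.unique e2]
    exact ⟨ContinuousLinearEquiv.unitsEquivAut ℂ (Units.mk0 d hd0), by ext; simp⟩
  have hcd : ∀ i, ContDiffAt ℂ ω (H i) ((0 : Fin P.dim → ℂ), (0 : ℂ)) := fun i => (hHa i).contDiffAt
  have pn : (ω : ℕ∞ω) ≠ 0 := by simp
  let Z : (Fin P.dim → ℂ) → ι → ℂ := fun e i => (hcd i).implicitFunction pn (hinv i) e
  have hZ0 : Z 0 = 0 := funext fun i => (hcd i).implicitFunction_apply_self pn (hinv i)
  have hZa : AnalyticAt ℂ Z 0 := AnalyticAt.pi fun i =>
    ((hcd i).contDiffAt_implicitFunction pn (hinv i)).analyticAt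
  have hev : ∀ᶠ e in 𝓝 (0 : Fin P.dim → ℂ), e ≠ P.degenerate ∧
      Function.Injective (fun i => (C i).pt (Z e i)) ∧
      ∀ i, Z e i ∈ (C i).disc ∧ P.poles ((C i).pt (Z e i)) = 0 ∧ H i (e, Z e i) = 0 := by
    have hc : ∀ i, Tendsto (fun e => Z e i) (𝓝 0) (𝓝 0) := fun i => by
      have := ((continuous_apply i).continuousAt.comp hZa.continuousAt).tendsto
      simpa [hZ0, Function.comp_def] using this
    have hpt : ∀ i, Tendsto (fun e => (C i).pt (Z e i)) (𝓝 0) (𝓝 (C i).P) := fun i => by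
      have := (Chart.continuousAt_pt (C i).zero_mem_disc).tendsto.comp (hc i)
      rwa [Chart.pt_zero] at this
    have hj : ∀ᶠ e in 𝓝 (0 : Fin P.dim → ℂ), Function.Injective (fun i => (C i).pt (Z e i)) := by
      have h2 : ∀ᶠ e in 𝓝 (0 : Fin P.dim → ℂ), ∀ i j, i ≠ j →
          (C i).pt (Z e i) ≠ (C j).pt (Z e j) := by
        refine eventually_all.mpr fun i => eventually_all.mpr fun j => ?_
        by_cases hij : i = j
        · exact Eventually.of_forall fun _ h => absurd hij h
        · exact (((hpt i).prodMk_nhds (hpt j)).eventually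
            (isOpen_ne_fun continuous_fst continuous_snd |>.mem_nhds
              (show (C i).P ≠ (C j).P from fun h => hij (hinj h)))).mono fun _ h _ => h
      exact h2.mono fun e h i j hij => of_not_not fun hne => h i j hne hij
    have hp : ∀ i, ∀ᶠ e in 𝓝 (0 : Fin P.dim → ℂ), P.poles ((C i).pt (Z e i)) = 0 := fun i => by
      refine ((hpt i).eventually (P.poles.support.finite_toSet.isClosed.isOpen_compl.mem_nhds
        (by simp [P.poles_apply_of_mem (hmemR i)]))).mono fun e he => ?_
      simpa using he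
    refine eventually_and.mpr ⟨eventually_ne_nhds P.degenerate_ne_zero.symm,
      eventually_and.mpr ⟨hj, eventually_all.mpr fun i => ?_⟩⟩
    refine eventually_and.mpr ⟨(hc i).eventually ((C i).disc_mem_nhds (C i).zero_mem_disc),
      eventually_and.mpr ⟨hp i, ?_⟩⟩
    exact ((hcd i).eventually_apply_implicitFunction pn (hinv i)).mono fun e he =>
      he.trans (hH0 i)
  -- the divisor of a member
  have hdiv : ∀ e, e ≠ P.degenerate → Function.Injective (fun i => (C i).pt (Z e i)) →
      (∀ i, Z e i ∈ (C i).disc ∧ P.poles ((C i).pt (Z e i)) = 0 ∧ H i (e, Z e i) = 0) →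
      divOf ℂ (P.member e) = (∑ i, Finsupp.single ((C i).pt (Z e i)) (1 : ℤ)) - P.poles := by
    intro e he hi hall
    refine P.ord_member hRcard.symm hi (fun i => (hall i).2.1) (P.member_ne_zero hne he)
      fun i => ?_
    rw [← ev_eq_zero_iff _ (P.regular_of_poles (P.member_mem_poles e) (hall i).2.1),
      ← hH_eq i _ (hall i).2.1]
    exact (hall i).2.2
  obtain ⟨ε, hε, hball⟩ :=
    Metric.eventually_nhds_iff_ball.mp (hev.and hZa.eventually_analyticAt)
  -- **Abel's theorem** along the pencil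
  have hdir : ∀ e ∈ Metric.ball (0 : Fin P.dim → ℂ) ε, ∀ d : Fin P.dim → ℂ,
      logDiff C (Z e) (fderiv ℂ Z e d) = 0 ∧
      ∀ i, fderiv ℂ Z e d i = 0 → ev ((C i).pt (Z e i)) (P.pert d) = 0 := by
    intro e he d
    obtain ⟨⟨hed, hi, hall⟩, hae⟩ := hball e he
    have hf0 := P.member_ne_zero hne hed
    have hD := hdiv e hed hi hall
    set x : ι → Place ℂ F := fun i => (C i).pt (Z e i) with hx
    have hordx : ∀ i, (x i).ord (P.member e) = 1 := fun i => by
      have := congrArg (fun D : Divisor ℂ F => D (x i)) hD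
      simp only [divOf_apply, Finsupp.sub_apply, Finsupp.finsetSum_apply] at this
      rw [this, show P.poles (x i) = 0 from (hall i).2.1, sub_zero,
        Finset.sum_eq_single i (fun j _ hj => Finsupp.single_eq_of_ne fun h => hj (hi h).symm)
          (fun h => absurd (Finset.mem_univ i) h), Finsupp.single_eq_same]
    let q : ι → F := fun i => P.member e / ((C i).t - algebraMap ℂ F (Z e i))
    have hq : ∀ i, q i ∈ ordGE (x i) 0 ∧ ev (x i) (q i) ≠ 0 := fun i => by
      obtain ⟨ho, hne'⟩ := Chart.ord_pt_t_sub (hall i).1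
      have h0 : (x i).ord (q i) = 0 := by rw [ord_div _ hf0 hne', hordx i, ho, sub_self]
      exact ⟨mem_ordGE_of_le_ord _ h0.ge,
        (ev_ne_zero_iff_ord _ (mem_ordGE_of_le_ord _ h0.ge) (div_ne_zero hf0 hne')).mpr h0⟩
    have hcurve : ∀ i, fderiv ℂ Z e d i * ev (x i) (q i) + ev (x i) (P.pert d) = 0 := by
      intro i
      have hγ : HasDerivAt (fun s : ℂ => Z (e + s • d) i) (fderiv ℂ Z e d i) 0 :=
        hasDerivAt_pi.mp (hae.differentiableAt.hasFDerivAt.hasLineDerivAt d) i
      have hg := Chart.hasDerivAt_ev (hall i).1 (f := P.member e) (c := 0)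
        (by simpa using mem_ordGE_of_le_ord (x i) (hordx i).ge)
      rw [map_zero, sub_zero] at hg
      have hpm := P.regular_of_poles (P.pert_mem_poles d) (hall i).2.1
      obtain ⟨hpa, -⟩ := Chart.analytic_ev (hall i).1 hpm
      have hz0 : Z (e + (0 : ℂ) • d) i = Z e i := by simp
      have hA : HasDerivAt
          (fun s : ℂ => ev ((C i).pt (Z (e + s • d) i)) (P.member e) +
            s * ev ((C i).pt (Z (e + s • d) i)) (P.pert d))
          (ev (x i) (q i) * fderiv ℂ Z e d i + ev (x i) (P.pert d)) 0 := by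
        have h1 := HasDerivAt.comp_of_eq (0 : ℂ) hg hγ hz0.symm
        have h2 : DifferentiableAt ℂ (fun s : ℂ => ev ((C i).pt (Z (e + s • d) i)) (P.pert d)) 0 :=
          DifferentiableAt.comp (g := fun w => ev ((C i).pt w) (P.pert d)) (0 : ℂ)
            (hz0.symm ▸ hpa.differentiableAt) hγ.differentiableAt
        have h3 := (hasDerivAt_id (0 : ℂ)).fun_mul h2.hasDerivAt
        refine (h1.fun_add h3).congr_deriv ?_
        simp [q, x]
      have hB : (fun s : ℂ => ev ((C i).pt (Z (e + s • d) i)) (P.member e) +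
            s * ev ((C i).pt (Z (e + s • d) i)) (P.pert d)) =ᶠ[𝓝 0] fun _ => (0 : ℂ) := by
        have hcont : Tendsto (fun s : ℂ => e + s • d) (𝓝 0) (𝓝 e) :=
          Continuous.tendsto' (by fun_prop) 0 e (by simp)
        filter_upwards [hcont.eventually (Metric.isOpen_ball.mem_nhds he)] with s hs
        obtain ⟨⟨-, -, hall'⟩, -⟩ := hball _ hs
        obtain ⟨-, hp', hz'⟩ := hall' i
        have hm : ∀ {f : F}, f ∈ riemannRochSpace P.poles →
            f ∈ ordGE ((C i).pt (Z (e + s • d) i)) 0 := fun hf => P.regular_of_poles hf hp'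
        rw [hH_eq i _ hp', P.member_add_smul, ev_add _ (hm (P.member_mem_poles e))
          (Submodule.smul_mem _ _ (hm (P.pert_mem_poles d))),
          ev_smul _ _ (hm (P.pert_mem_poles d))] at hz'
        exact hz'
      have := hA.unique ((hasDerivAt_const (0 : ℂ) (0 : ℂ)).congr_of_eventuallyEq hB)
      rwa [mul_comm] at this
    refine ⟨?_, fun i h => by simpa [h] using hcurve i⟩
    have hsum := sum_cls_principal (Finset.univ.image x) (P.pert d / P.member e) fun v hv => by
      have hvord := congrArg (fun D : Divisor ℂ F => D v) hD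
      simp only [divOf_apply, Finsupp.sub_apply, Finsupp.finsetSum_apply] at hvord
      rw [Finset.sum_eq_zero fun i _ => Finsupp.single_eq_of_ne fun h =>
        hv (Finset.mem_image.mpr ⟨i, Finset.mem_univ i, h.symm⟩)] at hvord
      rw [div_eq_mul_inv]
      refine ordGE_antitone v ?_ (mul_mem_ordGE v (mem_riemannRochSpace.mp (P.pert_mem_poles d) v)
        (mem_ordGE_of_le_ord v le_rfl))
      rw [v.ord_inv]
      omega
    rw [Finset.sum_image fun a _ b _ h => hi h] at hsum
    have hterm : ∀ i, cls (x i) (P.pert d / P.member e) =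
        -(fderiv ℂ Z e d i) • (C i).theta (Z e i) := fun i => by
      obtain ⟨ho, hne'⟩ := Chart.ord_pt_t_sub (hall i).1
      have hpm := P.regular_of_poles (P.pert_mem_poles d) (hall i).2.1
      have hsimple : P.pert d / P.member e ∈ ordGE (x i) (-1) := by
        rw [div_eq_mul_inv]
        simpa using mul_mem_ordGE _ hpm
          (mem_ordGE_of_le_ord (x i) (f := (P.member e)⁻¹) (n := -1)
            (by rw [Place.ord_inv, hordx i]))
      rw [cls_simple (x i) hsimple hne' ho, Chart.theta]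
      congr 1
      have he' : P.pert d / P.member e * ((C i).t - algebraMap ℂ F (Z e i)) = P.pert d / q i := by
        simp only [q]; field_simp
      rw [he', ev_div _ hpm (hq i).1 (hq i).2, div_eq_iff (hq i).2]
      linear_combination hcurve i
    rw [Finset.sum_congr rfl fun i _ => hterm i] at hsum
    rw [logDiff_apply, ← neg_eq_zero]
    have := congrArg (coordEquiv F) hsum
    simpa [map_sum, map_zero, Chart.thetaVec, neg_smul, Finset.sum_neg_distrib] using this
  -- the pencil fills the fibre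
  set T := logDiff C 0 with hT
  set Z' := fderiv ℂ Z 0 with hZ'
  let K0 : Submodule ℂ (ι → ℂ) := LinearMap.ker (T : (ι → ℂ) →ₗ[ℂ] Fin (genusFF ℂ F) → ℂ)
  have h0ball : (0 : Fin P.dim → ℂ) ∈ Metric.ball (0 : Fin P.dim → ℂ) ε := Metric.mem_ball_self hε
  have hZ'K : LinearMap.range (Z' : (Fin P.dim → ℂ) →ₗ[ℂ] (ι → ℂ)) = K0 := by
    refine Submodule.eq_of_le_of_finrank_le ?_ ?_
    · rintro _ ⟨d, rfl⟩
      have := (hdir 0 h0ball d).1
      rw [hZ0] at this
      exact this
    · have h1 := LinearMap.finrank_range_add_finrank_ker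
        (Z' : (Fin P.dim → ℂ) →ₗ[ℂ] (ι → ℂ))
      have h2 := LinearMap.finrank_range_add_finrank_ker
        (T : (ι → ℂ) →ₗ[ℂ] Fin (genusFF ℂ F) → ℂ)
      rw [LinearMap.range_eq_top.mpr (surjective_logDiff_zero C hinj hcard.le), finrank_top] at h2
      simp only [Module.finrank_fintype_fun_eq_card, Fintype.card_fin] at h1 h2
      have h3 : Module.finrank ℂ (LinearMap.ker (Z' : (Fin P.dim → ℂ) →ₗ[ℂ] (ι → ℂ))) ≤ 1 := by
        let ψ : (Fin P.dim → ℂ) →ₗ[ℂ] F :=
          (riemannRochSpace (ofSet R)).subtype ∘ₗ P.psi.equivFun.symm.toLinearMap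
        let g : LinearMap.ker (Z' : (Fin P.dim → ℂ) →ₗ[ℂ] (ι → ℂ)) →ₗ[ℂ]
            riemannRochSpace (0 : Divisor ℂ F) :=
          LinearMap.codRestrict _ (ψ ∘ₗ Submodule.subtype _) fun d => by
            refine mem_riemannRochSpace.mpr fun v => ?_
            have hψ := mem_riemannRochSpace.mp (P.psi.equivFun.symm (d : Fin P.dim → ℂ)).2 v
            by_cases hv : v ∈ R
            · obtain ⟨i, -, rfl⟩ := Finset.mem_image.mp hv
              have hd0 : Z' (d : Fin P.dim → ℂ) = 0 := d.2
              have := (hdir 0 h0ball d).2 i (by rw [← hZ', hd0]; rfl)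
              rw [hZ0, Pi.zero_apply, Chart.pt_zero] at this
              have hm := P.regular_of_poles (P.pert_mem_poles d) (P.poles_apply_of_mem hv)
              rw [ev_eq_zero_iff _ hm] at this
              have h4 := mul_mem_ordGE _ this (mem_ordGE_of_le_ord (C i).P (f := P.h) (n := -1)
                (P.ord_eq _ hv).ge)
              simpa [ψ, Pencil.pert, hh] using h4
            · simpa [ψ, ofSet_apply, hv] using hψ
        have hg : Function.Injective g := fun a b hab => by
          have := congrArg Subtype.val hab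
          simp only [g, LinearMap.codRestrict_apply, LinearMap.comp_apply, ψ, Submodule.coe_subtype,
            LinearEquiv.coe_coe, Subtype.coe_inj, EmbeddingLike.apply_eq_iff_eq] at this
          exact this
        exact (LinearMap.finrank_le_finrank_of_injective hg).trans (ell_zero (K := ℂ) (F := F)).le
      have h4 : (P.dim : ℤ) ≥ R.card + 1 - genusFF ℂ F := by
        have := genus_riemann (ofSet R)
        rw [degree_ofSet] at this
        exact this
      change Module.finrank ℂ (LinearMap.ker (T : (ι → ℂ) →ₗ[ℂ] Fin (genusFF ℂ F) → ℂ)) ≤ _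
      omega
  obtain ⟨π, hπ⟩ := LinearMap.exists_leftInverse_of_injective K0.subtype K0.ker_subtype
  have hπK : ∀ k : K0, π (k : ι → ℂ) = k := fun k => LinearMap.congr_fun hπ k
  set πc : (ι → ℂ) →L[ℂ] K0 := LinearMap.toContinuousLinearMap π
  have : CompleteSpace K0 := FiniteDimensional.complete ℂ K0
  -- surjectivity of the projected pencil
  have hπZ : map (fun e => πc (Z e)) (𝓝 0) = 𝓝 0 := by
    have h1 : HasStrictFDerivAt (fun e => πc (Z e)) (πc.comp Z') 0 :=
      (πc.hasStrictFDerivAt (x := Z 0)).comp (0 : Fin P.dim → ℂ) hZa.hasStrictFDerivAt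
    have h2 : (πc.comp Z').range = ⊤ := by
      refine LinearMap.range_eq_top.mpr fun k => ?_
      obtain ⟨d, hd⟩ : (k : ι → ℂ) ∈ LinearMap.range (Z' : (Fin P.dim → ℂ) →ₗ[ℂ] (ι → ℂ)) :=
        by rw [hZ'K]; exact k.2
      exact ⟨d, by
        show π (Z' d) = k
        rw [show Z' d = (k : ι → ℂ) from hd]
        exact hπK k⟩
    have := h1.map_nhds_eq_of_surj h2
    simpa [hZ0] using this
  -- injectivity of `(logSum, π)`
  let Ξ' : (ι → ℂ) →ₗ[ℂ] (Fin (genusFF ℂ F) → ℂ) × K0 :=
    (T : (ι → ℂ) →ₗ[ℂ] Fin (genusFF ℂ F) → ℂ).prod π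
  have hΞ' : Function.Bijective Ξ' := by
    constructor
    · rw [← LinearMap.ker_eq_bot, Submodule.eq_bot_iff]
      intro z hz
      rw [LinearMap.mem_ker, LinearMap.prod_apply, Function.prod_apply, Prod.mk_eq_zero] at hz
      have hzK : z ∈ K0 := hz.1
      have := hπK ⟨z, hzK⟩
      rw [hz.2] at this
      exact congrArg Subtype.val this.symm
    · rintro ⟨a, k⟩
      obtain ⟨z, hz⟩ := surjective_logDiff_zero C hinj hcard.le a
      refine ⟨z + ((k - π z : K0) : ι → ℂ), Prod.ext ?_ ?_⟩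
      have hT0 : T ((k - π z : K0) : ι → ℂ) = 0 := (k - π z).2
      · show T (z + ((k - π z : K0) : ι → ℂ)) = a
        rw [map_add, hT0, add_zero]
        exact hz
      · show π (z + ((k - π z : K0) : ι → ℂ)) = k
        rw [map_add, hπK, add_sub_cancel]
  let Ξe := (LinearEquiv.ofBijective Ξ' hΞ').toContinuousLinearEquiv
  have hΞ : HasStrictFDerivAt (fun z : ι → ℂ => (logSum C z, πc z))
      (Ξe : (ι → ℂ) →L[ℂ] (Fin (genusFF ℂ F) → ℂ) × K0) 0 :=
    ((hasStrictFDerivAt_logSum C fun i => (C i).zero_mem_disc).prodMk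
      πc.hasStrictFDerivAt).congr_fderiv (by ext z <;> rfl)
  -- conclusion
  have hgood : ∀ᶠ e in 𝓝 (0 : Fin P.dim → ℂ), e ∈ Metric.ball (0 : Fin P.dim → ℂ) ε ∧
      logSum C (Z e) = 0 ∧ hΞ.localInverse _ _ _ (logSum C (Z e), πc (Z e)) = Z e := by
    refine eventually_and.mpr ⟨Metric.ball_mem_nhds 0 hε, eventually_and.mpr ⟨?_, ?_⟩⟩
    · filter_upwards [Metric.ball_mem_nhds 0 hε] with e he
      have hd : ∀ e ∈ Metric.ball (0 : Fin P.dim → ℂ) ε, HasFDerivAt (fun e => logSum C (Z e))
          (0 : (Fin P.dim → ℂ) →L[ℂ] Fin (genusFF ℂ F) → ℂ) e := by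
        intro e he
        obtain ⟨⟨-, -, hall⟩, hae⟩ := hball e he
        refine ((hasStrictFDerivAt_logSum C fun i => (hall i).1).hasFDerivAt.comp e
          hae.differentiableAt.hasFDerivAt).congr_fderiv ?_
        refine ContinuousLinearMap.ext fun d => ?_
        exact (hdir e he d).1
      have h0 := Metric.isOpen_ball.is_const_of_fderiv_eq_zero (convex_ball _ _).isPreconnected
        (fun e he => (hd e he).differentiableAt.differentiableWithinAt)
        (fun e he => (hd e he).fderiv) he h0ball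
      rw [h0, hZ0, logSum_zero]
    · have hcont : Tendsto Z (𝓝 0) (𝓝 0) := by simpa [hZ0] using hZa.continuousAt.tendsto
      exact hcont.eventually hΞ.eventually_left_inverse
  have hpre : ∀ᶠ z in 𝓝 (0 : ι → ℂ), ∃ e, (e ∈ Metric.ball (0 : Fin P.dim → ℂ) ε ∧
      logSum C (Z e) = 0 ∧ hΞ.localInverse _ _ _ (logSum C (Z e), πc (Z e)) = Z e) ∧
      πc (Z e) = πc z := by
    have himg := Filter.image_mem_map (m := fun e => πc (Z e)) hgood
    rw [hπZ] at himg
    have hc : Tendsto πc (𝓝 0) (𝓝 0) := by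
      simpa using (πc.continuous.tendsto (0 : ι → ℂ))
    exact hc.eventually himg
  filter_upwards [hpre, hΞ.eventually_left_inverse] with z ⟨e, ⟨he, hlog, hinvZ⟩, heq⟩ hinvz hz
  have hzZ : z = Z e := by rw [← hinvz, ← hinvZ, hz, hlog, heq]
  subst hzZ
  obtain ⟨⟨hed, hi, hall⟩, -⟩ := hball e he
  obtain ⟨⟨h0d, h0i, h0all⟩, -⟩ := hball 0 h0ball
  have hD := hdiv e hed hi hall
  have hD0 := hdiv 0 h0d h0i h0all
  simp only [hZ0, Pi.zero_apply, Chart.pt_zero] at hD0
  have hm := P.member_ne_zero hne hed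
  have hm0 := P.member_ne_zero hne h0d
  refine ⟨P.member e / P.member 0, div_ne_zero hm hm0, fun v => ?_⟩
  rw [ord_div v hm hm0, ← divOf_apply (K := ℂ), ← divOf_apply (K := ℂ), hD, hD0,
    ← Finsupp.sub_apply, sub_sub_sub_cancel_right, ← Finset.sum_sub_distrib]

end Fermat.Agent.CurveTorsion
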