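import Mathlib
import Fermat.Agent.CurveTorsion.Abel

/-!
# The exponential map `H¹(0) → Pic⁰` near the origin

`expLoc` is additive near the origin (`expLoc_add`), injective there (`expLoc_eq_zero`) and
describes small displacements of any point (`pic_pt_sub_eq`).
-/

noncomputable section

set_option autoImplicit false

namespace Fermat.Agent.CurveTorsion

open AlgebraicCurve Filter
open Fermat.Agent.FF
open scoped Topology Classical

variable {F : Type*} [Field F] [Algebra ℂ F] [IsFunctionField ℂ F]

/-- The class of a divisor, junk outside degree zero. -/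
def pic {K E : Type*} [Field K] [Field E] [Algebra K E] (D : Divisor K E) : Pic0 K E :=
  if h : Divisor.degree D = 0 then Pic0.mk ⟨D, Divisor.mem_degZero.mpr h⟩ else 0

section pic

variable {K E : Type*} [Field K] [Field E] [Algebra K E] {D D' : Divisor K E}

theorem pic_add (h : Divisor.degree D = 0) (h' : Divisor.degree D' = 0) :
    pic (D + D') = pic D + pic D' := by
  rw [pic, pic, pic, dif_pos h, dif_pos h', dif_pos (by rw [map_add, h, h', add_zero])]
  rfl

theorem pic_zero : pic (0 : Divisor K E) = 0 := by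
  rw [pic, dif_pos (map_zero _)]
  rfl

theorem pic_eq_zero_iff (h : Divisor.degree D = 0) : pic D = 0 ↔ Divisor.IsPrincipal D := by
  rw [pic, dif_pos h, Pic0.mk]
  refine (QuotientAddGroup.eq_zero_iff _).trans ?_
  rw [AddSubgroup.mem_addSubgroupOf, Divisor.mem_principal]

theorem pic_neg (h : Divisor.degree D = 0) : pic (-D) = -pic D := by
  refine eq_neg_of_add_eq_zero_left ?_
  rw [← pic_add (by rw [map_neg, h, neg_zero]) h, neg_add_cancel, pic_zero]

theorem pic_eq_of_principal (h : Divisor.degree D = 0) (h' : Divisor.degree D' = 0)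
    (hp : Divisor.IsPrincipal (D - D')) : pic D = pic D' := by
  have h2 : Divisor.degree (D - D') = 0 := by rw [map_sub, h, h', sub_zero]
  have := (pic_eq_zero_iff h2).mpr hp
  rwa [sub_eq_add_neg, pic_add h (by rw [map_neg, h', neg_zero]), pic_neg h', ← sub_eq_add_neg,
    sub_eq_zero] at this

theorem pic_sum {ι : Type*} (s : Finset ι) (f : ι → Divisor K E)
    (h : ∀ i ∈ s, Divisor.degree (f i) = 0) : pic (∑ i ∈ s, f i) = ∑ i ∈ s, pic (f i) := by
  induction s using Finset.cons_induction with
  | empty => simp [pic_zero]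
  | cons a s ha ih =>
    rw [Finset.sum_cons, Finset.sum_cons, pic_add (h a (Finset.mem_cons_self a s))
      (by rw [map_sum]; exact Finset.sum_eq_zero fun i hi => h i (Finset.mem_cons_of_mem hi)),
      ih fun i hi => h i (Finset.mem_cons_of_mem hi)]

theorem pic_surjective : Function.Surjective (pic (K := K) (E := E) ∘
    fun D : Divisor.degZero (K := K) (F := E) => (D : Divisor K E)) := fun x => by
  obtain ⟨D, rfl⟩ := Pic0.mk_surjective x
  exact ⟨D, by simp only [Function.comp_apply, pic, dif_pos (Divisor.mem_degZero.mp D.2)]⟩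

end pic

/-- A chosen chart at a place. -/
def chartOf (P : Place ℂ F) : Chart ℂ F := (exists_chart P).choose

theorem chartOf_P (P : Place ℂ F) : (chartOf P).P = P := (exists_chart P).choose_spec

variable {ι κ : Type} [Fintype ι] [Fintype κ]

/-- The divisor of a displaced tuple. -/
def ptDiv (C : ι → Chart ℂ F) (z : ι → ℂ) : Divisor ℂ F :=
  ∑ i, (Finsupp.single ((C i).pt (z i)) (1 : ℤ) - Finsupp.single (C i).P 1)

/-- Its class. -/
def ptClass (C : ι → Chart ℂ F) (z : ι → ℂ) : Pic0 ℂ F := pic (ptDiv C z)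

theorem degree_ptDiv (C : ι → Chart ℂ F) (z : ι → ℂ) : Divisor.degree (ptDiv C z) = 0 := by
  simp [ptDiv, deg_eq_one]

theorem logSum_sum (C : ι → Chart ℂ F) (D : κ → Chart ℂ F) (z : ι → ℂ) (w : κ → ℂ) :
    logSum (Sum.elim C D) (Sum.elim z w) = logSum C z + logSum D w := by
  simp [logSum, Fintype.sum_sum_type]

theorem ptClass_sum (C : ι → Chart ℂ F) (D : κ → Chart ℂ F) (z : ι → ℂ) (w : κ → ℂ) :
    ptClass (Sum.elim C D) (Sum.elim z w) = ptClass C z + ptClass D w := by
  rw [ptClass, ptClass, ptClass, ← pic_add (degree_ptDiv C z) (degree_ptDiv D w)]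
  congr 1
  simp [ptDiv, Fintype.sum_sum_type]
  abel

omit [IsFunctionField ℂ F] [Fintype ι] [Fintype κ] in
theorem tendsto_sum_elim {X : Type*} {l : Filter X} {f : X → ι → ℂ} {g : X → κ → ℂ}
    (hf : Tendsto f l (𝓝 0)) (hg : Tendsto g l (𝓝 0)) :
    Tendsto (fun x => Sum.elim (f x) (g x)) l (𝓝 0) := by
  rw [tendsto_pi_nhds]
  rintro (i | i)
  · simpa using tendsto_pi_nhds.mp hf i
  · simpa using tendsto_pi_nhds.mp hg i

/-- A spanning tuple of charts: many enough points, pairwise distinct. -/
structure Block (F : Type*) [Field F] [Algebra ℂ F] [IsFunctionField ℂ F] where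
  /-- The charts. -/
  chart : Fin (bound ℂ F + 1) → Chart ℂ F
  inj : Function.Injective fun i => (chart i).P

theorem exists_section (B : Block F) :
    ∃ s : (Fin (genusFF ℂ F) → ℂ) → Fin (bound ℂ F + 1) → ℂ,
      Tendsto s (𝓝 0) (𝓝 0) ∧ ∀ᶠ v in 𝓝 0, logSum B.chart (s v) = v := by
  obtain ⟨σ, hσ⟩ := LinearMap.exists_rightInverse_of_surjective
    (logDiff B.chart 0 : (Fin (bound ℂ F + 1) → ℂ) →ₗ[ℂ] Fin (genusFF ℂ F) → ℂ)
    (LinearMap.range_eq_top.mpr (surjective_logDiff_zero B.chart B.inj (by simp)))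
  set σc := LinearMap.toContinuousLinearMap σ
  set g : (Fin (genusFF ℂ F) → ℂ) → Fin (genusFF ℂ F) → ℂ := fun v => logSum B.chart (σc v)
  have hg : HasStrictFDerivAt g
      ((ContinuousLinearEquiv.refl ℂ (Fin (genusFF ℂ F) → ℂ)) :
        (Fin (genusFF ℂ F) → ℂ) →L[ℂ] Fin (genusFF ℂ F) → ℂ) 0 := by
    have h1 : HasStrictFDerivAt (logSum B.chart) (logDiff B.chart 0) (σc 0) := by
      rw [map_zero]
      exact hasStrictFDerivAt_logSum _ fun i => (B.chart i).zero_mem_disc
    refine (h1.comp 0 σc.hasStrictFDerivAt).congr_fderiv ?_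
    refine ContinuousLinearMap.ext fun v => ?_
    exact LinearMap.congr_fun hσ v
  have hg0 : g 0 = 0 := by simp only [g, map_zero, logSum_zero]
  refine ⟨fun v => σc (hg.localInverse g _ 0 v), ?_, ?_⟩
  · have h1 := hg.localInverse_tendsto
    rw [hg0] at h1
    simpa [Function.comp_def] using (σc.continuous.tendsto 0).comp h1
  · have h1 := hg.eventually_right_inverse
    rw [hg0] at h1
    exact h1

namespace Block

variable (B : Block F)

/-- A local section of `logSum`. -/
def sec : (Fin (genusFF ℂ F) → ℂ) → Fin (bound ℂ F + 1) → ℂ := (exists_section B).choose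

theorem tendsto_sec : Tendsto B.sec (𝓝 0) (𝓝 0) := (exists_section B).choose_spec.1

theorem eventually_logSum_sec : ∀ᶠ v in 𝓝 0, logSum B.chart (B.sec v) = v :=
  (exists_section B).choose_spec.2

/-- The exponential map read off the block. -/
def expAt (v : Fin (genusFF ℂ F) → ℂ) : Pic0 ℂ F := ptClass B.chart (B.sec v)

/-- The class of a small tuple away from the block only depends on its logarithm. -/
theorem ptClass_eq (D : κ → Chart ℂ F)
    (hinj : Function.Injective fun i => (Sum.elim B.chart D i).P) :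
    ∀ᶠ z in 𝓝 (0 : κ → ℂ), ptClass D z = -B.expAt (-logSum D z) := by
  have hcard : bound ℂ F < Fintype.card (Fin (bound ℂ F + 1) ⊕ κ) := by
    rw [Fintype.card_sum, Fintype.card_fin]; omega
  have hlog : Tendsto (fun z => -logSum D z) (𝓝 (0 : κ → ℂ)) (𝓝 0) := by
    have := (hasStrictFDerivAt_logSum D (z := (0 : κ → ℂ))
      fun i => (D i).zero_mem_disc).continuousAt.tendsto.neg
    rwa [logSum_zero, neg_zero] at this
  have hT := tendsto_sum_elim (B.tendsto_sec.comp hlog) tendsto_id
  filter_upwards [hT.eventually (isPrincipal_of_logSum_eq_zero (Sum.elim B.chart D) hinj hcard),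
    hlog.eventually B.eventually_logSum_sec] with z hz hs
  have h0 := hz (by
    rw [Function.comp_apply, id_eq, logSum_sum, hs, neg_add_cancel])
  have h1 : ptClass (Sum.elim B.chart D) (Sum.elim (B.sec (-logSum D z)) z) = 0 :=
    (pic_eq_zero_iff (degree_ptDiv _ _)).mpr h0
  rw [ptClass_sum] at h1
  exact eq_neg_of_add_eq_zero_right h1

theorem expAt_eq (B' : Block F) (hdisj : ∀ i j, (B.chart i).P ≠ (B'.chart j).P) :
    ∀ᶠ v in 𝓝 0, B'.expAt v = -B.expAt (-v) := by
  have hinj : Function.Injective fun i => (Sum.elim B.chart B'.chart i).P :=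
    Function.Injective.comp (g := id) Function.injective_id (by
      rintro (i | i) (j | j) h
      · exact congrArg Sum.inl (B.inj h)
      · exact absurd h (hdisj i j)
      · exact absurd h.symm (hdisj j i)
      · exact congrArg Sum.inr (B'.inj h))
  filter_upwards [B'.tendsto_sec.eventually (B.ptClass_eq B'.chart hinj),
    B'.eventually_logSum_sec] with v hv hs
  rw [hs] at hv
  exact hv

end Block

variable (F) in
/-- Pairwise disjoint blocks. -/
def blocks (k : ℕ) : Block F :=
  haveI := infinite_places (K := ℂ) (F := F)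
  { chart := fun i => chartOf (Infinite.natEmbedding (Place ℂ F) (Nat.pair k i))
    inj := fun i j h => by
      simp only [chartOf_P, EmbeddingLike.apply_eq_iff_eq, Nat.pair_eq_pair] at h
      exact Fin.ext h.2 }

theorem blocks_disjoint {k l : ℕ} (h : k ≠ l) (i j : Fin (bound ℂ F + 1)) :
    ((blocks F k).chart i).P ≠ ((blocks F l).chart j).P := by
  simp [blocks, chartOf_P, Nat.pair_eq_pair, h]

variable (F) in
/-- The exponential map near the origin. -/
def expLoc : (Fin (genusFF ℂ F) → ℂ) → Pic0 ℂ F := (blocks F 0).expAt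

theorem blocks_expAt_eq (k : ℕ) : ∀ᶠ v in 𝓝 0, (blocks F k).expAt v = expLoc F v := by
  obtain ⟨m, hm0, hmk⟩ : ∃ m, m ≠ 0 ∧ m ≠ k := ⟨k + 1, by omega, by omega⟩
  filter_upwards [(blocks F m).expAt_eq (blocks F k) (blocks_disjoint hmk),
    (blocks F m).expAt_eq (blocks F 0) (blocks_disjoint hm0)] with v h1 h2
  rw [h1, expLoc, h2]

theorem expLoc_neg : ∀ᶠ v in 𝓝 0, expLoc F v = -expLoc F (-v) := by
  have hneg : Tendsto (fun v : Fin (genusFF ℂ F) → ℂ => -v) (𝓝 0) (𝓝 0) :=
    Continuous.tendsto' continuous_neg 0 0 neg_zero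
  filter_upwards [(blocks F 1).expAt_eq (blocks F 0) (blocks_disjoint one_ne_zero),
    hneg.eventually (blocks_expAt_eq (F := F) 1)] with v h1 h2
  rw [expLoc] at h2 ⊢
  rw [h1, h2]

theorem expLoc_add : ∀ᶠ p : (Fin (genusFF ℂ F) → ℂ) × (Fin (genusFF ℂ F) → ℂ) in 𝓝 0,
    expLoc F (p.1 + p.2) = expLoc F p.1 + expLoc F p.2 := by
  set B := blocks F 0
  set A := blocks F 1
  set A' := blocks F 2
  have hinj : Function.Injective fun i => (Sum.elim B.chart (Sum.elim A.chart A'.chart) i).P := by
    rintro (i | i | i) (j | j | j) h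
    · exact congrArg Sum.inl (B.inj h)
    · exact absurd h (blocks_disjoint (by decide) i j)
    · exact absurd h (blocks_disjoint (by decide) i j)
    · exact absurd h (blocks_disjoint (by decide) i j)
    · exact congrArg (Sum.inr ∘ Sum.inl) (A.inj h)
    · exact absurd h (blocks_disjoint (by decide) i j)
    · exact absurd h (blocks_disjoint (by decide) i j)
    · exact absurd h (blocks_disjoint (by decide) i j)
    · exact congrArg (Sum.inr ∘ Sum.inr) (A'.inj h)
  have h1 : Tendsto (fun p : (Fin (genusFF ℂ F) → ℂ) × (Fin (genusFF ℂ F) → ℂ) => p.1) (𝓝 0)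
      (𝓝 0) := Continuous.tendsto' continuous_fst 0 0 rfl
  have h2 : Tendsto (fun p : (Fin (genusFF ℂ F) → ℂ) × (Fin (genusFF ℂ F) → ℂ) => p.2) (𝓝 0)
      (𝓝 0) := Continuous.tendsto' continuous_snd 0 0 rfl
  have h12 : Tendsto (fun p : (Fin (genusFF ℂ F) → ℂ) × (Fin (genusFF ℂ F) → ℂ) => p.1 + p.2)
      (𝓝 0) (𝓝 0) := Continuous.tendsto' (continuous_fst.add continuous_snd) 0 0 (by simp)
  filter_upwards [(tendsto_sum_elim (A.tendsto_sec.comp h1) (A'.tendsto_sec.comp h2)).eventually
      (B.ptClass_eq (Sum.elim A.chart A'.chart) hinj),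
    h1.eventually A.eventually_logSum_sec, h2.eventually A'.eventually_logSum_sec,
    h1.eventually (blocks_expAt_eq (F := F) 1), h2.eventually (blocks_expAt_eq (F := F) 2),
    h12.eventually (expLoc_neg (F := F))] with p hp ha ha' he he' hn
  rw [Function.comp_apply, Function.comp_apply, ptClass_sum, logSum_sum, ha, ha'] at hp
  rw [hn, ← he, ← he']
  exact hp.symm

/-- Small displacements of any point are exponentials of their logarithm. -/
theorem ptClass_eq_expLoc (D : κ → Chart ℂ F) (hinj : Function.Injective fun i => (D i).P)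
    (k : ℕ) (hdisj : ∀ i j, ((blocks F k).chart i).P ≠ (D j).P) :
    ∀ᶠ z in 𝓝 (0 : κ → ℂ), ptClass D z = expLoc F (logSum D z) := by
  have hinj' : Function.Injective fun i => (Sum.elim (blocks F k).chart D i).P := by
    rintro (i | i) (j | j) h
    · exact congrArg Sum.inl ((blocks F k).inj h)
    · exact absurd h (hdisj i j)
    · exact absurd h.symm (hdisj j i)
    · exact congrArg Sum.inr (hinj h)
  have hlog : Tendsto (fun z => logSum D z) (𝓝 (0 : κ → ℂ)) (𝓝 0) := by
    have := (hasStrictFDerivAt_logSum D (z := (0 : κ → ℂ))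
      fun i => (D i).zero_mem_disc).continuousAt.tendsto
    rwa [logSum_zero] at this
  have hlogneg : Tendsto (fun z => -logSum D z) (𝓝 (0 : κ → ℂ)) (𝓝 0) := by simpa using hlog.neg
  filter_upwards [(blocks F k).ptClass_eq D hinj', hlogneg.eventually (blocks_expAt_eq (F := F) k),
    hlog.eventually (expLoc_neg (F := F))] with z h1 h2 h3
  rw [h1, h2, h3]

/-- The one-point version: for every chart. -/
theorem pic_pt_sub_eq (C : Chart ℂ F) : ∀ᶠ z in 𝓝 (0 : ℂ),
    pic (Finsupp.single (C.pt z) (1 : ℤ) - Finsupp.single C.P 1) = expLoc F (C.log z) := by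
  obtain ⟨k, hk⟩ : ∃ k, ∀ i, ((blocks F k).chart i).P ≠ C.P := by
    by_contra h
    push Not at h
    obtain ⟨i, hi⟩ := h 0
    obtain ⟨j, hj⟩ := h 1
    exact blocks_disjoint zero_ne_one i j (hi.trans hj.symm)
  have h := ptClass_eq_expLoc (κ := Unit) (fun _ => C) (fun _ _ _ => rfl) k (fun i _ => hk i)
  have hT : Tendsto (fun z : ℂ => fun _ : Unit => z) (𝓝 0) (𝓝 0) :=
    tendsto_pi_nhds.mpr fun _ => tendsto_id
  filter_upwards [hT.eventually h] with z hz
  simpa [ptClass, ptDiv, logSum] using hz

/-- The exponential is injective near the origin. -/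
theorem expLoc_eq_zero : ∀ᶠ v in 𝓝 0, expLoc F v = 0 → v = 0 := by
  set B := blocks F 0
  have hsurj := surjective_logDiff_zero B.chart B.inj (by simp)
  have hspan : Submodule.span ℂ (Set.range fun i => (B.chart i).thetaVec 0) = ⊤ :=
    Submodule.eq_top_iff'.mpr fun v => by
      obtain ⟨c, hc⟩ := hsurj v
      exact (Submodule.mem_span_range_iff_exists_fun ℂ).mpr
        ⟨c, by rw [← hc, logDiff_apply]; rfl⟩
  obtain ⟨s, hs, hsspan, hsli⟩ := exists_linearIndependent ℂ
    (Set.range fun i => (B.chart i).thetaVec 0)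
  rw [hspan] at hsspan
  choose f hf using fun x : s => hs x.2
  have : Fintype s := ((Set.finite_range _).subset hs).fintype
  have hfinj : Function.Injective f := fun a b h => Subtype.ext (by rw [← hf a, ← hf b, h])
  obtain ⟨n, ⟨e⟩⟩ : ∃ n, Nonempty (Fin n ≃ s) :=
    ⟨Fintype.card s, ⟨(Fintype.equivFin s).symm⟩⟩
  set D : Fin n → Chart ℂ F := fun a => B.chart (f (e a))
  have hDinj : Function.Injective fun a => (D a).P :=
    fun a b h => e.injective (hfinj (B.inj h))
  have hθ : ∀ a, (D a).thetaVec 0 = ((e a : s) : Fin (genusFF ℂ F) → ℂ) := fun a => hf (e a)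
  have hli : LinearIndependent ℂ fun a => (D a).thetaVec 0 := by
    simp only [hθ]
    exact hsli.comp e e.injective
  have hDsurj : Function.Surjective (logDiff D 0) := fun v => by
    have hrange : Set.range (fun a => (D a).thetaVec 0) = s := by
      ext x
      simp only [hθ, Set.mem_range]
      exact ⟨fun ⟨a, ha⟩ => ha ▸ (e a).2, fun hx => ⟨e.symm ⟨x, hx⟩, by simp⟩⟩
    obtain ⟨c, hc⟩ := (Submodule.mem_span_range_iff_exists_fun ℂ).mp
      (show v ∈ Submodule.span ℂ (Set.range fun a => (D a).thetaVec 0) by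
        rw [hrange, hsspan]; trivial)
    exact ⟨c, by rw [logDiff_apply]; exact hc⟩
  have hmap : Filter.map (logSum D) (𝓝 0) = 𝓝 0 := by
    have := (hasStrictFDerivAt_logSum D (z := 0) fun i => (D i).zero_mem_disc).map_nhds_eq_of_surj
      (LinearMap.range_eq_top.mpr hDsurj)
    rwa [logSum_zero] at this
  have hpt : ∀ a b, a ≠ b → ∀ᶠ z in 𝓝 (0 : Fin n → ℂ), (D a).pt (z a) ≠ (D b).P := by
    intro a b hab
    have h1 : Tendsto (fun z : Fin n → ℂ => (D a).pt (z a)) (𝓝 0) (𝓝 (D a).P) := by
      have := (Chart.continuousAt_pt (D a).zero_mem_disc).tendsto.comp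
        (((continuous_apply a).tendsto' (0 : Fin n → ℂ) 0 rfl))
      rwa [Chart.pt_zero] at this
    exact h1.eventually (eventually_ne_nhds fun h => hab (hDinj h))
  have key : ∀ᶠ z in 𝓝 (0 : Fin n → ℂ), expLoc F (logSum D z) = 0 → z = 0 := by
    have hdisc : ∀ᶠ z in 𝓝 (0 : Fin n → ℂ), ∀ a, z a ∈ (D a).disc := eventually_all.mpr fun a =>
      ((continuous_apply a).tendsto' (0 : Fin n → ℂ) 0 rfl).eventually
        ((D a).disc_mem_nhds (D a).zero_mem_disc)
    have hne : ∀ᶠ z in 𝓝 (0 : Fin n → ℂ), ∀ a b, a ≠ b → (D a).pt (z a) ≠ (D b).P :=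
      eventually_all.mpr fun a => eventually_all.mpr fun b => by
        by_cases hab : a = b
        · exact Eventually.of_forall fun _ h => absurd hab h
        · exact (hpt a b hab).mono fun _ h _ => h
    filter_upwards [ptClass_eq_expLoc D hDinj 1 (fun i j => blocks_disjoint one_ne_zero i _),
      hdisc, hne] with z hz hd hne h0
    rw [← hz, ptClass, pic_eq_zero_iff (degree_ptDiv _ _)] at h0
    obtain ⟨g, hg0, hg⟩ := h0
    have hge : ∀ v, g ∈ ordGE v (-(∑ a, Finsupp.single (D a).P (1 : ℤ) : Divisor ℂ F) v) := by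
      intro v
      rw [mem_ordGE_of_ne_zero v hg0, ← hg v]
      simp only [ptDiv, Finsupp.finsetSum_apply, Finsupp.sub_apply, Finset.sum_sub_distrib]
      have : 0 ≤ ∑ a, (Finsupp.single ((D a).pt (z a)) (1 : ℤ) : Divisor ℂ F) v :=
        Finset.sum_nonneg fun a _ => by rw [Finsupp.single_apply]; split_ifs <;> omega
      omega
    obtain ⟨c, hc⟩ := const_of_linearIndependent (K := ℂ) (P := fun a => (D a).P) hDinj
      (t := fun a => (D a).t - algebraMap ℂ F 0)
      (fun a => (Chart.ord_pt_t_sub (D a).zero_mem_disc).2)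
      (fun a => by
        have := (Chart.ord_pt_t_sub (D a).zero_mem_disc).1
        rwa [Chart.pt_zero] at this)
      (by
        have := hli.map' (coordEquiv F).symm.toLinearMap (LinearEquiv.ker _)
        simpa [Chart.thetaVec, Chart.theta, Chart.pt_zero, Function.comp_def] using this)
      (f := g)
      (fun a => by
        have h3 := hge (D a).P
        rwa [Finsupp.finsetSum_apply, Finset.sum_eq_single a
          (fun b _ hb => Finsupp.single_eq_of_ne fun h => hb (hDinj h).symm)
          (fun h => absurd (Finset.mem_univ a) h), Finsupp.single_eq_same] at h3)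
      (fun v hv => by
        have h3 := hge v
        rwa [Finsupp.finsetSum_apply,
          Finset.sum_eq_zero fun b _ => Finsupp.single_eq_of_ne fun h => hv b h.symm,
          neg_zero] at h3)
    funext a
    by_contra hza
    have hne' : ∀ b, (D b).P ≠ (D a).pt (z a) := fun b h => by
      rcases eq_or_ne a b with rfl | hab
      · exact hza ((D a).pt_injOn (hd a) (D a).zero_mem_disc
          (by rw [Pi.zero_apply, Chart.pt_zero]; exact h.symm))
      · exact hne a b hab h.symm
    have h2 := hg ((D a).pt (z a))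
    rw [hc, ord_algebraMap, ptDiv, Finsupp.finsetSum_apply] at h2
    simp only [Finsupp.sub_apply, Finset.sum_sub_distrib] at h2
    rw [Finset.sum_eq_zero (f := fun b => (Finsupp.single (D b).P (1 : ℤ) : Divisor ℂ F) _)
      fun b _ => Finsupp.single_eq_of_ne fun h => hne' b h.symm, sub_zero] at h2
    have h4 := Finset.single_le_sum
      (f := fun b => (Finsupp.single ((D b).pt (z b)) (1 : ℤ) : Divisor ℂ F) ((D a).pt (z a)))
      (fun b _ => by rw [Finsupp.single_apply]; split_ifs <;> omega) (Finset.mem_univ a)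
    rw [Finsupp.single_eq_same, h2] at h4
    omega
  rw [← hmap]
  refine Filter.eventually_map.mpr (key.mono fun z hz h => ?_)
  rw [hz h, logSum_zero]

end Fermat.Agent.CurveTorsion
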