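import Mathlib

/-!
# Torsion of a group uniformised by a real vector space modulo a lattice

`natCard_torsion_of_cover`: `#A[n] = n ^ dim V` when `A` is covered by `V` with bounded section
and injectively near `0`.
-/

noncomputable section

set_option autoImplicit false

namespace Fermat.Agent.CurveTorsion

open Filter
open scoped Topology Classical

variable {V A : Type*} [NormedAddCommGroup V] [NormedSpace ℝ V] [AddCommGroup A]

/-- A map that is additive near `0` agrees near `0` with a homomorphism. -/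
theorem exists_hom_of_eventually_add (e : V → A)
    (he : ∀ᶠ p : V × V in 𝓝 0, e (p.1 + p.2) = e p.1 + e p.2) :
    ∃ Ψ : V →+ A, ∀ᶠ v in 𝓝 0, Ψ v = e v := by
  obtain ⟨δ, hδ, hball⟩ := Metric.eventually_nhds_iff.mp he
  have hadd : ∀ a b : V, ‖a‖ < δ → ‖b‖ < δ → e (a + b) = e a + e b := fun a b ha hb =>
    hball (y := (a, b)) (by simp [dist_eq_norm, Prod.norm_def, ha, hb])
  have h0 : e 0 = 0 := by simpa using hadd 0 0 (by simpa using hδ) (by simpa using hδ)
  have hnsmul : ∀ (n : ℕ) (x : V), (n : ℝ) * ‖x‖ < δ → e ((n : ℝ) • x) = n • e x := by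
    intro n
    induction n with
    | zero => intro x _; simp [h0]
    | succ n ih =>
      intro x hx
      push_cast at hx
      have h1 : 0 ≤ ‖x‖ := norm_nonneg x
      have h2 : (0 : ℝ) ≤ (n : ℝ) * ‖x‖ := by positivity
      have hn : ‖(n : ℝ) • x‖ < δ := by
        rw [norm_smul, Real.norm_natCast]; linarith
      push_cast
      rw [add_smul, one_smul, hadd _ _ hn (by linarith), ih x (by linarith), succ_nsmul]
  let N : V → ℕ := fun v => ⌊2 * ‖v‖ / δ⌋₊ + 1
  have hN : ∀ v (n : ℕ), N v ≤ n → ‖((n : ℝ)⁻¹) • v‖ < δ / 2 := by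
    intro v n hn
    have h1 : 2 * ‖v‖ / δ < (n : ℝ) :=
      (Nat.lt_floor_add_one _).trans_le (by exact_mod_cast hn)
    have h2 : (0 : ℝ) < n := lt_of_le_of_lt (by positivity) h1
    rw [norm_smul, norm_inv, Real.norm_natCast, inv_mul_lt_iff₀ h2]
    rw [div_lt_iff₀ hδ] at h1
    linarith
  let Ψ₀ : V → A := fun v => N v • e (((N v : ℕ) : ℝ)⁻¹ • v)
  have hwell : ∀ v (n : ℕ), N v ≤ n → Ψ₀ v = n • e ((n : ℝ)⁻¹ • v) := by
    intro v n hn
    have hm0 : (0 : ℝ) < (N v : ℕ) := by positivity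
    have hn0 : (0 : ℝ) < (n : ℕ) := lt_of_lt_of_le hm0 (by exact_mod_cast hn)
    have key : ∀ m k : ℕ, 0 < m → 0 < k → ‖((m : ℝ)⁻¹) • v‖ < δ →
        m • e ((m : ℝ)⁻¹ • v) = (m * k) • e (((m * k : ℕ) : ℝ)⁻¹ • v) := by
      intro m k hm hk hsmall
      have e1 : ((m : ℝ)⁻¹ • v) = (k : ℝ) • (((m * k : ℕ) : ℝ)⁻¹ • v) := by
        rw [smul_smul]; push_cast; congr 1; field_simp
      conv_lhs => rw [e1]
      rw [hnsmul k _ ?_, mul_smul]
      rw [e1, norm_smul, Real.norm_natCast] at hsmall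
      exact hsmall
    have h1 := key (N v) n (Nat.succ_pos _) (by exact_mod_cast hn0)
      ((hN v _ le_rfl).trans (by linarith))
    have h2 := key n (N v) (by exact_mod_cast hn0) (Nat.succ_pos _)
      ((hN v _ hn).trans (by linarith))
    rw [mul_comm n (N v)] at h2
    exact h1.trans h2.symm
  have hhom : ∀ v w, Ψ₀ (v + w) = Ψ₀ v + Ψ₀ w := by
    intro v w
    set n := N v + N w + N (v + w) with hn
    rw [hwell (v + w) n (by omega), hwell v n (by omega), hwell w n (by omega), smul_add,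
      hadd _ _ ((hN v n (by omega)).trans (by linarith)) ((hN w n (by omega)).trans (by linarith)),
      nsmul_add]
  refine ⟨AddMonoidHom.mk' Ψ₀ hhom, ?_⟩
  filter_upwards [Metric.ball_mem_nhds (0 : V) (half_pos hδ)] with v hv
  rw [mem_ball_zero_iff] at hv
  have h1 : N v = 1 := by
    have : 2 * ‖v‖ / δ < 1 := by rw [div_lt_one hδ]; linarith
    simp [N, Nat.floor_eq_zero.mpr this]
  simp [Ψ₀, h1]

/-- **Torsion of a torus.** If `Ψ : V → A` is a surjection with bounded section, injective near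
`0`, then `#A[n] = n ^ dim V`. -/
theorem natCard_torsion_of_cover [FiniteDimensional ℝ V] (Ψ : V →+ A) (R : ℝ)
    (hsurj : ∀ a : A, ∃ v, ‖v‖ ≤ R ∧ Ψ v = a) (hinj : ∀ᶠ v in 𝓝 0, Ψ v = 0 → v = 0)
    (n : ℕ) (hn : n ≠ 0) :
    Nat.card {a : A // (n : ℤ) • a = 0} = n ^ Module.finrank ℝ V := by
  let Λ : Submodule ℤ V := LinearMap.ker Ψ.toIntLinearMap
  have hΛ : ∀ v, v ∈ Λ ↔ Ψ v = 0 := fun v => LinearMap.mem_ker
  have : DiscreteTopology Λ := by
    obtain ⟨ε, hε, hball⟩ := Metric.eventually_nhds_iff.mp hinj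
    refine discreteTopology_iff_isOpen_singleton_zero.mpr ?_
    suffices h0 : ({0} : Set Λ) = Metric.ball (0 : Λ) ε by rw [h0]; exact Metric.isOpen_ball
    ext x
    refine ⟨fun h => ?_, fun h => Subtype.ext (hball ?_ ((hΛ _).mp x.2))⟩
    · simp [Set.mem_singleton_iff.mp h, hε]
    · simpa [Subtype.dist_eq] using h
  have hspan : Submodule.span ℝ (Λ : Set V) = ⊤ := by
    by_contra hne
    obtain ⟨f, hf0, hf⟩ := Submodule.exists_le_ker_of_lt_top _ (lt_top_iff_ne_top.mpr hne)
    obtain ⟨u, hu⟩ : ∃ u, f u = 1 := by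
      obtain ⟨x, hx⟩ : ∃ x, f x ≠ 0 := by
        by_contra h; push Not at h; exact hf0 (LinearMap.ext h)
      exact ⟨(f x)⁻¹ • x, by simp [hx]⟩
    set fc := LinearMap.toContinuousLinearMap f
    set t : ℝ := ‖fc‖ * R + 1
    obtain ⟨v, hv, hv2⟩ := hsurj (Ψ (t • u))
    have hmem : t • u - v ∈ Λ := (hΛ _).mpr (by rw [map_sub, hv2, sub_self])
    have h1 : f (t • u - v) = 0 := hf (Submodule.subset_span hmem)
    rw [map_sub, map_smul, hu, smul_eq_mul, mul_one, sub_eq_zero] at h1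
    have h2 := fc.le_opNorm v
    have h3 : |t| ≤ ‖fc‖ * R := by
      rw [h1, ← Real.norm_eq_abs]
      exact h2.trans (mul_le_mul_of_nonneg_left hv (norm_nonneg _))
    linarith [le_abs_self t]
  have : IsZLattice ℝ Λ := ⟨hspan⟩
  have := ZLattice.module_finite ℝ Λ
  have := ZLattice.module_free ℝ Λ
  let b := Module.Free.chooseBasis ℤ Λ
  let φ : Λ →+ A := Ψ.comp
    ((DistribSMul.toAddMonoidHom V ((n : ℝ)⁻¹)).comp Λ.subtype.toAddMonoidHom)
  have hφ : ∀ x : Λ, φ x = Ψ ((n : ℝ)⁻¹ • (x : V)) := fun _ => rfl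
  have hn' : (n : ℝ) ≠ 0 := by exact_mod_cast hn
  have hΨn : ∀ v, Ψ ((n : ℝ) • v) = (n : ℤ) • Ψ v := fun v => by
    rw [Nat.cast_smul_eq_nsmul ℝ, map_nsmul, natCast_zsmul]
  let π : Λ →+ (Module.Free.ChooseBasisIndex ℤ Λ → ZMod n) :=
    { toFun := fun x i => (b.repr x i : ℤ)
      map_zero' := by funext i; simp
      map_add' := fun x y => by funext i; simp }
  have hπ : Function.Surjective π := fun c =>
    ⟨b.equivFun.symm fun i => ((c i).val : ℤ), by
      funext i
      have : NeZero n := ⟨hn⟩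
      show ((b.repr (b.equivFun.symm fun i => ((c i).val : ℤ)) i : ℤ) : ZMod n) = c i
      rw [← Module.Basis.equivFun_apply, LinearEquiv.apply_symm_apply, Int.cast_natCast]
      exact ZMod.natCast_zmod_val _⟩
  have hker : φ.ker = π.ker := by
    ext x
    rw [AddMonoidHom.mem_ker, AddMonoidHom.mem_ker, hφ, ← hΛ]
    constructor
    · intro h
      have e : x = (n : ℤ) • (⟨_, h⟩ : Λ) := Subtype.ext <| by
        rw [Submodule.coe_smul, natCast_zsmul, ← Nat.cast_smul_eq_nsmul ℝ, smul_smul,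
          mul_inv_cancel₀ hn', one_smul]
      rw [e, map_zsmul]
      funext i
      simp
    · intro h
      have hd : ∀ i, (n : ℤ) ∣ b.repr x i := fun i =>
        (ZMod.intCast_zmod_eq_zero_iff_dvd _ _).mp (congrFun h i)
      choose c hc using hd
      have hx : x = (n : ℤ) • b.equivFun.symm c := b.equivFun.injective <| by
        rw [map_smul, LinearEquiv.apply_symm_apply]
        funext i
        simpa [Module.Basis.equivFun_apply] using hc i
      rw [hx, Submodule.coe_smul, natCast_zsmul, ← Nat.cast_smul_eq_nsmul ℝ, smul_smul,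
        inv_mul_cancel₀ hn', one_smul]
      exact (b.equivFun.symm c).2
  have hrange : ∀ a : A, a ∈ φ.range ↔ (n : ℤ) • a = 0 := by
    intro a
    constructor
    · rintro ⟨x, rfl⟩
      rw [hφ, ← hΨn, smul_smul, mul_inv_cancel₀ hn', one_smul]
      exact (hΛ _).mp x.2
    · intro h
      obtain ⟨v, -, rfl⟩ := hsurj a
      refine ⟨⟨(n : ℝ) • v, (hΛ _).mpr (by rw [hΨn, h])⟩, ?_⟩
      rw [hφ, smul_smul, inv_mul_cancel₀ hn', one_smul]
  calc Nat.card {a : A // (n : ℤ) • a = 0} = Nat.card φ.range :=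
        Nat.card_congr (Equiv.subtypeEquivRight fun a => (hrange a).symm)
    _ = Nat.card (Λ ⧸ φ.ker) :=
        (Nat.card_congr (QuotientAddGroup.quotientKerEquivRange φ).toEquiv).symm
    _ = Nat.card (Λ ⧸ π.ker) := by rw [hker]
    _ = Nat.card (Module.Free.ChooseBasisIndex ℤ Λ → ZMod n) :=
        Nat.card_congr (QuotientAddGroup.quotientKerEquivOfSurjective π hπ).toEquiv
    _ = n ^ Module.finrank ℝ V := by
        rw [Nat.card_fun, Nat.card_zmod, ← ZLattice.rank ℝ Λ,
          Module.finrank_eq_card_chooseBasisIndex, Nat.card_eq_fintype_card]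

end Fermat.Agent.CurveTorsion
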