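import Mathlib
import Fermat.Agent.CurveTorsion.ExpMap
import Fermat.Agent.CurveTorsion.Lattice

/-!
# `#Pic⁰[n] = n^{2g}` for function fields over `ℂ`

`natCard_torsion_complex`: the exponential map presents `Pic⁰` as a torus of real dimension `2g`.
-/

noncomputable section

set_option autoImplicit false

namespace Fermat.Agent.CurveTorsion

open AlgebraicCurve Filter
open Fermat.Agent.FF
open scoped Topology Classical

variable {F : Type*} [Field F] [Algebra ℂ F] [IsFunctionField ℂ F]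

/-- The exponential map is onto, from a bounded set. -/
theorem exists_bounded_preimage (Ψ : (Fin (genusFF ℂ F) → ℂ) →+ Pic0 ℂ F)
    (hΨ : ∀ᶠ v in 𝓝 0, Ψ v = expLoc F v) :
    ∃ R : ℝ, ∀ x : Pic0 ℂ F, ∃ v, ‖v‖ ≤ R ∧ Ψ v = x := by
  obtain ⟨P₀⟩ : Nonempty (Place ℂ F) := instNonemptyPlace
  let c : Place ℂ F → Pic0 ℂ F := fun v =>
    pic (Finsupp.single v (1 : ℤ) - Finsupp.single P₀ 1)
  have hdeg : ∀ v w : Place ℂ F,
      Divisor.degree (Finsupp.single v (1 : ℤ) - Finsupp.single w 1) = 0 := fun v w => by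
    simp [deg_eq_one]
  have hloc : ∀ P : Place ℂ F, ∃ U : Set (Place ℂ F), U ∈ 𝓝 P ∧ ∀ v ∈ U,
      ∃ w : Fin (genusFF ℂ F) → ℂ, ‖w‖ ≤ 1 ∧ c v = c P + Ψ w := by
    intro P
    set C := chartOf P
    have hlog : Tendsto C.log (𝓝 0) (𝓝 0) := by
      have := (C.analyticAt_log C.zero_mem_disc).continuousAt.tendsto
      rwa [C.log_zero] at this
    have hgood : ∀ᶠ z in 𝓝 (0 : ℂ), ‖C.log z‖ ≤ 1 ∧
        pic (Finsupp.single (C.pt z) (1 : ℤ) - Finsupp.single C.P 1) = Ψ (C.log z) := by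
      filter_upwards [hlog.eventually (Metric.closedBall_mem_nhds 0 one_pos), pic_pt_sub_eq C,
        hlog.eventually hΨ] with z h1 h2 h3
      exact ⟨by simpa using h1, by rw [h2, h3]⟩
    refine ⟨C.pt '' {z | ‖C.log z‖ ≤ 1 ∧
        pic (Finsupp.single (C.pt z) (1 : ℤ) - Finsupp.single C.P 1) = Ψ (C.log z)},
      by simpa [C, chartOf_P] using C.image_mem_nhds hgood, ?_⟩
    rintro _ ⟨z, ⟨hz1, hz2⟩, rfl⟩
    refine ⟨C.log z, hz1, ?_⟩
    simp only [c]
    rw [← hz2, ← pic_add (hdeg _ _) (hdeg _ _), show C.P = P from chartOf_P P]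
    congr 1
    abel
  choose U hU hUc using hloc
  -- connectedness: every `c v` is in the image
  let S : Set (Place ℂ F) := {v | c v ∈ Ψ.range}
  have hSmem : ∀ P, ∀ v ∈ U P, (v ∈ S ↔ P ∈ S) := fun P v hv => by
    obtain ⟨w, -, hw⟩ := hUc P v hv
    show c v ∈ Ψ.range ↔ c P ∈ Ψ.range
    rw [hw]
    exact Ψ.range.add_mem_cancel_right ⟨w, rfl⟩
  have hclopen : IsClopen S := by
    refine ⟨⟨isOpen_iff_mem_nhds.mpr fun P hP => ?_⟩, isOpen_iff_mem_nhds.mpr fun P hP => ?_⟩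
    · exact Filter.mem_of_superset (hU P) fun v hv h => hP ((hSmem P v hv).mp h)
    · exact Filter.mem_of_superset (hU P) fun v hv => (hSmem P v hv).mpr hP
  have hall := eq_univ_of_isClopen hclopen ⟨P₀, ⟨0, by simp [c, pic_zero]⟩⟩
  have ha : ∀ P, ∃ a, Ψ a = c P := fun P => (hall ▸ Set.mem_univ P : P ∈ S)
  choose a ha using ha
  -- compactness: with bounded preimages
  obtain ⟨T, hT⟩ := isCompact_univ.elim_nhds_subcover U fun P _ => hU P
  set M : ℝ := (∑ P ∈ T, ‖a P‖) + 1 with hM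
  have hbd : ∀ v, ∃ w, ‖w‖ ≤ M ∧ Ψ w = c v := by
    intro v
    obtain ⟨P, hPT, hv⟩ : ∃ P ∈ T, v ∈ U P := by simpa using hT.2 (Set.mem_univ v)
    obtain ⟨w, hw1, hw⟩ := hUc P v hv
    refine ⟨a P + w, (norm_add_le _ _).trans (add_le_add ?_ hw1), by rw [map_add, ha, hw]⟩
    exact Finset.single_le_sum (fun _ _ => norm_nonneg _) hPT
  choose b hb hbc using hbd
  refine ⟨(genusFF ℂ F) * M, fun x => ?_⟩
  obtain ⟨⟨D, hD0⟩, rfl⟩ := pic_surjective x
  rw [Divisor.mem_degZero] at hD0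
  have hell : 0 < ell (D + Finsupp.single P₀ ((genusFF ℂ F) : ℤ)) := by
    have := genus_riemann (D + Finsupp.single P₀ ((genusFF ℂ F) : ℤ))
    simp only [map_add, hD0, Divisor.degree_single, deg_eq_one, Nat.cast_one, mul_one] at this
    omega
  obtain ⟨f, hf, hf0⟩ :
      ∃ f ∈ riemannRochSpace (D + Finsupp.single P₀ ((genusFF ℂ F) : ℤ)), f ≠ 0 := by
    refine Submodule.exists_mem_ne_zero_of_ne_bot fun h => ?_
    rw [ell, h, finrank_bot] at hell
    exact lt_irrefl 0 hell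
  set E : Divisor ℂ F := divOf ℂ f + (D + Finsupp.single P₀ ((genusFF ℂ F) : ℤ))
  have hE0 : ∀ v, 0 ≤ E v := fun v => by
    have h := mem_riemannRochSpace.mp hf v
    rw [mem_ordGE_of_ne_zero v hf0] at h
    simp only [E, Finsupp.add_apply, divOf_apply] at h ⊢
    omega
  have hEdeg : ∑ v ∈ E.support, E v = ((genusFF ℂ F) : ℤ) := by
    have h : Divisor.degree E = ((genusFF ℂ F) : ℤ) := by simp [E, hD0, degree_divOf, deg_eq_one]
    rw [degree_eq_sum] at h
    simpa [deg_eq_one] using h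
  refine ⟨∑ v ∈ E.support, E v • b v, ?_, ?_⟩
  · refine (norm_sum_le _ _).trans ?_
    calc ∑ v ∈ E.support, ‖E v • b v‖ ≤ ∑ v ∈ E.support, (E v : ℝ) * M := by
          refine Finset.sum_le_sum fun v _ => (norm_zsmul_le _ _).trans ?_
          rw [Int.norm_eq_abs, abs_of_nonneg (show (0 : ℝ) ≤ E v by exact_mod_cast hE0 v)]
          exact mul_le_mul_of_nonneg_left (hb v) (by exact_mod_cast hE0 v)
      _ = (genusFF ℂ F) * M := by rw [← Finset.sum_mul, ← Int.cast_sum, hEdeg, Int.cast_natCast]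
  · simp only [map_sum, map_zsmul, hbc, c, Function.comp_apply]
    have hz : ∀ v, E v • pic (Finsupp.single v (1 : ℤ) - Finsupp.single P₀ 1) =
        pic (E v • (Finsupp.single v (1 : ℤ) - Finsupp.single P₀ 1 : Divisor ℂ F)) := by
      intro v
      obtain ⟨k, hk⟩ := Int.eq_ofNat_of_zero_le (hE0 v)
      rw [hk, natCast_zsmul, natCast_zsmul]
      have := pic_sum (Finset.range k) (fun _ => (Finsupp.single v (1 : ℤ) - Finsupp.single P₀ 1 :
        Divisor ℂ F)) fun _ _ => hdeg v P₀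
      rw [Finset.sum_const, Finset.sum_const, Finset.card_range] at this
      exact this.symm
    rw [Finset.sum_congr rfl fun v _ => hz v, ← pic_sum _ _ fun v _ => by
      rw [map_zsmul, hdeg, smul_zero]]
    refine pic_eq_of_principal (by
      rw [map_sum]; exact Finset.sum_eq_zero fun v _ => by rw [map_zsmul, hdeg, smul_zero]) hD0
      ⟨f, hf0, fun w => ?_⟩
    have hsum : (∑ v ∈ E.support, E v • (Finsupp.single v (1 : ℤ) - Finsupp.single P₀ 1) :
        Divisor ℂ F) = E - ((genusFF ℂ F) : ℤ) • Finsupp.single P₀ 1 := by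
      rw [← hEdeg, Finset.sum_smul]
      simp only [smul_sub, Finset.sum_sub_distrib]
      congr 1
      conv_rhs => rw [← Finsupp.sum_single E]
      exact Finset.sum_congr rfl fun v _ => by simp
    rw [hsum]
    simp [E]
    abel

/-- **The theorem over `ℂ`.** -/
theorem natCard_torsion_complex (n : ℕ) (hn : n ≠ 0) :
    Nat.card (Pic0.torsion ℂ F n) = n ^ (2 * genusFF ℂ F) := by
  obtain ⟨Ψ, hΨ⟩ := exists_hom_of_eventually_add (expLoc F) (expLoc_add (F := F))
  obtain ⟨R, hR⟩ := exists_bounded_preimage Ψ hΨ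
  have hinj : ∀ᶠ v in 𝓝 0, Ψ v = 0 → v = 0 := by
    filter_upwards [hΨ, expLoc_eq_zero (F := F)] with v h1 h2
    rwa [h1]
  have h := natCard_torsion_of_cover Ψ R hR hinj n hn
  have hfr : Module.finrank ℝ (Fin (genusFF ℂ F) → ℂ) = 2 * genusFF ℂ F := by
    rw [Module.finrank_pi_fintype ℝ]
    simp [mul_comm]
  rw [hfr] at h
  rw [← h]
  exact Nat.card_congr (Equiv.subtypeEquivRight fun x => Pic0.mem_torsion)

end Fermat.Agent.CurveTorsion
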