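import Mathlib
import Fermat.Agent.CurveTorsion.H1

/-!
# Extension of algebraically closed constant fields

`F` is generated by `K` and `F₀`, and some element of `F₀` is transcendental over `K`.
-/

noncomputable section

set_option autoImplicit false

namespace Fermat.Agent.CurveTorsion

open AlgebraicCurve Polynomial IntermediateField
open Fermat.Agent.FF
open scoped Classical

variable (K₀ F₀ K F : Type*) [Field K₀] [Field F₀] [Field K] [Field F] [Algebra K₀ F₀]
  [Algebra K₀ K] [Algebra K F] [Algebra F₀ F] [Algebra K₀ F] [IsScalarTower K₀ K F]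
  [IsScalarTower K₀ F₀ F]

/-- `F` is the constant field extension of `F₀` to `K`. -/
class IsConstExt : Prop where
  gen : IntermediateField.adjoin K (Set.range (algebraMap F₀ F)) = ⊤
  exists_transcendental : ∃ x : F₀, Transcendental K (algebraMap F₀ F x)

variable {K₀ F₀ K F}

theorem aeval_map_const (x : F₀) (p : K₀[X]) :
    aeval (algebraMap F₀ F x) (p.map (algebraMap K₀ K)) = algebraMap F₀ F (aeval x p) := by
  rw [aeval_map_algebraMap, aeval_algebraMap_apply]

/-- The embedding `K₀(x) → K(x)`. -/
def adjoinMap (x : F₀) : K₀⟮x⟯ →+* K⟮algebraMap F₀ F x⟯ :=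
  RingHom.codRestrict ((algebraMap F₀ F).comp (algebraMap K₀⟮x⟯ F₀)) K⟮algebraMap F₀ F x⟯
    fun z => by
      obtain ⟨r, s, hrs⟩ := (IntermediateField.mem_adjoin_simple_iff K₀ (z : F₀)).mp z.2
      show algebraMap F₀ F (z : F₀) ∈ _
      rw [hrs, map_div₀, ← aeval_map_const (K := K), ← aeval_map_const (K := K)]
      exact div_mem (algebra_adjoin_le_adjoin K _ (aeval_mem_adjoin_singleton K _))
        (algebra_adjoin_le_adjoin K _ (aeval_mem_adjoin_singleton K _))

theorem coe_adjoinMap (x : F₀) (z : K₀⟮x⟯) :
    ((adjoinMap (K := K) (F := F) x z : K⟮algebraMap F₀ F x⟯) : F) = algebraMap F₀ F (z : F₀) := rfl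

variable [IsFunctionField K₀ F₀] [hext : IsConstExt F₀ K F]

include hext in
theorem finite_adjoin_ext {f : F₀} (hf : Transcendental K₀ f) :
    Module.Finite K⟮algebraMap F₀ F f⟯ F ∧
      Module.finrank K⟮algebraMap F₀ F f⟯ F ≤ Module.finrank K₀⟮f⟯ F₀ := by
  have := finite_adjoin_simple hf
  set L := K⟮algebraMap F₀ F f⟯
  let b := Module.finBasis K₀⟮f⟯ F₀
  set W := Submodule.span L (Set.range fun i => algebraMap F₀ F (b i))
  have hW : ∀ z : F₀, algebraMap F₀ F z ∈ W := fun z => by
    rw [← b.sum_repr z, map_sum]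
    refine Submodule.sum_mem _ fun i _ => ?_
    rw [IntermediateField.smul_def, smul_eq_mul, map_mul, ← coe_adjoinMap (K := K)]
    exact Submodule.smul_mem _ (adjoinMap f (b.repr z i)) (Submodule.subset_span ⟨i, rfl⟩)
  set A : Subalgebra L F := Algebra.adjoin L (Set.range (algebraMap F₀ F))
  have hclosure : Submonoid.closure (Set.range (algebraMap F₀ F)) =
      MonoidHom.mrange (algebraMap F₀ F : F₀ →* F) := by
    refine le_antisymm (Submonoid.closure_le.mpr fun z hz => hz) ?_
    rintro _ ⟨z, rfl⟩
    exact Submonoid.subset_closure ⟨z, rfl⟩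
  have hAW : Subalgebra.toSubmodule A ≤ W := by
    rw [Algebra.adjoin_eq_span, hclosure, Submodule.span_le]
    rintro _ ⟨z, rfl⟩
    exact hW z
  have : Module.Finite L W := Module.Finite.span_of_finite L (Set.finite_range _)
  have : Module.Finite L (Subalgebra.toSubmodule A) := Submodule.finiteDimensional_of_le hAW
  have halg : ∀ s ∈ Set.range (algebraMap F₀ F), IsAlgebraic L s := fun s hs =>
    ((IsAlgebraic.of_finite L (⟨s, Algebra.subset_adjoin hs⟩ : A))).algHom A.val
  have htop : (A : Set F) = Set.univ := by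
    refine Set.eq_univ_of_forall fun z => ?_
    have h1 : z ∈ IntermediateField.adjoin K (Set.range (algebraMap F₀ F)) := by
      rw [hext.gen]; exact IntermediateField.mem_top
    have h2 : IntermediateField.adjoin K (Set.range (algebraMap F₀ F)) ≤
        (IntermediateField.adjoin L (Set.range (algebraMap F₀ F))).restrictScalars K :=
      IntermediateField.adjoin_le_iff.mpr fun w hw => IntermediateField.subset_adjoin L _ hw
    have h3 : z ∈ (IntermediateField.adjoin L (Set.range (algebraMap F₀ F))).toSubalgebra := h2 h1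
    rwa [IntermediateField.adjoin_toSubalgebra_of_isAlgebraic halg] at h3
  have hWtop : W = ⊤ := eq_top_iff.mpr fun z _ => hAW (by
    show z ∈ (A : Set F); rw [htop]; trivial)
  refine ⟨Module.Finite.of_fg_top (hWtop ▸ Submodule.fg_span (Set.finite_range _)), ?_⟩
  have := finrank_range_le_card (R := L) (fun i => algebraMap F₀ F (b i))
  rw [Fintype.card_fin, Set.finrank] at this
  change Module.finrank L W ≤ _ at this
  rwa [hWtop, finrank_top] at this

variable (K₀ F₀) in
include K₀ hext in
theorem isFunctionField_ext : IsFunctionField K F := by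
  obtain ⟨x, hx⟩ := hext.exists_transcendental
  have hx0 : Transcendental K₀ x := fun h =>
    hx ((h.algHom (IsScalarTower.toAlgHom K₀ F₀ F)).extendScalars (algebraMap K₀ K).injective)
  have := (finite_adjoin_ext (K := K) (F := F) hx0).1
  exact IsFunctionField.of_finite _ hx

/-- `w` lies over `v`: its valuation ring contracts to that of `v`. -/
def LiesOver (w : Place K F) (v : Place K₀ F₀) : Prop :=
  ∀ f : F₀, algebraMap F₀ F f ∈ ordGE w 0 ↔ f ∈ ordGE v 0

omit hext in
/-- A place of `F` where some element of `F₀` has a zero or pole lies over a place of `F₀`. -/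
theorem exists_liesOver {w : Place K F} {f : F₀} (hf : w.ord (algebraMap F₀ F f) ≠ 0) :
    ∃ v : Place K₀ F₀, LiesOver w v := by
  set A := w.toValuationSubring.comap (algebraMap F₀ F) with hA
  have hK : ∀ a : K₀, algebraMap K₀ F₀ a ∈ A := fun a => by
    rw [hA, ValuationSubring.mem_comap, ← IsScalarTower.algebraMap_apply,
      IsScalarTower.algebraMap_apply K₀ K F]
    exact w.algebraMap_mem' _
  refine ⟨⟨A, hK, fun h => ?_, isPrincipalIdealRing_valuationSubring_of_ne_top A hK⟩, fun g => ?_⟩
  · have hf0 : f ≠ 0 := fun h0 => hf (by simp [h0])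
    have h1 : algebraMap F₀ F f ∈ w.toValuationSubring :=
      ValuationSubring.mem_comap.mp (h ▸ ValuationSubring.mem_top f : f ∈ A)
    have h2 : algebraMap F₀ F f⁻¹ ∈ w.toValuationSubring :=
      ValuationSubring.mem_comap.mp (h ▸ ValuationSubring.mem_top f⁻¹ : f⁻¹ ∈ A)
    have e1 := ord_nonneg_of_mem w h1
    have e2 := ord_nonneg_of_mem w h2
    rw [map_inv₀, w.ord_inv] at e2
    exact hf (le_antisymm (by omega) e1)
  · rw [← mem_toValuationSubring_iff, ← mem_toValuationSubring_iff]
    exact ValuationSubring.mem_comap.symm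

namespace LiesOver

variable {w : Place K F} {v : Place K₀ F₀} (h : LiesOver w v)
include h

omit hext [IsFunctionField K₀ F₀] [Algebra K₀ K] [Algebra K₀ F] [IsScalarTower K₀ K F]
    [IsScalarTower K₀ F₀ F] in
theorem exists_ord_eq_mul :
    ∃ e : ℤ, 1 ≤ e ∧ ∀ f : F₀, w.ord (algebraMap F₀ F f) = e * v.ord f := by
  obtain ⟨t, ht0, ht⟩ := exists_uniformizer v
  have hunit : ∀ f : F₀, v.ord f = 0 → w.ord (algebraMap F₀ F f) = 0 := fun f hf => by
    rcases eq_or_ne f 0 with rfl | hf0
    · simp
    have h1 := (h f).mpr (mem_ordGE_of_le_ord v hf.ge)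
    have h2 := (h f⁻¹).mpr (mem_ordGE_of_le_ord v (by rw [v.ord_inv, hf]; rfl))
    have hne : algebraMap F₀ F f ≠ 0 := by simpa using hf0
    rw [map_inv₀] at h2
    rw [mem_ordGE_of_ne_zero w hne] at h1
    rw [mem_ordGE_of_ne_zero w (inv_ne_zero hne), w.ord_inv] at h2
    omega
  have htne : algebraMap F₀ F t ≠ 0 := by simpa using ht0
  have he : 1 ≤ w.ord (algebraMap F₀ F t) := by
    have h1 := (mem_ordGE_of_ne_zero w htne).mp ((h t).mpr (mem_ordGE_of_le_ord v (by omega)))
    have h2 : w.ord (algebraMap F₀ F t) ≠ 0 := fun h0 => by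
      have := (h t⁻¹).mp (by
        rw [map_inv₀]; exact mem_ordGE_of_le_ord w (by rw [w.ord_inv, h0]; rfl))
      rw [mem_ordGE_of_ne_zero v (inv_ne_zero ht0), v.ord_inv] at this
      omega
    omega
  refine ⟨_, he, fun f => ?_⟩
  rcases eq_or_ne f 0 with rfl | hf0
  · simp
  have hu : v.ord (f * t ^ (-(v.ord f))) = 0 := by
    rw [v.ord_mul hf0 (zpow_ne_zero _ ht0), v.ord_zpow, ht]
    ring
  have := hunit _ hu
  rw [map_mul, map_zpow₀, w.ord_mul (by simpa using hf0) (zpow_ne_zero _ htne), w.ord_zpow] at this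
  linarith

omit hext [IsFunctionField K₀ F₀] [Algebra K₀ K] [Algebra K₀ F] [IsScalarTower K₀ K F]
    [IsScalarTower K₀ F₀ F] in
theorem mem_ordGE_one {f : F₀} (hf : f ∈ ordGE v 1) : algebraMap F₀ F f ∈ ordGE w 1 := by
  obtain ⟨e, he, hord⟩ := h.exists_ord_eq_mul
  rcases (mem_ordGE v).mp hf with rfl | hf
  · simp
  · exact mem_ordGE_of_le_ord w (by rw [hord]; nlinarith)

omit hext in
theorem ev_eq [IsAlgClosed K₀] [IsAlgClosed K] [IsFunctionField K F] {f : F₀}
    (hf : f ∈ ordGE v 0) : ev w (algebraMap F₀ F f) = algebraMap K₀ K (ev v f) := by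
  refine ev_eq_of_sub_mem w ?_
  rw [← IsScalarTower.algebraMap_apply, IsScalarTower.algebraMap_apply K₀ F₀ F, ← map_sub]
  exact h.mem_ordGE_one (sub_ev_mem v hf)

omit hext [IsFunctionField K₀ F₀] [Algebra K₀ K] [Algebra K₀ F] [IsScalarTower K₀ K F]
    [IsScalarTower K₀ F₀ F] in
theorem unique {v' : Place K₀ F₀} (h' : LiesOver w v') : v = v' := by
  refine Place.ext (SetLike.ext fun f => ?_)
  rw [mem_toValuationSubring_iff, mem_toValuationSubring_iff, ← h f, ← h' f]

end LiesOver

variable [IsAlgClosed K₀] [IsAlgClosed K]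

omit [IsAlgClosed K] in
include hext in
/-- Infinitely many places of `F₀` lie below places of `F`. -/
theorem infinite_setOf_liesOver [IsFunctionField K F] :
    Set.Infinite {v : Place K₀ F₀ | ∃ w : Place K F, LiesOver w v} := by
  obtain ⟨x, hx⟩ := hext.exists_transcendental
  have htr : ∀ a : K₀, Transcendental K (algebraMap F₀ F (x - algebraMap K₀ F₀ a)) := fun a h => by
    rw [map_sub, ← IsScalarTower.algebraMap_apply, IsScalarTower.algebraMap_apply K₀ K F] at h
    exact hx (by simpa using h.add (isAlgebraic_algebraMap (algebraMap K₀ K a)))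
  choose w hw using fun a : K₀ => exists_place_ord_pos (htr a)
  choose v hv using fun a : K₀ => exists_liesOver (K₀ := K₀) (hw a).ne'
  refine Set.Infinite.mono (s := Set.range v) ?_ (Set.infinite_range_of_injective fun a b hab => ?_)
  · rintro _ ⟨a, rfl⟩; exact ⟨w a, hv a⟩
  have hpos : ∀ c, x - algebraMap K₀ F₀ c ∈ ordGE (v c) 1 := fun c => by
    obtain ⟨e, he, hord⟩ := (hv c).exists_ord_eq_mul
    refine mem_ordGE_of_le_ord _ ?_
    have := hw c
    rw [hord] at this
    by_contra hlt
    nlinarith
  by_contra hne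
  have h4 := sub_mem (hab ▸ hpos a : x - algebraMap K₀ F₀ a ∈ ordGE (v b) 1) (hpos b)
  rw [sub_sub_sub_cancel_left, ← map_sub, const_mem_ordGE_one_iff, sub_eq_zero] at h4
  exact hne h4.symm

include hext in
/-- **Linear disjointness.** -/
theorem linearIndependent_algebraMap [IsFunctionField K F] {ι : Type*} [Finite ι] {g : ι → F₀}
    (hg : LinearIndependent K₀ g) : LinearIndependent K fun i => algebraMap F₀ F (g i) := by
  have := Fintype.ofFinite ι
  rw [Fintype.linearIndependent_iff]
  intro c hc i
  by_contra hci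
  obtain ⟨π, hπ⟩ : ∃ π : K →ₗ[K₀] K₀, π (c i) ≠ 0 := by
    by_contra h
    push Not at h
    exact hci ((Module.forall_dual_apply_eq_zero_iff K₀ (c i)).mp h)
  let comb : F₀ := ∑ j, π (c j) • g j
  have hzero : comb = 0 := by
    by_contra hne
    have hfin : {v : Place K₀ F₀ | ∃ j, g j ∉ ordGE v 0}.Finite := by
      refine (Set.finite_iUnion fun j => finite_setOf_ord_neg (K := K₀) (g j)).subset ?_
      rintro v ⟨j, hj⟩
      simp only [mem_ordGE, not_or, not_le] at hj
      exact Set.mem_iUnion.mpr ⟨j, hj.2⟩
    obtain ⟨v, ⟨w, hw⟩, hgood⟩ := ((infinite_setOf_liesOver (K := K) (F := F)).sdiff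
      (hfin.union (finite_setOf_ord_pos (K := K₀) comb))).nonempty
    simp only [Set.mem_union, Set.mem_ofPred_eq, not_or, not_exists, not_not] at hgood
    obtain ⟨hreg, hpos⟩ := hgood
    have hcomb : comb ∈ ordGE v 0 := Submodule.sum_mem _ fun j _ =>
      Submodule.smul_mem _ _ (hreg j)
    refine hpos (Int.lt_of_add_one_le ?_)
    rw [zero_add, ← mem_ordGE_of_ne_zero v hne, ← ev_eq_zero_iff v hcomb,
      ev_sum (v := v) _ fun j _ => Submodule.smul_mem _ _ (hreg j)]
    have h0 : ∑ j, ev v (g j) • c j = 0 := by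
      have := congrArg (ev w) hc
      rw [ev_zero,
        ev_sum (v := w) _ fun j _ => Submodule.smul_mem _ _ ((hw (g j)).mpr (hreg j))] at this
      rw [← this]
      refine Finset.sum_congr rfl fun j _ => ?_
      rw [ev_smul w _ ((hw (g j)).mpr (hreg j)), hw.ev_eq (hreg j), Algebra.smul_def, mul_comm]
    have h1 := congrArg π h0
    rw [map_sum, map_zero] at h1
    rw [← h1]
    refine Finset.sum_congr rfl fun j _ => ?_
    rw [ev_smul v _ (hreg j), map_smul, smul_eq_mul, mul_comm]
  exact hπ (Fintype.linearIndependent_iff.mp hg _ hzero i)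

include hext in
theorem transcendental_ext [IsFunctionField K F] {f : F₀} (hf : Transcendental K₀ f) :
    Transcendental K (algebraMap F₀ F f) := by
  rw [transcendental_iff]
  intro p hp
  have hli : LinearIndependent K₀ fun i : Fin (p.natDegree + 1) => f ^ (i : ℕ) := by
    rw [Fintype.linearIndependent_iff]
    intro d hd i
    have h0 : aeval f (∑ i : Fin (p.natDegree + 1), monomial (i : ℕ) (d i)) = 0 := by
      simpa [Algebra.smul_def, aeval_monomial] using hd
    have := congrArg (fun r : K₀[X] => r.coeff i) (transcendental_iff.mp hf _ h0)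
    simpa [coeff_monomial, Fin.val_inj, Finset.sum_ite_eq'] using this
  have h := Fintype.linearIndependent_iff.mp (linearIndependent_algebraMap (K := K) (F := F) hli)
    (fun i => p.coeff i) (by
      rw [aeval_eq_sum_range] at hp
      simpa [← Fin.sum_univ_eq_sum_range, Algebra.smul_def] using hp)
  refine Polynomial.ext fun i => ?_
  rcases lt_or_ge i (p.natDegree + 1) with hi | hi
  · simpa using h ⟨i, hi⟩
  · simp [coeff_eq_zero_of_natDegree_lt (show p.natDegree < i by omega)]

include hext in
theorem finrank_ext [IsFunctionField K F] {f : F₀} (hf : Transcendental K₀ f) :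
    Module.finrank K⟮algebraMap F₀ F f⟯ F = Module.finrank K₀⟮f⟯ F₀ := by
  refine le_antisymm (finite_adjoin_ext hf).2 ?_
  have := finite_adjoin_simple hf
  have := (finite_adjoin_ext (K := K) (F := F) hf).1
  set n := Module.finrank K₀⟮f⟯ F₀
  let b := Module.finBasis K₀⟮f⟯ F₀
  have hli : LinearIndependent K⟮algebraMap F₀ F f⟯ fun i => algebraMap F₀ F (b i) := by
    refine linearIndependent_adjoin_of_poly fun p hp => ?_
    set N := (Finset.univ.sup fun i => (p i).natDegree) + 1
    have hpow : LinearIndependent K₀ fun a : Fin N =>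
        (⟨f ^ (a : ℕ), pow_mem (mem_adjoin_simple_self K₀ f) _⟩ : K₀⟮f⟯) := by
      refine LinearIndependent.of_comp (K₀⟮f⟯.val.toLinearMap) ?_
      rw [Fintype.linearIndependent_iff]
      intro d hd a
      have h0 : aeval f (∑ a : Fin N, monomial (a : ℕ) (d a)) = 0 := by
        simpa [Algebra.smul_def, aeval_monomial] using hd
      have := congrArg (fun r : K₀[X] => r.coeff a) (transcendental_iff.mp hf _ h0)
      simpa [coeff_monomial, Fin.val_inj, Finset.sum_ite_eq'] using this
    have hsmul := linearIndependent_smul hpow b.linearIndependent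
    have h := Fintype.linearIndependent_iff.mp
      (linearIndependent_algebraMap (K := K) (F := F) hsmul) (fun q => (p q.2).coeff q.1) (by
        rw [Fintype.sum_prod_type, Finset.sum_comm, ← hp]
        refine Finset.sum_congr rfl fun i _ => ?_
        rw [aeval_eq_sum_range' (n := N) (Nat.lt_succ_of_le
          (Finset.le_sup (f := fun i => (p i).natDegree) (Finset.mem_univ i))),
          ← Fin.sum_univ_eq_sum_range, Finset.sum_mul]
        refine Finset.sum_congr rfl fun a _ => ?_
        rw [IntermediateField.smul_def, smul_eq_mul, map_mul, map_pow, Algebra.smul_mul_assoc])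
    intro i
    refine Polynomial.ext fun a => ?_
    rcases lt_or_ge a N with ha | ha
    · simpa using h (⟨a, ha⟩, i)
    · have := Finset.le_sup (f := fun i => (p i).natDegree) (Finset.mem_univ i)
      simp [coeff_eq_zero_of_natDegree_lt (show (p i).natDegree < a by omega)]
  simpa using hli.fintype_card_le_finrank

/-! ### The extension of a place -/

include hext in
/-- **A place of `F₀` has exactly one extension to `F`, unramified.** -/
theorem exists_place_ext [IsFunctionField K F] (v : Place K₀ F₀) :
    ∃ w : Place K F, (∀ w' : Place K F, LiesOver w' v ↔ w' = w) ∧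
      ∀ f : F₀, w.ord (algebraMap F₀ F f) = v.ord f := by
  obtain ⟨f, hfv, hf⟩ := exists_ord_neg_unique (K := K₀) v
  have hftr : Transcendental K₀ f := transcendental_of_isPole v hfv
  have hFtr : Transcendental K (algebraMap F₀ F f) := transcendental_ext hftr
  set P := (finite_setOf_ord_neg (K := K) (algebraMap F₀ F f)).toFinset
  have hover : ∀ w : Place K F, w ∈ P ↔ LiesOver w v := by
    intro w
    simp only [P, Set.Finite.mem_toFinset, Set.mem_ofPred_eq]
    constructor
    · intro hw
      obtain ⟨v', hv'⟩ := exists_liesOver (K₀ := K₀) hw.ne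
      obtain ⟨e, he, hord⟩ := hv'.exists_ord_eq_mul
      have : v'.ord f < 0 := by
        rw [hord] at hw
        by_contra h0
        nlinarith
      obtain rfl : v' = v := of_not_not fun hne => absurd (hf v' hne) (not_le.mpr this)
      exact hv'
    · intro hw
      obtain ⟨e, he, hord⟩ := hw.exists_ord_eq_mul
      rw [hord]
      nlinarith
  have hpd0 : poleDiv K₀ f = Finsupp.single v (-v.ord f) := Finsupp.ext fun u => by
    rw [poleDiv_apply]
    rcases eq_or_ne u v with rfl | hne
    · rw [Finsupp.single_eq_same, max_eq_left (by omega)]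
    · rw [Finsupp.single_eq_of_ne hne, max_eq_right (by have := hf u hne; omega)]
  have hdeg : Divisor.degree (poleDiv K (algebraMap F₀ F f)) = -v.ord f := by
    rw [degree_poleDiv hFtr, finrank_ext hftr, ← degree_poleDiv hftr, hpd0, Divisor.degree_single,
      deg_eq_one, Nat.cast_one, mul_one]
  have hsum : Divisor.degree (poleDiv K (algebraMap F₀ F f)) =
      ∑ w ∈ P, -w.ord (algebraMap F₀ F f) := by
    rw [degree_eq_sum]
    refine (Finset.sum_congr ?_ fun w hw => ?_).trans rfl
    · ext w
      simp [P, poleDiv_apply]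
    · rw [deg_eq_one, Nat.cast_one, mul_one, poleDiv_apply, max_eq_left]
      have : w.ord (algebraMap F₀ F f) < 0 := by simpa [P] using hw
      omega
  have hne : P.Nonempty := by
    obtain ⟨w, hw⟩ := exists_place_ord_neg hFtr
    exact ⟨w, by simpa [P] using hw⟩
  obtain ⟨w, hw⟩ := hne
  obtain ⟨e, he, hord⟩ := ((hover w).mp hw).exists_ord_eq_mul
  have hterm : ∀ u ∈ P, -v.ord f ≤ -u.ord (algebraMap F₀ F f) := fun u hu => by
    obtain ⟨e', he', hord'⟩ := ((hover u).mp hu).exists_ord_eq_mul
    rw [hord']
    nlinarith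
  have huniq : ∀ u ∈ P, u = w := by
    intro u hu
    by_contra hne
    have h2 := Finset.sum_le_sum_of_subset_of_nonneg
      (f := fun u : Place K F => -u.ord (algebraMap F₀ F f))
      (show ({u, w} : Finset (Place K F)) ⊆ P by simp [Finset.insert_subset_iff, hu, hw])
      fun x hx _ => by have := hterm x hx; omega
    rw [Finset.sum_pair hne, ← hsum, hdeg] at h2
    have := hterm u hu
    have := hterm w hw
    omega
  have hP : P = {w} := Finset.eq_singleton_iff_unique_mem.mpr ⟨hw, huniq⟩
  have he1 : e = 1 := by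
    rw [hP, Finset.sum_singleton, hdeg, hord] at hsum
    have h0 : (e - 1) * v.ord f = 0 := by linarith
    rcases mul_eq_zero.mp h0 with h | h <;> omega
  refine ⟨w, fun w' => ?_, fun g => by rw [hord, he1, one_mul]⟩
  rw [← hover, hP, Finset.mem_singleton]

variable (K F) [IsFunctionField K F]

/-- The unique place above a place of `F₀`. -/
def extPlace (v : Place K₀ F₀) : Place K F :=
  (exists_place_ext (K := K) (F := F) v).choose

variable {K F}

include hext in
theorem liesOver_iff {w : Place K F} {v : Place K₀ F₀} : LiesOver w v ↔ w = extPlace K F v :=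
  (exists_place_ext (K := K) (F := F) v).choose_spec.1 w

include hext in
theorem liesOver_extPlace (v : Place K₀ F₀) : LiesOver (extPlace K F v) v := liesOver_iff.mpr rfl

include hext in
theorem ord_extPlace (v : Place K₀ F₀) (f : F₀) :
    (extPlace K F v).ord (algebraMap F₀ F f) = v.ord f :=
  (exists_place_ext (K := K) (F := F) v).choose_spec.2 f

include hext in
theorem mem_ordGE_extPlace {v : Place K₀ F₀} {f : F₀} {n : ℤ} :
    algebraMap F₀ F f ∈ ordGE (extPlace K F v) n ↔ f ∈ ordGE v n := by
  simp [mem_ordGE, ord_extPlace]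

include hext in
theorem extPlace_injective :
    Function.Injective (extPlace K F : Place K₀ F₀ → Place K F) := fun v _ h =>
  (liesOver_extPlace (K := K) (F := F) v).unique (h ▸ liesOver_extPlace _)

include hext in
theorem exists_extPlace_of_ord_ne {w : Place K F} {f : F₀}
    (hf : w.ord (algebraMap F₀ F f) ≠ 0) : ∃ v : Place K₀ F₀, extPlace K F v = w := by
  obtain ⟨v, hv⟩ := exists_liesOver (K₀ := K₀) hf
  exact ⟨v, (liesOver_iff.mp hv).symm⟩

/-- Extension of divisors. -/
def extDiv : Divisor K₀ F₀ →+ Divisor K F :=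
  Finsupp.mapDomain.addMonoidHom (extPlace K F)

include hext in
theorem extDiv_apply (D : Divisor K₀ F₀) (v : Place K₀ F₀) :
    extDiv (K := K) (F := F) D (extPlace K F v) = D v :=
  Finsupp.mapDomain_apply extPlace_injective D v

include hext in
theorem extDiv_apply_of_notMem (D : Divisor K₀ F₀) {w : Place K F}
    (hw : ∀ v : Place K₀ F₀, extPlace K F v ≠ w) : extDiv (K := K) (F := F) D w = 0 :=
  Finsupp.mapDomain_of_notMem_range _ _ fun ⟨v, hv⟩ => hw v hv

include hext in
theorem degree_extDiv (D : Divisor K₀ F₀) :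
    Divisor.degree (extDiv (K := K) (F := F) D) = Divisor.degree D := by
  induction D using Finsupp.induction with
  | zero => simp
  | single_add v n D _ _ ih =>
    rw [map_add, map_add, map_add, ih]
    congr 1
    show Divisor.degree (Finsupp.mapDomain _ _) = _
    rw [Finsupp.mapDomain_single, Divisor.degree_single, Divisor.degree_single, deg_eq_one,
      deg_eq_one]

include hext in
/-- The divisor of an element of `F₀` extends. -/
theorem ord_algebraMap_eq_extDiv {D : Divisor K₀ F₀} {f : F₀} (hD : ∀ v, D v = v.ord f)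
    (w : Place K F) : extDiv (K := K) (F := F) D w = w.ord (algebraMap F₀ F f) := by
  by_cases h : ∃ v : Place K₀ F₀, extPlace K F v = w
  · obtain ⟨v, rfl⟩ := h
    rw [extDiv_apply, ord_extPlace, hD]
  · push Not at h
    rw [extDiv_apply_of_notMem D h]
    by_contra hne
    obtain ⟨v, hv⟩ := exists_extPlace_of_ord_ne (K₀ := K₀) (Ne.symm hne)
    exact h v hv

end Fermat.Agent.CurveTorsion
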