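import Mathlib

/-!
# Algebraically closed fields: automorphisms and embeddings

Inputs of the descent from an algebraically closed field of characteristic zero to a countable
one, and of the embedding of the latter in `ℂ`.
-/

noncomputable section

set_option autoImplicit false

namespace Fermat.Agent.CurveTorsion

open Cardinal

/-- Outside an algebraically closed subfield every element is moved by some automorphism. -/
theorem exists_algEquiv_apply_ne {K0 K : Type*} [Field K0] [Field K] [Algebra K0 K]
    [IsAlgClosed K0] [IsAlgClosed K] {a : K} (ha : a ∉ (algebraMap K0 K).range) :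
    ∃ σ : K ≃ₐ[K0] K, σ a ≠ a := by
  classical
  have htr : Transcendental K0 a := fun halg => by
    obtain ⟨c, hc⟩ := minpoly.mem_range_of_degree_eq_one K0 a
      (IsAlgClosed.degree_eq_one_of_irreducible K0 (minpoly.irreducible halg.isIntegral))
    exact ha ⟨c, hc⟩
  have hs : AlgebraicIndepOn K0 id ({a} : Set K) := by
    have : AlgebraicIndependent K0 (fun _ : ({a} : Set K) => a) :=
      algebraicIndependent_unique_type_iff.mpr htr
    convert this using 1
    funext x
    exact x.2
  obtain ⟨B, hB, hbasis⟩ := exists_isTranscendenceBasis_superset hs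
  set i : B := ⟨a, hB rfl⟩
  let v : B → K := Subtype.val
  let shift : MvPolynomial B K0 →ₐ[K0] MvPolynomial B K0 :=
    MvPolynomial.aeval fun j => MvPolynomial.X j + if j = i then 1 else 0
  let unshift : MvPolynomial B K0 →ₐ[K0] MvPolynomial B K0 :=
    MvPolynomial.aeval fun j => MvPolynomial.X j - if j = i then 1 else 0
  let e0 : MvPolynomial B K0 ≃ₐ[K0] MvPolynomial B K0 := AlgEquiv.ofAlgHom shift unshift
    (by
      refine MvPolynomial.algHom_ext fun j => ?_
      by_cases h : j = i <;> simp [shift, unshift, h])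
    (by
      refine MvPolynomial.algHom_ext fun j => ?_
      by_cases h : j = i <;> simp [shift, unshift, h])
  let e : Algebra.adjoin K0 (Set.range v) ≃ₐ[K0] Algebra.adjoin K0 (Set.range v) :=
    hbasis.1.aevalEquiv.symm.trans (e0.trans hbasis.1.aevalEquiv)
  let := IsAlgClosed.isAlgClosure_of_transcendence_basis v hbasis
  let σ : K ≃+* K := IsAlgClosure.equivOfEquiv K K e.toRingEquiv
  have hσ : ∀ x : Algebra.adjoin K0 (Set.range v), σ (x : K) = (e x : K) := fun x =>
    IsAlgClosure.equivOfEquiv_algebraMap K K e.toRingEquiv x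
  have hcoe : ∀ p : MvPolynomial B K0,
      ((hbasis.1.aevalEquiv p : Algebra.adjoin K0 (Set.range v)) : K) = MvPolynomial.aeval v p :=
    fun p => hbasis.1.algebraMap_aevalEquiv p
  refine ⟨AlgEquiv.ofRingEquiv (f := σ) fun c => ?_, ?_⟩
  · have := hσ (algebraMap K0 _ c)
    rw [e.commutes] at this
    exact this
  · have h1 : hbasis.1.aevalEquiv.symm ⟨a, Algebra.subset_adjoin ⟨i, rfl⟩⟩ = MvPolynomial.X i := by
      rw [AlgEquiv.symm_apply_eq]
      apply Subtype.ext
      rw [hcoe]
      simp [v, i]
    have h2 : σ a = a + 1 := by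
      have := hσ ⟨a, Algebra.subset_adjoin ⟨i, rfl⟩⟩
      simp only [e, AlgEquiv.trans_apply, h1] at this
      rw [this, hcoe]
      simp [e0, shift, v, i]
    show σ a ≠ a
    rw [h2]
    simp

/-- A countable field of characteristic zero embeds in `ℂ`. -/
theorem nonempty_ringHom_complex (K0 : Type*) [Field K0] [CharZero K0] [Countable K0] :
    Nonempty (K0 →+* ℂ) := by
  obtain ⟨s, hs⟩ := exists_isTranscendenceBasis ℤ K0
  obtain ⟨t, ht⟩ := exists_isTranscendenceBasis ℤ ℂ
  have hC : ℵ₀ < #ℂ := by
    rw [Cardinal.mk_complex]; exact aleph0_lt_continuum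
  have ht' := IsAlgClosed.cardinal_eq_cardinal_transcendence_basis_of_aleph0_lt' _ ht
    (le_of_eq Cardinal.mk_int) hC
  obtain ⟨f⟩ : Nonempty (s ↪ t) := by
    exact Cardinal.lift_mk_le'.mp (le_trans (Cardinal.lift_le_aleph0.mpr Cardinal.mk_le_aleph0)
      (Cardinal.aleph0_le_lift.mpr (ht' ▸ hC.le)))
  have hu : AlgebraicIndependent ℤ (fun x => ((f x : t) : ℂ)) := ht.1.comp f f.injective
  let ψ : Algebra.adjoin ℤ (Set.range (Subtype.val : s → K0)) →ₐ[ℤ] ℂ :=
    (MvPolynomial.aeval fun x => ((f x : t) : ℂ)).comp hs.1.aevalEquiv.symm.toAlgHom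
  have hψ : Function.Injective ψ := fun x y h =>
    hs.1.aevalEquiv.symm.injective (algebraicIndependent_iff_injective_aeval.mp hu h)
  let := ψ.toRingHom.toAlgebra
  have : Module.IsTorsionFree (Algebra.adjoin ℤ (Set.range (Subtype.val : s → K0))) ℂ :=
    Module.IsTorsionFree.of_smul_eq_zero fun r x h => by
      rcases mul_eq_zero.mp (show ψ r * x = 0 from h) with h | h
      · exact Or.inl (hψ (h.trans (map_zero ψ).symm))
      · exact Or.inr h
  have := hs.isAlgebraic
  exact ⟨(IsAlgClosed.lift :
    K0 →ₐ[Algebra.adjoin ℤ (Set.range (Subtype.val : s → K0))] ℂ).toRingHom⟩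

/-- Finitely many elements lie in a countable algebraically closed subfield. -/
theorem exists_countable_algClosed {K : Type*} [Field K] [CharZero K] [IsAlgClosed K]
    (S : Finset K) :
    ∃ K0 : Subfield K, Countable K0 ∧ IsAlgClosed K0 ∧ ∀ a ∈ S, a ∈ K0 := by
  let M := IntermediateField.adjoin ℚ (S : Set K)
  let A := algebraicClosure M K
  have hcA : Countable A := by
    have hM : #M ≤ ℵ₀ := by
      have := IntermediateField.lift_cardinalMk_adjoin_le ℚ (S : Set K)
      refine Cardinal.lift_le_aleph0.mp (this.trans ?_)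
      simp
    have : Algebra.IsAlgebraic M A := algebraicClosure.isAlgebraic M K
    exact Cardinal.mk_le_aleph0_iff.mp ((Algebra.IsAlgebraic.cardinalMk_le_max M A).trans
      (max_le hM le_rfl))
  have : IsAlgClosure M A := algebraicClosure.isAlgClosure M K
  refine ⟨A.toSubfield, hcA, IsAlgClosure.isAlgClosed M (K := A), fun a ha => ?_⟩
  exact A.algebraMap_mem ⟨a, IntermediateField.subset_adjoin ℚ _ ha⟩

end Fermat.Agent.CurveTorsion
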