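import Mathlib
import Fermat.Prelude.Def_AlgebraicCurve_BaseChangeGalois
import Fermat.Agent.CurveTorsion.ConstExt
import Fermat.Agent.CurveTorsion.ExpMap
import Fermat.Agent.CurveTorsion.Fields
import Fermat.Agent.FF.RepartitionH1

/-!
# Galois action on a constant extension; invariance of `ℓ(D)`, the genus and `Pic⁰`

Automorphisms of `K` lift to semilinear automorphisms of `F` fixing `F₀`.  From this:
`ell_extDiv`, `genus_ext` and `picExt_injective`.
-/

noncomputable section

set_option autoImplicit false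

namespace Fermat.Agent.CurveTorsion

open AlgebraicCurve Polynomial IntermediateField
open Fermat.Agent.FF
open scoped Classical TensorProduct Pointwise

variable {K₀ F₀ K F : Type*} [Field K₀] [Field F₀] [Field K] [Field F] [Algebra K₀ F₀]
  [Algebra K₀ K] [Algebra K F] [Algebra F₀ F] [Algebra K₀ F] [IsScalarTower K₀ K F]
  [IsScalarTower K₀ F₀ F] [IsAlgClosed K₀] [IsAlgClosed K] [IsFunctionField K₀ F₀]
  [IsFunctionField K F] [hext : IsConstExt F₀ K F]

/-- `K ⊗ F₀ → F`. -/
def tensorMap : K ⊗[K₀] F₀ →ₐ[K] F :=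
  Algebra.TensorProduct.lift (Algebra.ofId K F) (IsScalarTower.toAlgHom K₀ F₀ F)
    fun _ _ => Commute.all _ _

omit [IsAlgClosed K₀] [IsAlgClosed K] [IsFunctionField K₀ F₀] [IsFunctionField K F] hext in
theorem tensorMap_tmul (c : K) (f : F₀) :
    tensorMap (K₀ := K₀) (F := F) (c ⊗ₜ f) = algebraMap K F c * algebraMap F₀ F f := by
  simp [tensorMap, Algebra.TensorProduct.lift_tmul, Algebra.ofId_apply]

include hext in
theorem tensorMap_injective :
    Function.Injective (tensorMap (K₀ := K₀) (F₀ := F₀) (K := K) (F := F)) := by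
  let β := Module.Free.chooseBasis K₀ F₀
  let B := Algebra.TensorProduct.basis K β
  have hli : LinearIndependent K fun i => algebraMap F₀ F (β i) := by
    rw [linearIndependent_iff']
    intro s c hc i hi
    exact Fintype.linearIndependent_iff.mp
      (linearIndependent_algebraMap (K₀ := K₀) (K := K) (F := F)
        (β.linearIndependent.comp (fun j : s => (j : Module.Free.ChooseBasisIndex K₀ F₀))
          Subtype.val_injective))
      (fun j => c j)
      (by rw [← hc]; exact Finset.sum_coe_sort s fun j => c j • algebraMap F₀ F (β j))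
      ⟨i, hi⟩
  rw [injective_iff_map_eq_zero]
  intro z hz
  rw [← B.linearCombination_repr z] at hz ⊢
  rw [← AlgHom.toLinearMap_apply, Finsupp.apply_linearCombination,
    show (⇑(tensorMap (K₀ := K₀) (F₀ := F₀) (K := K) (F := F)).toLinearMap ∘ ⇑B) =
      fun i => algebraMap F₀ F (β i) from funext fun i => by simp [B, tensorMap_tmul]] at hz
  rw [linearIndependent_iff.mp hli _ hz, map_zero]

include hext in
theorem exists_semilinearAut (σ : K ≃ₐ[K₀] K) :
    ∃ g : SemilinearAut K F, (∀ f : F₀, g • algebraMap F₀ F f = algebraMap F₀ F f) ∧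
      ∀ c : K, SemilinearAut.baseAut g c = σ c := by
  let Φ := tensorMap (K₀ := K₀) (F₀ := F₀) (K := K) (F := F)
  let : Algebra (K ⊗[K₀] F₀) F := Φ.toRingHom.toAlgebra
  have hΦ : Function.Injective Φ := tensorMap_injective
  have : FaithfulSMul (K ⊗[K₀] F₀) F := (faithfulSMul_iff_algebraMap_injective _ _).mpr hΦ
  have : IsFractionRing (K ⊗[K₀] F₀) F := IsFractionRing.of_field (K ⊗[K₀] F₀) F fun z => by
    have hle : Algebra.adjoin K (Set.range (algebraMap F₀ F)) ≤ Φ.range :=
      Algebra.adjoin_le fun _ ⟨f, hf⟩ => ⟨1 ⊗ₜ f, by simp [Φ, tensorMap_tmul, ← hf]⟩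
    obtain ⟨r, hr, s, hs, hrs⟩ := IntermediateField.mem_adjoin_iff_div.mp
      (show z ∈ IntermediateField.adjoin K (Set.range (algebraMap F₀ F)) by
        rw [hext.gen]; exact IntermediateField.mem_top)
    obtain ⟨a, ha⟩ := hle hr
    obtain ⟨b, hb⟩ := hle hs
    exact ⟨a, b, by rw [hrs, ← ha, ← hb]; rfl⟩
  let e : K ⊗[K₀] F₀ ≃ₐ[K₀] K ⊗[K₀] F₀ := Algebra.TensorProduct.congr σ AlgEquiv.refl
  let σF : F ≃+* F := IsFractionRing.ringEquivOfRingEquiv (K := F) (L := F) e.toRingEquiv
  have hσF : ∀ (c : K) (f : F₀), σF (algebraMap K F c * algebraMap F₀ F f) =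
      algebraMap K F (σ c) * algebraMap F₀ F f := by
    intro c f
    have h :=
      IsFractionRing.ringEquivOfRingEquiv_algebraMap (K := F) (L := F) e.toRingEquiv (c ⊗ₜ f)
    have e1 : ∀ t : K ⊗[K₀] F₀, algebraMap (K ⊗[K₀] F₀) F t = Φ t := fun _ => rfl
    rw [e1, e1] at h
    simpa [Φ, σF, e, tensorMap_tmul, Algebra.TensorProduct.congr_apply] using h
  refine ⟨⟨(σF, σ.toRingEquiv), fun c => ?_⟩, fun f => ?_, fun c => rfl⟩
  · simpa using hσF c 1
  · show σF (algebraMap F₀ F f) = algebraMap F₀ F f
    simpa using hσF 1 f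

/-- A semilinear extension of `σ` fixing `F₀`. -/
def liftAut (σ : K ≃ₐ[K₀] K) : SemilinearAut K F :=
  (exists_semilinearAut (F₀ := F₀) (F := F) σ).choose

local notation "lift'" => liftAut (K₀ := K₀) (F₀ := F₀) (K := K) (F := F)

include hext in
theorem liftAut_fix (σ : K ≃ₐ[K₀] K) (f : F₀) :
    lift' σ • algebraMap F₀ F f = algebraMap F₀ F f :=
  (exists_semilinearAut (F₀ := F₀) (F := F) σ).choose_spec.1 f

include hext in
theorem baseAut_liftAut (σ : K ≃ₐ[K₀] K) (c : K) :
    SemilinearAut.baseAut (lift' σ) c = σ c :=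
  (exists_semilinearAut (F₀ := F₀) (F := F) σ).choose_spec.2 c

theorem smul_mem_ordGE_iff {E L : Type*} [Field E] [Field L] [Algebra E L]
    (g : SemilinearAut E L) (v : Place E L) {f : L} {n : ℤ} :
    g • f ∈ ordGE (g • v) n ↔ f ∈ ordGE v n := by
  rw [mem_ordGE, mem_ordGE, SemilinearAut.ord_smul, smul_eq_zero_iff_eq]

theorem ev_smul_semilinear {E L : Type*} [Field E] [Field L] [Algebra E L] [IsAlgClosed E]
    [IsFunctionField E L] (g : SemilinearAut E L) (v : Place E L) {f : L}
    (hf : f ∈ ordGE v 0) : ev (g • v) (g • f) = SemilinearAut.baseAut g (ev v f) := by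
  refine ev_eq_of_sub_mem _ ?_
  rw [← SemilinearAut.smul_algebraMap, ← smul_sub, smul_mem_ordGE_iff]
  exact sub_ev_mem v hf

include hext in
theorem liftAut_smul_extPlace (σ : K ≃ₐ[K₀] K) (v : Place K₀ F₀) :
    lift' σ • extPlace K F v = extPlace K F v := by
  refine (liesOver_iff.mp fun f => ?_)
  conv_lhs => rw [← liftAut_fix (K₀ := K₀) σ f]
  rw [smul_mem_ordGE_iff]
  exact mem_ordGE_extPlace

include hext in
/-- An element with rational values at infinitely many rational places is rational. -/
theorem mem_range_of_values {h : F} {S : Set (Place K₀ F₀)} (hS : S.Infinite)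
    (hh : ∀ v ∈ S, h ∈ ordGE (extPlace K F v) 0 ∧
      ∃ a : K₀, ev (extPlace K F v) h = algebraMap K₀ K a) :
    h ∈ (algebraMap F₀ F).range := by
  let β := Module.Free.chooseBasis K₀ F₀
  have hspan : ∀ r ∈ Algebra.adjoin K (Set.range (algebraMap F₀ F)),
      r ∈ Submodule.span K (Set.range fun i => algebraMap F₀ F (β i)) := by
    intro r hr
    have hclosure : Submonoid.closure (Set.range (algebraMap F₀ F)) =
        MonoidHom.mrange (algebraMap F₀ F : F₀ →* F) := by
      refine le_antisymm (Submonoid.closure_le.mpr fun z hz => hz) ?_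
      rintro _ ⟨z, rfl⟩
      exact Submonoid.subset_closure ⟨z, rfl⟩
    rw [← Subalgebra.mem_toSubmodule, Algebra.adjoin_eq_span, hclosure] at hr
    refine Submodule.span_le.mpr ?_ hr
    rintro _ ⟨z, rfl⟩
    change algebraMap F₀ F z ∈ _
    rw [← β.linearCombination_repr z, Finsupp.linearCombination_apply, Finsupp.sum, map_sum]
    refine Submodule.sum_mem _ fun i _ => ?_
    rw [Algebra.smul_def, map_mul, ← IsScalarTower.algebraMap_apply,
      IsScalarTower.algebraMap_apply K₀ K F, ← Algebra.smul_def]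
    exact Submodule.smul_mem _ _ (Submodule.subset_span ⟨i, rfl⟩)
  obtain ⟨r, s, hrA, hsA, hs0, hrs⟩ :
      ∃ r s, r ∈ Algebra.adjoin K (Set.range (algebraMap F₀ F)) ∧
        s ∈ Algebra.adjoin K (Set.range (algebraMap F₀ F)) ∧ s ≠ 0 ∧ h * s = r := by
    obtain ⟨r, hr, s, hs, hrs⟩ := IntermediateField.mem_adjoin_iff_div.mp
      (show h ∈ IntermediateField.adjoin K (Set.range (algebraMap F₀ F)) by
        rw [hext.gen]; exact IntermediateField.mem_top)
    rcases eq_or_ne s 0 with h0 | h0
    · exact ⟨0, 1, zero_mem _, one_mem _, one_ne_zero, by rw [mul_one, hrs, h0, div_zero]⟩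
    · exact ⟨r, s, hr, hs, h0, by rw [hrs, div_mul_cancel₀ _ h0]⟩
  obtain ⟨c, hc⟩ := Finsupp.mem_span_range_iff_exists_finsupp.mp (hspan r hrA)
  obtain ⟨d, hd⟩ := Finsupp.mem_span_range_iff_exists_finsupp.mp (hspan s hsA)
  set T := c.support ∪ d.support
  have hc' : ∑ i ∈ T, c i • algebraMap F₀ F (β i) = r := by
    rw [← hc]
    exact (Finsupp.sum_of_support_subset c Finset.subset_union_left
      (fun i a => a • algebraMap F₀ F (β i)) fun i _ => zero_smul K _).symm
  have hd' : ∑ i ∈ T, d i • algebraMap F₀ F (β i) = s := by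
    rw [← hd]
    exact (Finsupp.sum_of_support_subset d Finset.subset_union_right
      (fun i a => a • algebraMap F₀ F (β i)) fun i _ => zero_smul K _).symm
  obtain ⟨j, hj⟩ : ∃ j, d j ≠ 0 := by
    by_contra h0
    push Not at h0
    exact hs0 (by rw [← hd']; simp [h0])
  obtain ⟨π, hπ⟩ : ∃ π : K →ₗ[K₀] K₀, π (d j) ≠ 0 := by
    by_contra h'
    push Not at h'
    exact hj ((Module.forall_dual_apply_eq_zero_iff K₀ (d j)).mp h')
  set a' : F₀ := ∑ i ∈ T, π (c i) • β i
  set b' : F₀ := ∑ i ∈ T, π (d i) • β i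
  have hb' : b' ≠ 0 := fun h0 => hπ (by
    have := linearIndependent_iff'.mp β.linearIndependent T (fun i => π (d i)) h0
    exact this j (Finset.mem_union_right _ (Finsupp.mem_support_iff.mpr hj)))
  have key : h * algebraMap F₀ F b' - algebraMap F₀ F a' = 0 := by
    by_contra hne
    have hfin : {v : Place K₀ F₀ | ∃ i ∈ T, β i ∉ ordGE v 0}.Finite := by
      refine (T.finite_toSet.biUnion fun i _ => finite_setOf_ord_neg (K := K₀) (β i)).subset ?_
      rintro v ⟨i, hi, hv⟩
      simp only [mem_ordGE, not_or, not_le] at hv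
      exact Set.mem_biUnion hi hv.2
    obtain ⟨v, hvS, hgood⟩ := (hS.sdiff (hfin.union ((finite_setOf_ord_pos (K := K)
      (h * algebraMap F₀ F b' - algebraMap F₀ F a')).preimage
        (extPlace_injective (K := K) (F := F)).injOn))).nonempty
    simp only [Set.mem_union, Set.mem_ofPred_eq, Set.mem_preimage, not_or, not_exists, not_and,
      not_not] at hgood
    obtain ⟨hreg, hpos⟩ := hgood
    obtain ⟨hhm, e, he⟩ := hh v hvS
    set w := extPlace K F v
    have hβ : ∀ i ∈ T, algebraMap F₀ F (β i) ∈ ordGE w 0 := fun i hi =>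
      mem_ordGE_extPlace.mpr (hreg i hi)
    have hevβ : ∀ i ∈ T, ev w (algebraMap F₀ F (β i)) = algebraMap K₀ K (ev v (β i)) :=
      fun i hi => (liesOver_extPlace v).ev_eq (hreg i hi)
    have h1 : algebraMap K₀ K e * (∑ i ∈ T, d i * algebraMap K₀ K (ev v (β i))) =
        ∑ i ∈ T, c i * algebraMap K₀ K (ev v (β i)) := by
      have := congrArg (ev w) hrs
      rw [← hd', ← hc',
        ev_mul w hhm (Submodule.sum_mem _ fun i hi => Submodule.smul_mem _ _ (hβ i hi)),
        ev_sum (v := w) _ fun i hi => Submodule.smul_mem _ _ (hβ i hi),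
        ev_sum (v := w) _ fun i hi => Submodule.smul_mem _ _ (hβ i hi), he] at this
      have hev : ∀ q : Module.Free.ChooseBasisIndex K₀ F₀ → K,
          ∑ i ∈ T, ev w (q i • algebraMap F₀ F (β i)) =
            ∑ i ∈ T, q i * algebraMap K₀ K (ev v (β i)) := fun q =>
        Finset.sum_congr rfl fun i hi => by rw [ev_smul w _ (hβ i hi), hevβ i hi]
      rw [hev, hev] at this
      exact this
    have hpi : ∀ (x : K) (y : K₀), π (x * algebraMap K₀ K y) = π x * y := fun x y => by
      rw [mul_comm, ← Algebra.smul_def, map_smul, smul_eq_mul, mul_comm]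
    have h2 := congrArg π h1
    rw [← Algebra.smul_def, map_smul, map_sum, map_sum, smul_eq_mul] at h2
    simp only [hpi] at h2
    have hb'm : b' ∈ ordGE v 0 := Submodule.sum_mem _ fun i hi => Submodule.smul_mem _ _ (hreg i hi)
    have ha'm : a' ∈ ordGE v 0 := Submodule.sum_mem _ fun i hi => Submodule.smul_mem _ _ (hreg i hi)
    have hevb : ev v b' = ∑ i ∈ T, π (d i) * ev v (β i) := by
      rw [ev_sum (v := v) _ fun i hi => Submodule.smul_mem _ _ (hreg i hi)]
      exact Finset.sum_congr rfl fun i hi => ev_smul v _ (hreg i hi)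
    have heva : ev v a' = ∑ i ∈ T, π (c i) * ev v (β i) := by
      rw [ev_sum (v := v) _ fun i hi => Submodule.smul_mem _ _ (hreg i hi)]
      exact Finset.sum_congr rfl fun i hi => ev_smul v _ (hreg i hi)
    have hB := mem_ordGE_extPlace (K := K) (F := F) |>.mpr hb'm
    have hA := mem_ordGE_extPlace (K := K) (F := F) |>.mpr ha'm
    have hmem : h * algebraMap F₀ F b' - algebraMap F₀ F a' ∈ ordGE w 0 :=
      sub_mem (by simpa using mul_mem_ordGE w hhm hB) hA
    refine hpos (Int.lt_of_add_one_le ?_)
    rw [zero_add, ← mem_ordGE_of_ne_zero w hne, ← ev_eq_zero_iff w hmem,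
      ev_sub w (by simpa using mul_mem_ordGE w hhm hB) hA, ev_mul w hhm hB, he,
      (liesOver_extPlace v).ev_eq hb'm, (liesOver_extPlace v).ev_eq ha'm, ← map_mul, ← map_sub,
      hevb, heva, h2, sub_self, map_zero]
  exact ⟨a' / b', by
    rw [map_div₀, div_eq_iff (by simpa using hb'), sub_eq_zero.mp key]⟩

include hext in
theorem extDiv_smul (σ : K ≃ₐ[K₀] K) (D : Divisor K₀ F₀) :
    lift' σ • extDiv (K := K) (F := F) D = extDiv (K := K) (F := F) D := by
  induction D using Finsupp.induction with
  | zero => simp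
  | single_add v n D _ _ ih =>
    rw [map_add, smul_add, ih]
    congr 1
    show lift' σ • Finsupp.mapDomain _ _ = _
    rw [Finsupp.mapDomain_single, SemilinearAut.smul_single, liftAut_smul_extPlace]
    exact Finsupp.mapDomain_single.symm

include hext in
theorem smul_mem_riemannRochSpace (σ : K ≃ₐ[K₀] K) {D : Divisor K₀ F₀} {h : F}
    (hh : h ∈ riemannRochSpace (extDiv (K := K) (F := F) D)) :
    lift' σ • h ∈ riemannRochSpace (extDiv (K := K) (F := F) D) := by
  rw [mem_riemannRochSpace] at hh ⊢
  intro w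
  rw [← smul_inv_smul (lift' σ) w, smul_mem_ordGE_iff]
  have : extDiv (K := K) (F := F) D (lift' σ • (lift' σ)⁻¹ • w) =
      extDiv (K := K) (F := F) D ((lift' σ)⁻¹ • w) := by
    conv_lhs => rw [← extDiv_smul σ D]
    exact SemilinearAut.divisor_smul_apply_smul _ _ _
  rw [this]
  exact hh _

include hext in
/-- **Invariance of `ℓ(D)`.** -/
theorem ell_extDiv (D : Divisor K₀ F₀) : ell (extDiv (K := K) (F := F) D) = ell D := by
  set D' := extDiv (K := K) (F := F) D
  set W := riemannRochSpace D'
  have hup : ∀ f ∈ riemannRochSpace D, algebraMap F₀ F f ∈ W := fun f hf => by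
    refine mem_riemannRochSpace.mpr fun w => ?_
    rcases eq_or_ne f 0 with rfl | hf0
    · simp
    refine mem_ordGE_of_le_ord w ?_
    by_cases h : ∃ v : Place K₀ F₀, extPlace K F v = w
    · obtain ⟨v, rfl⟩ := h
      rw [ord_extPlace, extDiv_apply]
      exact (mem_ordGE_of_ne_zero v hf0).mp (mem_riemannRochSpace.mp hf v)
    · push Not at h
      rw [extDiv_apply_of_notMem D h, neg_zero]
      by_contra hne
      obtain ⟨v, hv⟩ := exists_extPlace_of_ord_ne (K₀ := K₀) (not_le.mp hne).ne
      exact h v hv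
  refine le_antisymm ?_ ?_
  · set S : Set (Place K₀ F₀) := {v | D v = 0}
    have hS : S.Infinite := by
      have := infinite_places (K := K₀) (F := F₀)
      refine (Set.infinite_univ.sdiff D.support.finite_toSet).mono fun v hv => ?_
      simpa [S] using hv.2
    have hreg : ∀ (h : W), ∀ v ∈ S, (h : F) ∈ ordGE (extPlace K F v) 0 := fun h v hv => by
      have := mem_riemannRochSpace.mp h.2 (extPlace K F v)
      rwa [extDiv_apply, show D v = 0 from hv, neg_zero] at this
    let φ : S → Module.Dual K W := fun v =>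
      { toFun := fun h => ev (extPlace K F (v : Place K₀ F₀)) (h : F)
        map_add' := fun a b => ev_add _ (hreg a v v.2) (hreg b v v.2)
        map_smul' := fun c a => ev_smul _ c (hreg a v v.2) }
    have hsep : ∀ h : W, (∀ v, φ v h = 0) → h = 0 := by
      intro h hh
      by_contra hne
      have hne' : (h : F) ≠ 0 := fun h0 => hne (Subtype.ext h0)
      refine (hS.image (extPlace_injective (K := K) (F := F)).injOn)
        ((finite_setOf_ord_pos (K := K) (h : F)).subset ?_)
      rintro _ ⟨v, hv, rfl⟩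
      have h0 := (ev_eq_zero_iff _ (hreg h v hv)).mp (hh ⟨v, hv⟩)
      rw [mem_ordGE_of_ne_zero _ hne'] at h0
      exact Int.lt_of_add_one_le (by simpa using h0)
    have hspan : Submodule.span K (Set.range φ) = ⊤ := by
      by_contra hne
      obtain ⟨Ψ, hΨ0, hΨ⟩ := Submodule.exists_le_ker_of_lt_top _ (lt_top_iff_ne_top.mpr hne)
      obtain ⟨h, rfl⟩ := (Module.evalEquiv K W).surjective Ψ
      apply hΨ0
      rw [hsep h fun v => hΨ (Submodule.subset_span ⟨v, rfl⟩), map_zero]
    obtain ⟨B, hB, hBspan, hBli⟩ := exists_linearIndependent K (Set.range φ)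
    rw [hspan] at hBspan
    have : Finite B := hBli.finite
    have := Fintype.ofFinite B
    choose pick hpick using fun b : B => hB b.2
    let E : W →ₗ[K] (B → K) := LinearMap.pi fun b => (b : Module.Dual K W)
    have hinjE : Function.Injective E := by
      rw [injective_iff_map_eq_zero]
      intro h hh
      refine hsep h fun v => ?_
      have hmem : φ v ∈ Submodule.span K (B : Set (Module.Dual K W)) := hBspan ▸ Submodule.mem_top
      have hle : Submodule.span K (B : Set (Module.Dual K W)) ≤
          LinearMap.ker (Module.Dual.eval K W h) :=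
        Submodule.span_le.mpr fun b hb => congrFun hh ⟨b, hb⟩
      exact hle hmem
    have hcard : Fintype.card B = Module.finrank K W := by
      refine le_antisymm ?_ ?_
      · have := hBli.fintype_card_le_finrank
        rwa [Subspace.dual_finrank_eq] at this
      · have := LinearMap.finrank_le_finrank_of_injective hinjE
        rwa [Module.finrank_fintype_fun_eq_card] at this
    have hsurjE : Function.Surjective E :=
      (LinearMap.injective_iff_surjective_of_finrank_eq_finrank
        (by rw [Module.finrank_fintype_fun_eq_card, hcard])).mp hinjE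
    choose x hx using fun b : B => hsurjE (Pi.single b 1)
    have hxev : ∀ b b' : B, ev (extPlace K F (pick b' : Place K₀ F₀)) (x b : F) =
        if b' = b then 1 else 0 := fun b b' => by
      have := congrFun (hx b) b'
      rw [Pi.single_apply] at this
      rw [← this]
      exact congrArg (fun l : Module.Dual K W => l (x b)) (hpick b')
    have hfix : ∀ (σ : K ≃ₐ[K₀] K) b, lift' σ • (x b : F) = x b := by
      intro σ b
      let y : W := ⟨_, smul_mem_riemannRochSpace σ (x b).2⟩
      refine congrArg Subtype.val (hinjE (funext fun b' => ?_) : y = x b)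
      show (b' : Module.Dual K W) y = (b' : Module.Dual K W) (x b)
      rw [← hpick b']
      show ev _ (y : F) = ev _ (x b : F)
      conv_lhs => rw [← liftAut_smul_extPlace σ]
      rw [ev_smul_semilinear _ _ (hreg (x b) _ (pick b').2), baseAut_liftAut, hxev]
      split_ifs <;> simp
    have hrat : ∀ b, ∃ f ∈ riemannRochSpace D, algebraMap F₀ F f = (x b : F) := by
      intro b
      obtain ⟨f, hf⟩ := mem_range_of_values (h := (x b : F)) hS fun v hv => by
        refine ⟨hreg (x b) v hv, ?_⟩
        by_contra hne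
        push Not at hne
        obtain ⟨σ, hσ⟩ := exists_algEquiv_apply_ne (K0 := K₀)
          (a := ev (extPlace K F v) (x b : F)) (by rintro ⟨a, ha⟩; exact hne a ha.symm)
        refine hσ ?_
        rw [← baseAut_liftAut (F₀ := F₀) (F := F) σ, ← ev_smul_semilinear _ _ (hreg (x b) v hv),
          hfix, liftAut_smul_extPlace]
      refine ⟨f, mem_riemannRochSpace.mpr fun v => ?_, hf⟩
      have := mem_riemannRochSpace.mp (x b).2 (extPlace K F v)
      rw [extDiv_apply, ← hf] at this
      exact mem_ordGE_extPlace.mp this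
    choose f hf hfx using hrat
    have hli : LinearIndependent K₀ fun b => (⟨f b, hf b⟩ : riemannRochSpace D) := by
      rw [Fintype.linearIndependent_iff]
      intro c hc b
      have h0 : ∑ i, c i • f i = 0 := by simpa using congrArg Subtype.val hc
      have h1 : ∑ i, algebraMap K₀ K (c i) • x i = 0 := Subtype.ext (by
        have := congrArg (algebraMap F₀ F) h0
        rw [map_sum, map_zero] at this
        simp only [Submodule.coe_sum, Submodule.coe_smul, Submodule.coe_zero]
        rw [← this]
        refine Finset.sum_congr rfl fun i _ => ?_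
        rw [← hfx, Algebra.smul_def, Algebra.smul_def, map_mul, ← IsScalarTower.algebraMap_apply,
          ← IsScalarTower.algebraMap_apply])
      have h2 := congrFun (congrArg E h1) b
      rw [map_sum, map_zero, Finset.sum_apply, Pi.zero_apply] at h2
      simp only [map_smul, hx, Pi.smul_apply, Pi.single_apply, smul_eq_mul, mul_ite, mul_one,
        mul_zero, Finset.sum_ite_eq, Finset.mem_univ, if_true] at h2
      exact (map_eq_zero _).mp h2
    rw [ell, ← hcard]
    exact hli.fintype_card_le_finrank
  · let bD := Module.finBasis K₀ (riemannRochSpace D)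
    have hli : LinearIndependent K fun i => (⟨_, hup _ (bD i).2⟩ : W) := by
      refine LinearIndependent.of_comp W.subtype ?_
      have h : LinearIndependent K₀ fun i => ((bD i : riemannRochSpace D) : F₀) :=
        bD.linearIndependent.map' (riemannRochSpace D).subtype (Submodule.ker_subtype _)
      exact linearIndependent_algebraMap (K₀ := K₀) (K := K) (F := F) h
    simpa [ell] using hli.fintype_card_le_finrank

include hext in
/-- **Invariance of the genus.** -/
theorem genus_ext : genusFF K F = genusFF K₀ F₀ := by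
  obtain ⟨N₀, hN₀⟩ := exists_ell_eq_of_degree_ge K₀ F₀
  obtain ⟨N, hN⟩ := exists_ell_eq_of_degree_ge K F
  obtain ⟨v⟩ : Nonempty (Place K₀ F₀) := instNonemptyPlace
  set D : Divisor K₀ F₀ := Finsupp.single v (max N₀ N)
  have hd : Divisor.degree D = max N₀ N := by simp [D, deg_eq_one]
  have h1 := hN₀ D (by rw [hd]; exact le_max_left _ _)
  have h2 := hN (extDiv (K := K) (F := F) D)
    (by rw [degree_extDiv, hd]; exact le_max_right _ _)
  rw [ell_extDiv, degree_extDiv, ← natCast_genusFF_eq_riemannGenus] at h2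
  rw [← natCast_genusFF_eq_riemannGenus] at h1
  omega

include hext in
theorem isPrincipal_of_extDiv {D : Divisor K₀ F₀} (hd : Divisor.degree D = 0)
    (h : Divisor.IsPrincipal (extDiv (K := K) (F := F) D)) : Divisor.IsPrincipal D := by
  obtain ⟨g, hg0, hg⟩ := h
  have hgm : g ∈ riemannRochSpace (extDiv (K := K) (F := F) (-D)) :=
    mem_riemannRochSpace.mpr fun w => mem_ordGE_of_le_ord w (by
      rw [map_neg, Finsupp.neg_apply, neg_neg, hg])
  have hpos : 0 < ell (extDiv (K := K) (F := F) (-D)) :=
    Module.finrank_pos_iff_exists_ne_zero.mpr ⟨⟨g, hgm⟩, fun h0 => hg0 (congrArg Subtype.val h0)⟩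
  rw [ell_extDiv] at hpos
  obtain ⟨⟨f, hf⟩, hf0⟩ := Module.finrank_pos_iff_exists_ne_zero.mp hpos
  have hf0' : f ≠ 0 := fun h0 => hf0 (Subtype.ext h0)
  refine ⟨f, hf0', fun v => ?_⟩
  have hz := eq_zero_of_nonneg_of_degree (D := divOf K₀ f - D) (fun v => by
    have := (mem_ordGE_of_ne_zero v hf0').mp (mem_riemannRochSpace.mp hf v)
    simp only [Finsupp.neg_apply, neg_neg] at this
    simp only [Finsupp.coe_zero, Pi.zero_apply, Finsupp.sub_apply, divOf_apply]
    omega) (by rw [map_sub, degree_divOf, hd, sub_zero])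
  rw [← divOf_apply (K := K₀) f v, sub_eq_zero.mp hz]

variable (K₀ F₀ K F) in
/-- The extension map on `Pic⁰`. -/
def picExt : Pic0 K₀ F₀ →+ Pic0 K F :=
  QuotientAddGroup.map _ _
    (((extDiv (K := K) (F := F)).domRestrict (Divisor.degZero (K := K₀) (F := F₀))).codRestrict
      (Divisor.degZero (K := K) (F := F)) fun D =>
        Divisor.mem_degZero.mpr ((degree_extDiv _).trans (Divisor.mem_degZero.mp D.2)))
    (by
      rintro ⟨D, hD⟩ ⟨f, hf, hfD⟩
      exact ⟨algebraMap F₀ F f, by simpa using hf, fun w => ord_algebraMap_eq_extDiv hfD w⟩)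

include hext in
theorem picExt_pic {D : Divisor K₀ F₀} (hd : Divisor.degree D = 0) :
    picExt K₀ F₀ K F (pic D) = pic (extDiv (K := K) (F := F) D) := by
  rw [pic, pic, dif_pos hd, dif_pos (by rw [degree_extDiv, hd])]
  rfl

include hext in
/-- `Pic⁰` does not shrink under extension of constants. -/
theorem picExt_injective : Function.Injective (picExt K₀ F₀ K F) := by
  rw [injective_iff_map_eq_zero]
  intro x hx
  obtain ⟨⟨D, hD⟩, rfl⟩ := pic_surjective x
  rw [Function.comp_apply] at hx ⊢
  have hd := Divisor.mem_degZero.mp hD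
  rw [picExt_pic hd, pic_eq_zero_iff (by rw [degree_extDiv, hd])] at hx
  exact (pic_eq_zero_iff hd).mpr (isPrincipal_of_extDiv hd hx)

end Fermat.Agent.CurveTorsion
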