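import Mathlib
import Fermat.Agent.CurveTorsion.ConstGalois

/-!
# Torsion classes descend to the algebraically closed field of definition

`mem_range_picExt_of_finite`: a class in a finite Galois stable set comes from `K₀`, by finiteness
of the orbit of its reduced representative.  In particular finite torsion does
(`natCard_torsion_ext`).
-/

noncomputable section

set_option autoImplicit false

namespace Fermat.Agent.CurveTorsion

open AlgebraicCurve Polynomial
open Fermat.Agent.FF
open scoped Classical Pointwise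

/-- An element with finitely many conjugates over an algebraically closed subfield lies in it. -/
theorem mem_range_of_finite_orbit {K₀ K : Type*} [Field K₀] [Field K] [Algebra K₀ K]
    [IsAlgClosed K₀] [IsAlgClosed K] {a : K}
    (h : (Set.range fun σ : K ≃ₐ[K₀] K => σ a).Finite) : a ∈ (algebraMap K₀ K).range := by
  set O := h.toFinset
  set p : K[X] := ∏ o ∈ O, (X - C o)
  have hO : ∀ o, o ∈ O ↔ ∃ σ : K ≃ₐ[K₀] K, σ a = o := fun o => by simp [O]
  have hfix : ∀ (τ : K ≃ₐ[K₀] K) (i : ℕ), τ (p.coeff i) = p.coeff i := by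
    intro τ i
    have hmap : p.map (τ : K →+* K) = p := by
      rw [Polynomial.map_prod]
      refine Finset.prod_nbij τ ?_ τ.injective.injOn ?_ fun o _ => by simp
      · intro o ho
        obtain ⟨σ, rfl⟩ := (hO o).mp ho
        exact (hO _).mpr ⟨τ * σ, rfl⟩
      · intro o ho
        obtain ⟨σ, rfl⟩ := (hO o).mp ho
        exact ⟨τ.symm (σ a), (hO _).mpr ⟨τ.symm * σ, rfl⟩, τ.apply_symm_apply _⟩
    have := congrArg (fun q : K[X] => q.coeff i) hmap
    simpa [Polynomial.coeff_map] using this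
  have hlift : ∀ i, ∃ c : K₀, algebraMap K₀ K c = p.coeff i := fun i => by
    by_contra hc
    obtain ⟨σ, hσ⟩ := exists_algEquiv_apply_ne (K0 := K₀) (a := p.coeff i) fun h => hc h
    exact hσ (hfix σ i)
  obtain ⟨q, hq⟩ := (Polynomial.mem_lifts p).mp ((Polynomial.lifts_iff_coeff_lifts p).mpr hlift)
  have hmonic : p.Monic := monic_prod_of_monic _ _ fun o _ => monic_X_sub_C o
  have halg : IsAlgebraic K₀ a := by
    refine ⟨q, fun h0 => hmonic.ne_zero (by rw [← hq, h0, Polynomial.map_zero]), ?_⟩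
    rw [Polynomial.aeval_def, ← Polynomial.eval_map, hq, Polynomial.eval_prod]
    exact Finset.prod_eq_zero ((hO a).mpr ⟨1, rfl⟩) (by simp)
  obtain ⟨c, hc⟩ := minpoly.mem_range_of_degree_eq_one K₀ a
    (IsAlgClosed.degree_eq_one_of_irreducible K₀ (minpoly.irreducible halg.isIntegral))
  exact ⟨c, hc⟩

theorem pic_smul {K F : Type*} [Field K] [Field F] [Algebra K F] (g : SemilinearAut K F)
    {D : Divisor K F} (h : Divisor.degree D = 0) : g • pic D = pic (g • D) := by
  rw [pic, pic, dif_pos h, dif_pos (by rw [SemilinearAut.degree_smul, h]),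
    SemilinearAut.pic0_smul_mk]
  rfl

section reduced

variable {K F : Type*} [Field K] [Field F] [Algebra K F] [IsAlgClosed K] [IsFunctionField K F]
  (P₀ : Place K F)

/-- `E` represents `x` relative to `P₀`. -/
def Represents (E : Divisor K F) (x : Pic0 K F) : Prop :=
  0 ≤ E ∧ pic (E - Divisor.degree E • Finsupp.single P₀ 1) = x

theorem degree_rep (E : Divisor K F) :
    Divisor.degree (E - Divisor.degree E • Finsupp.single P₀ 1) = 0 := by
  rw [map_sub, map_zsmul, Divisor.degree_single, deg_eq_one]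
  simp

theorem exists_represents (x : Pic0 K F) : ∃ E, Represents P₀ E x := by
  obtain ⟨⟨D, hD⟩, rfl⟩ := pic_surjective x
  rw [Divisor.mem_degZero] at hD
  set g : ℤ := (genusFF K F : ℤ)
  have hell : 0 < ell (D + Finsupp.single P₀ g) := by
    have := genus_riemann (D + Finsupp.single P₀ g)
    simp only [map_add, hD, Divisor.degree_single, deg_eq_one, Nat.cast_one, mul_one] at this
    omega
  obtain ⟨⟨f, hf⟩, hf0⟩ := Module.finrank_pos_iff_exists_ne_zero.mp hell
  have hf0' : f ≠ 0 := fun h => hf0 (Subtype.ext h)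
  refine ⟨divOf K f + (D + Finsupp.single P₀ g), fun v => ?_, ?_⟩
  · have := (mem_ordGE_of_ne_zero v hf0').mp (mem_riemannRochSpace.mp hf v)
    simp only [Finsupp.coe_zero, Pi.zero_apply, Finsupp.add_apply, divOf_apply] at this ⊢
    omega
  · refine pic_eq_of_principal (degree_rep P₀ _) hD ⟨f, hf0', fun v => ?_⟩
    simp [degree_divOf, hD, deg_eq_one, Finsupp.smul_single]
    ring

/-- A representative of least degree. -/
def IsReduced (E : Divisor K F) (x : Pic0 K F) : Prop :=
  Represents P₀ E x ∧ ∀ E', Represents P₀ E' x → Divisor.degree E ≤ Divisor.degree E'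

theorem exists_isReduced (x : Pic0 K F) : ∃ E, IsReduced P₀ E x := by
  obtain ⟨E₀, hE₀⟩ := exists_represents P₀ x
  obtain ⟨m, ⟨E, hE, hm⟩, hmin⟩ := Int.exists_least_of_bdd
    (P := fun z => ∃ E, Represents P₀ E x ∧ Divisor.degree E = z)
    ⟨0, fun z ⟨E, hE, hz⟩ => hz ▸ by simpa using degree_mono hE.1⟩ ⟨_, E₀, hE₀, rfl⟩
  exact ⟨E, hE, fun E' hE' => hm ▸ hmin _ ⟨E', hE', rfl⟩⟩

theorem ell_of_isReduced {E : Divisor K F} {x : Pic0 K F} (h : IsReduced P₀ E x) : ell E ≤ 1 := by
  by_contra hlt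
  push Not at hlt
  have hstep := ell_sub_degree_antitone (D := E - Finsupp.single P₀ 1) (E := E)
    (sub_le_self _ (Finsupp.single_nonneg.mpr zero_le_one))
  simp only [map_sub, Divisor.degree_single, deg_eq_one, Nat.cast_one, mul_one] at hstep
  have hpos : 0 < ell (E - Finsupp.single P₀ 1) := by omega
  obtain ⟨⟨f, hf⟩, hf0⟩ := Module.finrank_pos_iff_exists_ne_zero.mp hpos
  have hf0' : f ≠ 0 := fun h0 => hf0 (Subtype.ext h0)
  have hnn : 0 ≤ divOf K f + (E - Finsupp.single P₀ 1) := fun v => by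
    have := (mem_ordGE_of_ne_zero v hf0').mp (mem_riemannRochSpace.mp hf v)
    simp only [Finsupp.coe_zero, Pi.zero_apply, Finsupp.add_apply, Finsupp.sub_apply,
      divOf_apply] at this ⊢
    omega
  have hrep : Represents P₀ (divOf K f + (E - Finsupp.single P₀ 1)) x := by
    refine ⟨hnn, h.1.2 ▸ pic_eq_of_principal (degree_rep P₀ _) (degree_rep P₀ _)
      ⟨f, hf0', fun v => ?_⟩⟩
    simp [degree_divOf, deg_eq_one, Finsupp.smul_single]
    by_cases hv : v = P₀
    · subst hv; simp; ring
    · simp [Finsupp.single_eq_of_ne hv]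
  have := h.2 _ hrep
  simp [degree_divOf, deg_eq_one] at this

theorem eq_of_isReduced {E E' : Divisor K F} {x : Pic0 K F} (h : IsReduced P₀ E x)
    (h' : IsReduced P₀ E' x) : E = E' := by
  have hd : Divisor.degree E' = Divisor.degree E := le_antisymm (h'.2 _ h.1) (h.2 _ h'.1)
  obtain ⟨f, hf0, hf⟩ : Divisor.IsPrincipal (E - E') := by
    have h2 : Divisor.degree (E - E') = 0 := by rw [map_sub, hd, sub_self]
    rw [← pic_eq_zero_iff h2]
    have e : E - E' = (E - Divisor.degree E • Finsupp.single P₀ 1) +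
        -(E' - Divisor.degree E' • Finsupp.single P₀ 1) := by rw [hd]; abel
    rw [e, pic_add (degree_rep P₀ E) (by rw [map_neg, degree_rep, neg_zero]),
      pic_neg (degree_rep P₀ E'), h.1.2, h'.1.2, add_neg_cancel]
  have hfm : f ∈ riemannRochSpace E' := mem_riemannRochSpace.mpr fun v => by
    refine mem_ordGE_of_le_ord v ?_
    rw [← hf v, Finsupp.sub_apply]
    have := h.1.1 v
    simp only [Finsupp.coe_zero, Pi.zero_apply] at this
    omega
  have h1m : (1 : F) ∈ riemannRochSpace E' := mem_riemannRochSpace.mpr fun v =>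
    ordGE_antitone v
      (by have := h'.1.1 v; simp only [Finsupp.coe_zero, Pi.zero_apply] at this; omega)
      (one_mem_ordGE_zero v)
  have hone : Module.finrank K (riemannRochSpace E') ≤ 1 := ell_of_isReduced P₀ h'
  obtain ⟨u, hu⟩ := finrank_le_one_iff.mp hone
  obtain ⟨a, ha⟩ := hu ⟨f, hfm⟩
  obtain ⟨b, hb⟩ := hu ⟨1, h1m⟩
  have hb0 : b ≠ 0 := fun h0 => by
    have := congrArg Subtype.val hb
    simp [h0] at this
  have hfc : f = algebraMap K F (a / b) := by
    have e1 : a • (u : F) = f := congrArg Subtype.val ha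
    have e2 : b • (u : F) = 1 := congrArg Subtype.val hb
    rw [← e1, Algebra.algebraMap_eq_smul_one, ← e2, smul_smul, div_mul_cancel₀ _ hb0]
  refine sub_eq_zero.mp (Finsupp.ext fun v => ?_)
  rw [hf v, hfc, ord_algebraMap]
  rfl

end reduced

variable {K₀ F₀ K F : Type*} [Field K₀] [Field F₀] [Field K] [Field F] [Algebra K₀ F₀]
  [Algebra K₀ K] [Algebra K F] [Algebra F₀ F] [Algebra K₀ F] [IsScalarTower K₀ K F]
  [IsScalarTower K₀ F₀ F] [IsAlgClosed K₀] [IsAlgClosed K] [IsFunctionField K₀ F₀]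
  [IsFunctionField K F] [hext : IsConstExt F₀ K F]

include hext in
/-- **Descent**: a class in a finite set stable under the Galois group comes from `K₀`. -/
theorem mem_range_picExt_of_finite {Y : Set (Pic0 K F)} (hY : Y.Finite)
    (hYs : ∀ (σ : K ≃ₐ[K₀] K), ∀ y ∈ Y, liftAut (F₀ := F₀) (F := F) σ • y ∈ Y)
    {x : Pic0 K F} (hx : x ∈ Y) : x ∈ (picExt K₀ F₀ K F).range := by
  have := hY.to_subtype
  obtain ⟨v₀⟩ : Nonempty (Place K₀ F₀) := instNonemptyPlace
  set P₀ := extPlace K F v₀
  choose E hE using fun y : Pic0 K F => exists_isReduced P₀ y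
  have hequiv : ∀ (σ : K ≃ₐ[K₀] K) (y : Pic0 K F),
      E (liftAut (F₀ := F₀) (F := F) σ • y) = liftAut (F₀ := F₀) (F := F) σ • E y := by
    intro σ y
    set g := liftAut (K₀ := K₀) (F₀ := F₀) (F := F) σ
    have hP : g • P₀ = P₀ := liftAut_smul_extPlace σ v₀
    have hrep : ∀ (h : SemilinearAut K F), h • P₀ = P₀ → ∀ (D : Divisor K F) (z : Pic0 K F),
        Represents P₀ D z → Represents P₀ (h • D) (h • z) := by
      rintro h hh D z ⟨hD, rfl⟩
      refine ⟨fun v => ?_, ?_⟩
      · rw [SemilinearAut.divisor_smul_apply]; exact hD _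
      · rw [pic_smul h (degree_rep P₀ D), SemilinearAut.degree_smul, smul_sub,
          ← DistribSMul.toAddMonoidHom_apply (Divisor K F) h (_ • _), map_zsmul,
          DistribSMul.toAddMonoidHom_apply, SemilinearAut.smul_single, hh]
    refine eq_of_isReduced P₀ (hE _) ⟨hrep g hP _ _ (hE y).1, fun E' hE' => ?_⟩
    have h1 := hrep g⁻¹ (inv_smul_eq_iff.mpr hP.symm) E' _ hE'
    rw [inv_smul_smul] at h1
    simpa using (hE y).2 _ h1
  set U : Set (Place K F) := ⋃ y : Y, (E y.1).support
  have hU : U.Finite := Set.finite_iUnion fun y => (E y).support.finite_toSet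
  obtain ⟨X₀, hX₀⟩ := hext.exists_transcendental
  set X := algebraMap F₀ F X₀
  have hsupp : ∀ w ∈ (E x).support, ∃ v : Place K₀ F₀, extPlace K F v = w := by
    intro w hw
    by_cases hreg : X ∈ ordGE w 0
    · obtain ⟨a, ha⟩ := mem_range_of_finite_orbit (K₀ := K₀) (a := ev w X) (by
        refine (hU.image fun u => ev u X).subset ?_
        rintro _ ⟨σ, rfl⟩
        refine ⟨liftAut (F₀ := F₀) (F := F) σ • w, Set.mem_iUnion.mpr
          ⟨⟨_, hYs σ x hx⟩, ?_⟩, ?_⟩
        · rw [Finset.mem_coe, Finsupp.mem_support_iff, hequiv,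
            SemilinearAut.divisor_smul_apply_smul]
          exact Finsupp.mem_support_iff.mp hw
        · show ev _ X = _
          conv_lhs => rw [show X = liftAut (F₀ := F₀) (F := F) σ • X from (liftAut_fix σ X₀).symm]
          rw [ev_smul_semilinear _ _ hreg, baseAut_liftAut])
      have hmap : algebraMap F₀ F (X₀ - algebraMap K₀ F₀ a) = X - algebraMap K F (ev w X) := by
        rw [map_sub, ← ha, ← IsScalarTower.algebraMap_apply, ← IsScalarTower.algebraMap_apply]
      refine exists_extPlace_of_ord_ne (f := X₀ - algebraMap K₀ F₀ a) ?_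
      have hne : X - algebraMap K F (ev w X) ≠ 0 := fun h0 =>
        hX₀ (show IsAlgebraic K X by rw [sub_eq_zero.mp h0]; exact isAlgebraic_algebraMap _)
      have := (mem_ordGE_of_ne_zero w hne).mp (sub_ev_mem w hreg)
      rw [hmap]
      omega
    · refine exists_extPlace_of_ord_ne (f := X₀) ?_
      simp only [mem_ordGE, not_or, not_le] at hreg
      exact hreg.2.ne
  have hinj := (extPlace_injective (K₀ := K₀) (F₀ := F₀) (K := K) (F := F))
  set E₀ : Divisor K₀ F₀ := Finsupp.comapDomain (extPlace K F) (E x) hinj.injOn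
  have hE₀ : extDiv (K := K) (F := F) E₀ = E x :=
    Finsupp.mapDomain_comapDomain _ hinj _ fun w hw => hsupp w hw
  refine ⟨pic (E₀ - Divisor.degree E₀ • Finsupp.single v₀ 1), ?_⟩
  rw [picExt_pic (degree_rep v₀ E₀), map_sub, map_zsmul, hE₀, ← degree_extDiv (K := K) (F := F) E₀,
    hE₀]
  have hs : extDiv (K := K) (F := F) (Finsupp.single v₀ (1 : ℤ)) = Finsupp.single P₀ 1 :=
    Finsupp.mapDomain_single
  rw [hs]
  exact (hE x).1.2

include hext in
/-- The number of `n`-torsion classes does not change under extension of constants. -/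
theorem natCard_torsion_ext (n : ℕ) [Finite (Pic0.torsion K F n)] :
    Nat.card (Pic0.torsion K₀ F₀ n) = Nat.card (Pic0.torsion K F n) := by
  have hmem : ∀ x, x ∈ Pic0.torsion K₀ F₀ n ↔ picExt K₀ F₀ K F x ∈ Pic0.torsion K F n := fun x => by
    rw [Pic0.mem_torsion, Pic0.mem_torsion, ← map_zsmul]
    exact ((injective_iff_map_eq_zero _).mp picExt_injective _ |>
      fun h => ⟨fun e => by rw [e, map_zero], h⟩)
  refine Nat.card_congr (Equiv.ofBijective (fun x => ⟨_, (hmem x.1).mp x.2⟩) ⟨fun a b hab =>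
    Subtype.ext (picExt_injective (congrArg Subtype.val hab)), fun y => ?_⟩)
  obtain ⟨x, hx⟩ := mem_range_picExt_of_finite (K₀ := K₀) (F₀ := F₀)
    (Set.toFinite (Pic0.torsion K F n : Set (Pic0 K F)))
    (fun σ _ hz => SemilinearAut.smul_mem_torsion (liftAut (F₀ := F₀) (F := F) σ) hz) y.2
  exact ⟨⟨x, (hmem x).mpr (hx ▸ y.2)⟩, Subtype.ext hx⟩

end Fermat.Agent.CurveTorsion
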