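import Mathlib
import Fermat.Agent.CurveTorsion.Descent
import Fermat.Agent.CurveTorsion.Complex

/-!
# Countable models, and `#Pic⁰[n] = n^{2g}` in characteristic zero

`natCard_torsion` is the main theorem: every function field is reduced to a countable model and
then to one over `ℂ`.
-/

noncomputable section

set_option autoImplicit false

namespace Fermat.Agent.CurveTorsion

open AlgebraicCurve Polynomial IntermediateField
open Fermat.Agent.FF
open scoped Classical
open scoped IntermediateField.algebraAdjoinAdjoin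

/-- A countable model embeds in a function field over `ℂ`. -/
theorem exists_complex_model {K₀ F₀ : Type*} [Field K₀] [Field F₀] [Algebra K₀ F₀]
    [IsAlgClosed K₀] [CharZero K₀] [Countable K₀] [IsFunctionField K₀ F₀] :
    ∃ (_ : Algebra K₀ ℂ) (F : Type) (_ : Field F) (_ : Algebra ℂ F) (_ : Algebra F₀ F)
      (_ : Algebra K₀ F) (_ : IsScalarTower K₀ ℂ F) (_ : IsScalarTower K₀ F₀ F)
      (_ : IsFunctionField ℂ F), IsConstExt F₀ ℂ F := by
  obtain ⟨ι⟩ := nonempty_ringHom_complex K₀
  let : Algebra K₀ ℂ := ι.toAlgebra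
  obtain ⟨x₀, hx₀, hfin⟩ := IsFunctionField.exists_transcendental_finite (K := K₀) (F := F₀)
  have := hfin
  set Ω := AlgebraicClosure (RatFunc ℂ)
  set X : Ω := algebraMap (RatFunc ℂ) Ω RatFunc.X
  have hX : Transcendental ℂ X := by
    have := RatFunc.transcendental_X (K := ℂ)
    exact (transcendental_algebraMap_iff (algebraMap (RatFunc ℂ) Ω).injective).mpr this
  have hX0 : Transcendental K₀ X := fun h => hX (h.extendScalars ι.injective)
  let ψ : Algebra.adjoin K₀ {x₀} →ₐ[K₀] Ω :=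
    (Polynomial.aeval X).comp
      ((AlgEquiv.ofInjective _ (transcendental_iff_injective.mp hx₀)).symm.toAlgHom.comp
        (Subalgebra.equivOfEq _ _ (Algebra.adjoin_singleton_eq_range_aeval K₀ x₀)).toAlgHom)
  have hψ : Function.Injective ψ.toRingHom := fun a b h =>
    (Subalgebra.equivOfEq _ _ (Algebra.adjoin_singleton_eq_range_aeval K₀ x₀)).injective
      ((AlgEquiv.ofInjective _ (transcendental_iff_injective.mp hx₀)).symm.injective
      (transcendental_iff_injective.mp hX0 h))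
  let φ : K₀⟮x₀⟯ →+* Ω := IsFractionRing.lift (A := Algebra.adjoin K₀ {x₀}) hψ
  let : Algebra K₀⟮x₀⟯ Ω := φ.toAlgebra
  let j₀ : F₀ →ₐ[K₀⟮x₀⟯] Ω := IsAlgClosed.lift
  let j : F₀ →+* Ω := j₀.toRingHom
  have hjK : ∀ c : K₀, j (algebraMap K₀ F₀ c) = algebraMap K₀ Ω c := fun c => by
    show j₀ _ = _
    rw [IsScalarTower.algebraMap_apply K₀ K₀⟮x₀⟯ F₀, j₀.commutes]
    show φ (algebraMap K₀ K₀⟮x₀⟯ c) = _
    rw [IsScalarTower.algebraMap_apply K₀ (Algebra.adjoin K₀ {x₀}) K₀⟮x₀⟯]
    show IsFractionRing.lift _ _ = _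
    rw [IsFractionRing.lift_algebraMap]
    exact ψ.commutes c
  have hjx : j x₀ = X := by
    have e1 : x₀ = algebraMap K₀⟮x₀⟯ F₀ (algebraMap (Algebra.adjoin K₀ {x₀}) K₀⟮x₀⟯
        ⟨x₀, Algebra.subset_adjoin rfl⟩) := rfl
    show j₀ x₀ = _
    refine (congrArg j₀ e1).trans ?_
    rw [j₀.commutes]
    show IsFractionRing.lift _ _ = _
    rw [IsFractionRing.lift_algebraMap]
    show Polynomial.aeval X ((AlgEquiv.ofInjective _ (transcendental_iff_injective.mp hx₀)).symm
      (Subalgebra.equivOfEq _ _ (Algebra.adjoin_singleton_eq_range_aeval K₀ x₀)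
        ⟨x₀, Algebra.subset_adjoin rfl⟩)) = X
    have e2 : (AlgEquiv.ofInjective _ (transcendental_iff_injective.mp hx₀)) Polynomial.X =
        Subalgebra.equivOfEq _ _ (Algebra.adjoin_singleton_eq_range_aeval K₀ x₀)
          ⟨x₀, Algebra.subset_adjoin rfl⟩ := Subtype.ext (by simp)
    rw [← e2, AlgEquiv.symm_apply_apply]
    exact Polynomial.aeval_X X
  let F : IntermediateField ℂ Ω := IntermediateField.adjoin ℂ (Set.range j)
  let : Algebra F₀ F :=
    (RingHom.codRestrict j F fun z => IntermediateField.subset_adjoin ℂ _ ⟨z, rfl⟩).toAlgebra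
  have : IsScalarTower K₀ F₀ F := IsScalarTower.of_algebraMap_eq fun c => Subtype.ext (hjK c).symm
  have hext : IsConstExt F₀ ℂ F := by
    refine ⟨?_, x₀, fun h => hX ?_⟩
    · apply IntermediateField.map_injective F.val
      rw [IntermediateField.adjoin_map, ← AlgHom.fieldRange_eq_map,
        IntermediateField.fieldRange_val]
      exact congrArg (IntermediateField.adjoin ℂ) (Set.range_comp _ _).symm
    · rw [← hjx]
      exact h.algHom F.val
  have : IsFunctionField ℂ F := isFunctionField_ext K₀ F₀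
  exact ⟨inferInstance, F, inferInstance, inferInstance, inferInstance, inferInstance,
    inferInstance, inferInstance, this, hext⟩

/-- The theorem for countable models. -/
theorem natCard_torsion_of_countable {K₀ F₀ : Type*} [Field K₀] [Field F₀] [Algebra K₀ F₀]
    [IsAlgClosed K₀] [CharZero K₀] [Countable K₀] [IsFunctionField K₀ F₀] (n : ℕ) (hn : n ≠ 0) :
    Finite (Pic0.torsion K₀ F₀ n) ∧
      Nat.card (Pic0.torsion K₀ F₀ n) = n ^ (2 * genusFF K₀ F₀) := by
  obtain ⟨_, F, _, _, _, _, _, _, _, _⟩ := exists_complex_model (K₀ := K₀) (F₀ := F₀)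
  have hC := natCard_torsion_complex (F := F) n hn
  have : Finite (Pic0.torsion ℂ F n) := Nat.finite_of_card_ne_zero (hC ▸ pow_ne_zero _ hn)
  have h := natCard_torsion_ext (K₀ := K₀) (F₀ := F₀) (K := ℂ) (F := F) n
  rw [hC, genus_ext (K₀ := K₀) (F₀ := F₀)] at h
  exact ⟨Nat.finite_of_card_ne_zero (h ▸ pow_ne_zero _ hn), h⟩

variable {K F : Type*} [Field K] [Field F] [Algebra K F] [IsAlgClosed K] [CharZero K]
  [IsFunctionField K F]

/-- A countable model of `F` seeing finitely many given places. -/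
theorem exists_countable_model (T : Finset (Place K F)) :
    ∃ (K₀ : Subfield K) (F₀ : IntermediateField K₀ F), Countable K₀ ∧ IsAlgClosed K₀ ∧
      IsFunctionField K₀ F₀ ∧ IsConstExt F₀ K F ∧
      ∀ w ∈ T, ∃ f : F₀, w.ord (f : F) ≠ 0 := by
  obtain ⟨x, hx, hfin⟩ := IsFunctionField.exists_transcendental_finite (K := K) (F := F)
  have := hfin
  have : CharZero F := charZero_of_injective_algebraMap (algebraMap K F).injective
  have : CharZero K⟮x⟯ := charZero_of_injective_algebraMap (algebraMap K K⟮x⟯).injective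
  obtain ⟨y, hy⟩ := Field.exists_primitive_element K⟮x⟯ F
  set P := (minpoly K⟮x⟯ y).map (algebraMap K⟮x⟯ F)
  have hc : ∀ i, ∃ r s : K[X], P.coeff i = aeval x r / aeval x s := fun i => by
    rw [Polynomial.coeff_map]
    exact (IntermediateField.mem_adjoin_simple_iff K _).mp ((minpoly K⟮x⟯ y).coeff i).2
  choose r s hrs using hc
  set S : Finset K := (P.support.biUnion fun i => (r i).coeffs ∪ (s i).coeffs) ∪
    T.image fun w => ev w x
  obtain ⟨K₀, hcnt, hK₀, hS⟩ := exists_countable_algClosed S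
  have := hcnt
  have := hK₀
  have hmem : ∀ (q : K[X]), (∀ c ∈ q.coeffs, c ∈ K₀) → aeval x q ∈ K₀⟮x⟯ := by
    intro q hq
    obtain ⟨q₀, rfl⟩ := (Polynomial.mem_lifts q).mp
      ((Polynomial.lifts_iff_coeff_lifts q).mpr fun i => by
        by_cases h : q.coeff i = 0
        · exact ⟨0, by rw [h, map_zero]⟩
        · exact ⟨⟨_, hq _ (Polynomial.coeff_mem_coeffs h)⟩, rfl⟩ :
      q ∈ Polynomial.lifts (algebraMap K₀ K))
    rw [aeval_map_algebraMap]
    exact algebra_adjoin_le_adjoin K₀ _ (aeval_mem_adjoin_singleton K₀ x)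
  have hyint : IsIntegral K₀⟮x⟯ y := by
    have hP : P ∈ Polynomial.lifts (algebraMap K₀⟮x⟯ F) :=
      (Polynomial.lifts_iff_coeff_lifts _).mpr fun i => by
        by_cases h : i ∈ P.support
        · refine ⟨⟨P.coeff i, ?_⟩, rfl⟩
          rw [hrs]
          refine div_mem (hmem _ fun c hc => hS c ?_) (hmem _ fun c hc => hS c ?_)
          all_goals exact Finset.mem_union_left _ (Finset.mem_biUnion.mpr ⟨i, h, by simp [hc]⟩)
        · exact ⟨0, by simp [Polynomial.notMem_support_iff.mp h]⟩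
    have hm : P.Monic := (minpoly.monic (IsIntegral.of_finite _ y)).map _
    obtain ⟨q, hq, -, hqm⟩ := Polynomial.lifts_and_degree_eq_and_monic hP hm
    refine ⟨q, hqm, ?_⟩
    rw [← Polynomial.eval_map, hq, Polynomial.eval_map, ← Polynomial.aeval_def, minpoly.aeval]
  have := IntermediateField.adjoin.finiteDimensional hyint
  set F₀ : IntermediateField K₀ F := (K₀⟮x⟯⟮y⟯).restrictScalars K₀
  have hxF : x ∈ F₀ := (K₀⟮x⟯⟮y⟯).algebraMap_mem ⟨x, mem_adjoin_simple_self K₀ x⟩
  have hyF : y ∈ F₀ := mem_adjoin_simple_self K₀⟮x⟯ y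
  have hx0 : Transcendental K₀ (⟨x, hxF⟩ : F₀) := fun h =>
    hx ((h.algHom F₀.val).extendScalars (algebraMap K₀ K).injective)
  have hFF : IsFunctionField K₀ F₀ := by
    let x' : F₀ := ⟨x, hxF⟩
    have hmap : K₀⟮x'⟯.map F₀.val = K₀⟮x⟯ := by
      rw [IntermediateField.adjoin_map, Set.image_singleton]; rfl
    let e₁ : K₀⟮x⟯ ≃+* K₀⟮x'⟯ :=
      ((IntermediateField.equivMap _ F₀.val).trans
        (IntermediateField.equivOfEq hmap)).symm.toRingEquiv
    have : Module.Finite K₀⟮x'⟯ F₀ := by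
      refine Module.Finite.of_equiv_equiv (A₁ := K₀⟮x⟯) (B₁ := K₀⟮x⟯⟮y⟯) e₁ (RingEquiv.refl _) ?_
      refine RingHom.ext fun z => ?_
      obtain ⟨z', rfl⟩ := ((IntermediateField.equivMap _ F₀.val).trans
        (IntermediateField.equivOfEq hmap)).surjective z
      have hz : e₁ (((IntermediateField.equivMap _ F₀.val).trans
          (IntermediateField.equivOfEq hmap)) z') = z' := AlgEquiv.symm_apply_apply _ z'
      rw [RingHom.comp_apply, RingHom.comp_apply]
      show algebraMap K₀⟮x'⟯ F₀ (e₁ _) = _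
      rw [hz]
      rfl
    exact IsFunctionField.of_finite x' hx0
  have := hFF
  refine ⟨K₀, F₀, hcnt, hK₀, hFF, ⟨?_, ⟨⟨x, hxF⟩, hx⟩⟩, fun w hw => ?_⟩
  · have h1 : (K⟮x⟯⟮y⟯).restrictScalars K = ⊤ := by rw [hy, IntermediateField.restrictScalars_top]
    rw [eq_top_iff, ← h1, IntermediateField.adjoin_simple_adjoin_simple,
      IntermediateField.adjoin_le_iff]
    rintro z (rfl | rfl)
    · exact IntermediateField.subset_adjoin K _ ⟨⟨_, hxF⟩, rfl⟩
    · exact IntermediateField.subset_adjoin K _ ⟨⟨_, hyF⟩, rfl⟩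
  · by_cases hreg : x ∈ ordGE w 0
    · let a : K₀ := ⟨ev w x, hS _ (Finset.mem_union_right _ (Finset.mem_image.mpr ⟨w, hw, rfl⟩))⟩
      refine ⟨⟨x, hxF⟩ - algebraMap K₀ F₀ a, ?_⟩
      show w.ord (x - algebraMap K₀ F a) ≠ 0
      rw [IsScalarTower.algebraMap_apply K₀ K F]
      have hne : x - algebraMap K F (ev w x) ≠ 0 := fun h0 =>
        hx (by rw [sub_eq_zero.mp h0]; exact isAlgebraic_algebraMap _)
      have := (mem_ordGE_of_ne_zero w hne).mp (sub_ev_mem w hreg)
      show w.ord (x - algebraMap K F (ev w x)) ≠ 0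
      omega
    · refine ⟨⟨x, hxF⟩, ?_⟩
      simp only [mem_ordGE, not_or, not_le] at hreg
      exact hreg.2.ne

/-- **`#Pic⁰[n] = n^{2g}`** over an algebraically closed field of characteristic zero. -/
theorem natCard_torsion (n : ℕ) (hn : n ≠ 0) :
    Nat.card (Pic0.torsion K F n) = n ^ (2 * genusFF K F) := by
  set N := n ^ (2 * genusFF K F) with hN
  have hbound : ∀ s : Finset (Pic0.torsion K F n), s.card ≤ N := by
    intro s
    choose D hD using fun t : Pic0.torsion K F n => pic_surjective t.1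
    replace hD : ∀ t, pic (D t).1 = t.1 := hD
    obtain ⟨K₀, F₀, _, _, _, _, hT⟩ :=
      exists_countable_model (s.biUnion fun t => (D t).1.support)
    obtain ⟨hfin, hcard⟩ := natCard_torsion_of_countable (K₀ := K₀) (F₀ := F₀) n hn
    have hinj := extPlace_injective (K₀ := K₀) (F₀ := F₀) (K := K) (F := F)
    have hlift : ∀ t : s, ∃ z : Pic0.torsion K₀ F₀ n, picExt K₀ F₀ K F z.1 = t.1.1 := by
      rintro ⟨t, ht⟩
      set E₀ : Divisor K₀ F₀ := Finsupp.comapDomain (extPlace K F) (D t).1 hinj.injOn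
      have hE₀ : extDiv (K := K) (F := F) E₀ = (D t).1 :=
        Finsupp.mapDomain_comapDomain _ hinj _ fun w hw => by
          obtain ⟨f, hf⟩ := hT w (Finset.mem_biUnion.mpr ⟨t, ht, hw⟩)
          exact exists_extPlace_of_ord_ne hf
      have hd : Divisor.degree E₀ = 0 := by
        rw [← degree_extDiv (K := K) (F := F), hE₀]; exact (D t).2
      have hz : picExt K₀ F₀ K F (pic E₀) = t.1 := by rw [picExt_pic hd, hE₀, hD]
      refine ⟨⟨pic E₀, ?_⟩, hz⟩
      rw [Pic0.mem_torsion]
      refine picExt_injective (K₀ := K₀) (F₀ := F₀) (K := K) (F := F) ?_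
      rw [map_zsmul, hz, map_zero]
      exact Pic0.mem_torsion.mp t.2
    choose z hz using hlift
    have hle := Nat.card_le_card_of_injective z fun a b hab =>
      Subtype.ext (Subtype.ext (by rw [← hz a, ← hz b, hab]))
    rw [hcard, Nat.card_eq_finsetCard, ← genus_ext (K₀ := K₀) (F₀ := F₀) (K := K) (F := F)] at hle
    exact hle
  have : Finite (Pic0.torsion K F n) := by
    by_contra hinf
    rw [not_finite_iff_infinite] at hinf
    obtain ⟨s, hs⟩ := Infinite.exists_subset_card_eq (Pic0.torsion K F n) (N + 1)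
    have := hbound s
    omega
  obtain ⟨K₀, F₀, _, _, _, _, -⟩ := exists_countable_model (K := K) (F := F) ∅
  obtain ⟨hfin, hcard⟩ := natCard_torsion_of_countable (K₀ := K₀) (F₀ := F₀) n hn
  rw [hN, ← natCard_torsion_ext (K₀ := K₀) (F₀ := F₀) (K := K) (F := F) n, hcard,
    genus_ext (K₀ := K₀) (F₀ := F₀) (K := K) (F := F)]

end Fermat.Agent.CurveTorsion
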